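import Fermat.Agent.ThompsonTransfer.PComp
import Mathlib.GroupTheory.Focal
import Mathlib.GroupTheory.Nilpotent

/-!
# Frobenius' normal `p`-complement theorem

If the elements of order prime to `p` which normalise a `p`-subgroup centralise it, then a Sylow
subgroup controls its own fusion, so by the focal subgroup theorem there is a normal
`p`-complement.
-/

set_option autoImplicit false
set_option linter.style.haveILetI false

namespace FA.Thompson

open Subgroup
open scoped commutatorElement

/-- The elements of order prime to `p` normalising a `p`-subgroup centralise it. -/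
def LocalControl (p : ℕ) (G : Type*) [Group G] : Prop :=
  ∀ X : Subgroup G, IsPGroup p X → ∀ g ∈ normalizer (X : Set G), Reg p g →
    g ∈ centralizer (X : Set G)

variable {p : ℕ} [hp : Fact p.Prime] {G : Type*} [Group G] [Finite G]

omit [Finite G] in
theorem localControl_of_pcomp
    (h : ∀ X : Subgroup G, IsPGroup p X → X ≠ ⊥ → PCompOn p (normalizer (X : Set G))) :
    LocalControl p G := by
  intro X hX g hg hgr
  rw [mem_centralizer_iff]
  intro x hx
  rcases eq_or_ne X ⊥ with rfl | hne
  · rw [SetLike.mem_coe, mem_bot] at hx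
    rw [hx, one_mul, mul_one]
  have hxN : x ∈ normalizer (X : Set G) := le_normalizer hx
  have h1 : Reg p (g * (x * g⁻¹ * x⁻¹)) :=
    h X hX hne g hg _ (mul_mem (mul_mem hxN (inv_mem hg)) (inv_mem hxN)) hgr
      (reg_conj_iff.2 hgr.inv)
  have h2 : g * (x * g⁻¹ * x⁻¹) ∈ X := by
    rw [← mul_assoc, ← mul_assoc]
    exact X.mul_mem (((mem_normalizer_iff).1 hg x).1 hx) (X.inv_mem hx)
  have h3 := h1.eq_one_of_isPGroup hX h2
  rw [← mul_assoc, mul_inv_eq_one, ← mul_assoc, mul_inv_eq_iff_eq_mul] at h3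
  exact h3.symm

omit hp [Finite G] in
theorem mem_conj_smul {c x : G} {S : Sylow p G} : x ∈ c • S ↔ c⁻¹ * x * c ∈ S := by
  show x ∈ ((c • S : Sylow p G) : Subgroup G) ↔ _
  rw [Sylow.coe_subgroup_smul, Subgroup.mem_pointwise_smul_iff_inv_smul_mem]
  simp [MulAut.smul_def]
  rfl

/-- A proper subgroup of a `p`-group is properly contained in its normaliser. -/
theorem exists_normalizing {S D : Subgroup G} (hS : IsPGroup p S) (hD : D < S) :
    ∃ x ∈ S, x ∉ D ∧ x ∈ normalizer (D : Set G) := by
  haveI : Group.IsNilpotent S := hS.isNilpotent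
  have hne : D.subgroupOf S < ⊤ := lt_top_iff_ne_top.2 fun h =>
    hD.not_ge (subgroupOf_eq_top.1 h)
  obtain ⟨x, hx, hxD⟩ := SetLike.exists_of_lt (Group.normalizerCondition_of_isNilpotent _ hne)
  refine ⟨x, x.2, fun h => hxD (mem_subgroupOf.2 h), mem_normalizer_iff.2 fun d => ?_⟩
  have hx' := mem_normalizer_iff.1 hx
  constructor
  · intro hd
    exact mem_subgroupOf.1 ((hx' ⟨d, hD.le hd⟩).1 (mem_subgroupOf.2 hd))
  · intro hd
    have hdS : d ∈ S := by
      have := S.mul_mem (S.mul_mem (S.inv_mem x.2) (hD.le hd)) x.2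
      simpa [mul_assoc] using this
    exact mem_subgroupOf.1 ((hx' ⟨d, hdS⟩).2 (mem_subgroupOf.2 hd))

theorem exists_centralizer_smul_eq (h : LocalControl p G) (S T : Sylow p G) :
    ∃ c ∈ centralizer (((S : Subgroup G) ⊓ T : Subgroup G) : Set G), c • S = T := by
  suffices ∀ (n : ℕ) (S T : Sylow p G),
      Nat.card G - Nat.card ((S : Subgroup G) ⊓ T : Subgroup G) = n →
      ∃ c ∈ centralizer (((S : Subgroup G) ⊓ T : Subgroup G) : Set G), c • S = T from this _ S T rfl
  intro n
  induction n using Nat.strong_induction_on with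
  | _ n ih =>
    intro S T hn
    set D : Subgroup G := (S : Subgroup G) ⊓ T with hD
    by_cases hST : (S : Subgroup G) ≤ T
    · exact ⟨1, one_mem _, by rw [one_smul]; exact Sylow.ext (S.3 T.2 hST).symm⟩
    have hTS : ¬ (T : Subgroup G) ≤ S := fun hle => hST (T.3 S.2 hle).le
    have hDS : D < S := lt_of_le_of_ne inf_le_left fun he => hST (he ▸ inf_le_right)
    have hDT : D < T := lt_of_le_of_ne inf_le_right fun he => hTS (he ▸ inf_le_left)
    obtain ⟨x, hxS, hxD, hxN⟩ := exists_normalizing S.2 hDS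
    obtain ⟨y, hyT, hyD, hyN⟩ := exists_normalizing T.2 hDT
    set N := normalizer (D : Set G) with hN
    obtain ⟨U, hU⟩ := IsPGroup.exists_le_sylow
      (IsPGroup.comap_subtype (S.2.to_le inf_le_left : IsPGroup p ((S : Subgroup G) ⊓ N : Subgroup G))
        (K := N))
    obtain ⟨V, hV⟩ := IsPGroup.exists_le_sylow
      (IsPGroup.comap_subtype (T.2.to_le inf_le_left : IsPGroup p ((T : Subgroup G) ⊓ N : Subgroup G))
        (K := N))
    obtain ⟨m, hm⟩ := MulAction.exists_smul_eq N U V
    -- `m` may be taken in the centraliser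
    let φ := D.normalizerMonoidHom
    have hDp : IsPGroup p D := S.2.to_le inf_le_left
    have himg : IsPGroup p φ.range := by
      intro q
      obtain ⟨g, hg⟩ := q.2
      obtain ⟨a, b, -, hb, hab, ⟨k, hk⟩, hbr⟩ := exists_decomp (p := p) g
      refine ⟨k, Subtype.ext ?_⟩
      have hb1 : φ b = 1 := by
        rw [← MonoidHom.mem_ker, Subgroup.normalizerMonoidHom_ker, mem_subgroupOf]
        exact h D hDp b b.2 ((reg_map_iff (f := N.subtype) N.subtype_injective).2 hbr)
      push_cast
      rw [← hg, hab, map_mul, hb1, mul_one, ← map_pow, hk, map_one]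
    haveI : Finite φ.range := Finite.of_surjective φ.rangeRestrict φ.rangeRestrict_surjective
    have hUtop : (U.mapSurjective φ.rangeRestrict_surjective : Subgroup φ.range) = ⊤ :=
      (U.mapSurjective φ.rangeRestrict_surjective).3 (himg.to_subgroup ⊤) le_top |>.symm
    obtain ⟨u, hu, huφ⟩ : φ.rangeRestrict m ∈ (U : Subgroup N).map φ.rangeRestrict := by
      rw [← Sylow.coe_mapSurjective φ.rangeRestrict_surjective, hUtop]
      exact mem_top _
    set c : N := m * u⁻¹
    have hcC : (c : G) ∈ centralizer (D : Set G) := by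
      have : φ c = 1 := by
        rw [show φ c = φ m * (φ u)⁻¹ by rw [map_mul, map_inv],
          show φ u = φ m from congrArg Subtype.val huφ, mul_inv_cancel]
      rwa [← MonoidHom.mem_ker, Subgroup.normalizerMonoidHom_ker, mem_subgroupOf] at this
    have hcV : c • U = V := by
      rw [mul_smul, ← hm, Sylow.smul_eq_iff_mem_normalizer.2 (le_normalizer (inv_mem hu))]
    obtain ⟨W, hW⟩ := (U.2.map N.subtype).exists_le_sylow
    have hlt : ∀ (R : Subgroup G), D ≤ R → (∃ z ∈ R, z ∉ D) → Nat.card D < Nat.card R :=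
      fun R hR ⟨z, hz, hzD⟩ => Set.ncard_lt_ncard (Set.ssubset_iff_exists.2 ⟨hR, z, hz, hzD⟩)
        (Set.toFinite _)
    have hle : Nat.card D ≤ Nat.card G := Subgroup.card_le_card_group D
    have hSW : ∀ z ∈ (S : Subgroup G), z ∈ N → z ∈ W := fun z hz hzN =>
      hW ⟨⟨z, hzN⟩, hU (show (⟨z, hzN⟩ : N) ∈ ((S : Subgroup G) ⊓ N).comap N.subtype from
        ⟨hz, hzN⟩), rfl⟩
    have hDN : D ≤ N := le_normalizer
    have hDW : D ≤ (S : Subgroup G) ⊓ W := fun z hz => ⟨hDS.le hz, hSW z (hDS.le hz) (hDN hz)⟩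
    obtain ⟨a, ha, haS⟩ := ih _ (by
      have h1 := hlt _ hDW ⟨x, ⟨hxS, hSW x hxS hxN⟩, hxD⟩
      have h2 : Nat.card ((S : Subgroup G) ⊓ W : Subgroup G) ≤ Nat.card G := card_le_card_group _
      omega) S W rfl
    have hTW : ∀ z ∈ (T : Subgroup G), z ∈ N → z ∈ ((c : G) • W : Sylow p G) := fun z hz hzN => by
      rw [mem_conj_smul]
      have h1 : (⟨z, hzN⟩ : N) ∈ V := hV
        (show (⟨z, hzN⟩ : N) ∈ ((T : Subgroup G) ⊓ N).comap N.subtype from ⟨hz, hzN⟩)
      rw [← hcV, mem_conj_smul] at h1
      exact hW ⟨_, h1, rfl⟩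
    have hDcW : D ≤ (((c : G) • W : Sylow p G) : Subgroup G) ⊓ T := fun z hz =>
      ⟨hTW z (hDT.le hz) (hDN hz), hDT.le hz⟩
    obtain ⟨b, hb, hbT⟩ := ih _ (by
      have h1 := hlt _ hDcW ⟨y, ⟨hTW y hyT hyN, hyT⟩, hyD⟩
      have h2 : Nat.card ((((c : G) • W : Sylow p G) : Subgroup G) ⊓ T : Subgroup G) ≤ Nat.card G :=
        card_le_card_group _
      omega) ((c : G) • W) T rfl
    refine ⟨b * c * a, mul_mem (mul_mem (centralizer_le hDcW hb) hcC) (centralizer_le hDW ha), ?_⟩
    rw [mul_smul, mul_smul, haS, hbT]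

/-- **Control of fusion.** -/
theorem exists_conj_eq_of_localControl (h : LocalControl p G) (P : Sylow p G) {x g : G}
    (hx : x ∈ P) (hg : g * x * g⁻¹ ∈ P) : ∃ a ∈ P, g * x * g⁻¹ = a * x * a⁻¹ := by
  have hx' : x ∈ (g⁻¹ • P : Sylow p G) := by rw [mem_conj_smul, inv_inv]; exact hg
  obtain ⟨c, hc, hcP⟩ := exists_centralizer_smul_eq h P (g⁻¹ • P)
  have hcx : c * x = x * c := (mem_centralizer_iff.1 hc x ⟨hx, hx'⟩).symm
  have hn : g * c ∈ normalizer ((P : Subgroup G) : Set G) := by
    refine Sylow.smul_eq_iff_mem_normalizer.1 ?_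
    rw [mul_smul, hcP, smul_inv_smul]
  obtain ⟨a, b, ha, hb, hab, ⟨k, hk⟩, hbr⟩ := exists_decomp (p := p) (g * c)
  have hbC := h P P.2 b (zpowers_le.2 hn hb) hbr
  have haP : a ∈ P := by
    have hap : IsPGroup p (zpowers a) := IsPGroup.of_card_dvd_pow (n := k) (by
      rw [Nat.card_zpowers]
      exact orderOf_dvd_of_pow_eq_one hk)
    have h1 : a ∈ zpowers a ⊓ (P : Subgroup G) := by
      rw [← hap.inf_normalizer_sylow P]
      exact ⟨mem_zpowers a, zpowers_le.2 hn ha⟩
    exact h1.2
  refine ⟨a, haP, ?_⟩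
  have hbx : b * x = x * b := (mem_centralizer_iff.1 hbC x hx).symm
  calc g * x * g⁻¹ = (g * c) * x * (g * c)⁻¹ := by
        rw [mul_assoc g c x, hcx]; group
    _ = a * x * a⁻¹ := by rw [hab, mul_assoc a b x, hbx]; group

/-- **Frobenius' normal `p`-complement theorem.** -/
theorem pcomp_of_localControl (h : LocalControl p G) : PComp p G := by
  suffices ∀ (n : ℕ) (S : Subgroup G), Nat.card S = n → PCompOn p S from
    pcompOn_top.1 (this _ ⊤ rfl)
  intro n
  induction n using Nat.strong_induction_on with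
  | _ n ih =>
    intro S hn
    have hS : LocalControl p S := fun X hX g hg hgr => by
      have h1 := h (X.map S.subtype) (hX.map _) g (le_normalizer_map S.subtype ⟨g, hg, rfl⟩)
        ((reg_map_iff (f := S.subtype) S.subtype_injective).2 hgr)
      exact mem_centralizer_iff.2 fun x hx =>
        Subtype.ext (mem_centralizer_iff.1 h1 _ ⟨x, hx, rfl⟩)
    obtain ⟨P⟩ : Nonempty (Sylow p S) := inferInstance
    rcases eq_or_ne (P : Subgroup S) ⊥ with hP | hP
    · intro x hx y hy _ _
      refine reg_of_mem_of_not_dvd_card (fun hd => ?_) (mul_mem hx hy)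
      have := P.dvd_card_of_dvd_card hd
      rw [hP, card_bot, Nat.dvd_one] at this
      exact hp.out.ne_one this
    -- the focal subgroup is proper
    haveI : Group.IsNilpotent (P : Subgroup S) := P.2.isNilpotent
    have hfoc : (P : Subgroup S).focalSubgroup ≤ ⁅(P : Subgroup S), (P : Subgroup S)⁆ := by
      rw [focalSubgroup_def, closure_le]
      rintro _ ⟨hzP, z, hz, u, rfl⟩
      have h1 : u * z⁻¹ * u⁻¹ ∈ (P : Subgroup S) := by
        have := (P : Subgroup S).mul_mem ((P : Subgroup S).inv_mem hz) hzP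
        simpa [commutatorElement_def, mul_assoc] using this
      obtain ⟨a, ha, he⟩ := exists_conj_eq_of_localControl hS P ((P : Subgroup S).inv_mem hz) h1
      have : ⁅z, u⁆ = ⁅z, a⁆ := by
        rw [commutatorElement_def, commutatorElement_def, mul_assoc z u, mul_assoc z (u * z⁻¹),
          mul_assoc z a, mul_assoc z (a * z⁻¹), he]
      rw [SetLike.mem_coe, this]
      exact commutator_mem_commutator hz ha
    have hlt : ⁅(P : Subgroup S), (P : Subgroup S)⁆ < P := by
      haveI : Nontrivial (P : Subgroup S) := (nontrivial_iff_ne_bot _).2 hP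
      rw [← (P : Subgroup S).range_subtype, MonoidHom.range_eq_map, ← map_commutator,
        map_subtype_lt_map_subtype]
      exact Group.IsSolvable.commutator_lt_top_of_nontrivial (P : Subgroup S)
    set K := (P : Subgroup S).transferFocal.ker
    have hK : K ≠ ⊤ := fun hK => by
      have h1 : K ⊓ (P : Subgroup S) = _ := ker_transferFocal_inf_eq_focalSubgroup P
      rw [hK, top_inf_eq] at h1
      exact (hfoc.trans_lt hlt).ne h1.symm
    have hreg : ∀ x : S, Reg p x → x ∈ K := fun x hx =>
      (hx.map (P : Subgroup S).transferFocal).eq_one_of_isPGroup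
        ((P.2.to_quotient _).to_subgroup ⊤) (mem_top _)
    have hKcard : Nat.card (K.map S.subtype) < n := by
      rw [← hn, Nat.card_congr (K.equivMapOfInjective _ S.subtype_injective).toEquiv.symm]
      exact lt_of_le_of_ne K.card_le_card_group fun h => hK (eq_top_of_card_eq _ h)
    intro x hx y hy hxr hyr
    exact ih _ hKcard _ rfl x ⟨⟨x, hx⟩, hreg _ ((reg_map_iff S.subtype_injective).1 hxr), rfl⟩ y
      ⟨⟨y, hy⟩, hreg _ ((reg_map_iff S.subtype_injective).1 hyr), rfl⟩ hxr hyr

/-- **Frobenius**: normal complements in all local subgroups give one in the group. -/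
theorem pcomp_of_local
    (h : ∀ X : Subgroup G, IsPGroup p X → X ≠ ⊥ → PCompOn p (normalizer (X : Set G))) :
    PComp p G :=
  pcomp_of_localControl (localControl_of_pcomp h)

end FA.Thompson
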