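import Fermat.Agent.ThompsonTransfer.Subgroups
import Fermat.Agent.ThompsonTransfer.Frobenius
import Mathlib.GroupTheory.Commutator.Basic
import Mathlib.Tactic.Group

/-!
# Glauberman's replacement theorem

Let `p` be odd, `B` normalised by the `p`-group `P` and contained in it, with `[B, B]` centralised by
`B` and by an abelian subgroup `A` of `P` of largest order.  If `B` does not normalise `A`, another
abelian subgroup of largest order normalises `A` and has a larger intersection with `B`.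
-/

set_option autoImplicit false
set_option linter.style.haveILetI false

namespace FA.Thompson

open Subgroup
open scoped Pointwise commutatorElement

variable {G : Type*} [Group G]

/-- The elements `x⁻¹ (b x b⁻¹)`, written in terms of `z = b x b⁻¹`. -/
def replElt (b z : G) : G := (b⁻¹ * z * b)⁻¹ * z

/-- The computation behind replacement: the two displacements commute up to an element of square
one. -/
theorem replElt_comm_sq {b x x' y y' u v α β k k₁ k₂ : G}
    (hxy : x * y = y * x) (hxy' : x' * y' = y' * x')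
    (hx' : x' = b * x * b⁻¹) (hy' : y' = b * y * b⁻¹)
    (hu : u = x⁻¹ * x') (hv : v = y⁻¹ * y')
    (hα : x' * y = y * x' * α) (hβ : y' * x = x * y' * β)
    (hαy : Commute α y) (hαy' : Commute α y') (hβx : Commute β x)
    (hβx' : Commute β x')
    (hk : u * v = v * u * k)
    (hk₁ : b * u * b⁻¹ = u * k₁) (hk₂ : b * v * b⁻¹ = v * k₂)
    (hk₁u : Commute k₁ u) (hk₁v : Commute k₁ v) (hk₁y : Commute k₁ y)
    (hk₂u : Commute k₂ u) (hk₂v : Commute k₂ v) (hk₂x : Commute k₂ x) (hkb : Commute k b) :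
    k ^ 2 = 1 := by
  have hαv : Commute α v := hv ▸ hαy.inv_right.mul_right hαy'
  have hβu : Commute β u := hu ▸ hβx.inv_right.mul_right hβx'
  -- `k = β / α`
  have e1 : u * v = x⁻¹ * y⁻¹ * x' * y' * α⁻¹ := by
    have h1 : x' * y⁻¹ = y⁻¹ * x' * α⁻¹ := by
      have h2 : y⁻¹ * x' * y = x' * α := by rw [mul_assoc, hα]; group
      calc x' * y⁻¹ = (x' * α) * α⁻¹ * y⁻¹ := by group
        _ = (y⁻¹ * x' * y) * (α⁻¹ * y⁻¹) := by rw [h2]; group
        _ = (y⁻¹ * x' * y) * (y⁻¹ * α⁻¹) := by rw [(hαy.inv_inv).eq]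
        _ = y⁻¹ * x' * α⁻¹ := by group
    calc u * v = x⁻¹ * (x' * y⁻¹) * y' := by rw [hu, hv]; group
      _ = x⁻¹ * y⁻¹ * x' * (α⁻¹ * y') := by rw [h1]; group
      _ = _ := by rw [hαy'.inv_left.eq]; group
  have e2 : v * u = y⁻¹ * x⁻¹ * y' * x' * β⁻¹ := by
    have h1 : y' * x⁻¹ = x⁻¹ * y' * β⁻¹ := by
      have h2 : x⁻¹ * y' * x = y' * β := by rw [mul_assoc, hβ]; group
      calc y' * x⁻¹ = (y' * β) * β⁻¹ * x⁻¹ := by group
        _ = (x⁻¹ * y' * x) * (β⁻¹ * x⁻¹) := by rw [h2]; group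
        _ = (x⁻¹ * y' * x) * (x⁻¹ * β⁻¹) := by rw [(hβx.inv_inv).eq]
        _ = x⁻¹ * y' * β⁻¹ := by group
    calc v * u = y⁻¹ * (y' * x⁻¹) * x' := by rw [hu, hv]; group
      _ = y⁻¹ * x⁻¹ * y' * (β⁻¹ * x') := by rw [h1]; group
      _ = _ := by rw [hβx'.inv_left.eq]; group
  have e3 : x⁻¹ * y⁻¹ * x' * y' = y⁻¹ * x⁻¹ * y' * x' := by
    rw [mul_assoc _ x' y', hxy', ← mul_inv_rev, ← mul_inv_rev, hxy, ← mul_assoc]
  have hkα : k * α = β := by
    rw [e1, e2, e3, mul_assoc _ β⁻¹ k, mul_left_cancel_iff] at hk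
    calc k * α = β * (β⁻¹ * k) * α := by group
      _ = β := by rw [← hk]; group
  -- conjugation by `b`
  have ey : y' = y * v := by rw [hv, mul_inv_cancel_left]
  have ex : x' = x * u := by rw [hu, mul_inv_cancel_left]
  have hu' : u * y = y * u * α := by
    calc u * y = x⁻¹ * (x' * y) := by rw [hu]; group
      _ = x⁻¹ * y * (x' * α) := by rw [hα]; group
      _ = y * x⁻¹ * (x' * α) := by rw [((show Commute x y from hxy).inv_left).eq]
      _ = y * u * α := by rw [hu]; group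
  have hv' : v * x = x * v * β := by
    calc v * x = y⁻¹ * (y' * x) := by rw [hv]; group
      _ = y⁻¹ * x * (y' * β) := by rw [hβ]; group
      _ = x * y⁻¹ * (y' * β) := by rw [((show Commute y x from hxy.symm).inv_left).eq]
      _ = x * v * β := by rw [hv]; group
  have ca : b * α * b⁻¹ = k * α := by
    have h1 : (b * u * b⁻¹) * (b * y * b⁻¹) = (b * y * b⁻¹) * (b * u * b⁻¹) * (b * α * b⁻¹) := by
      calc (b * u * b⁻¹) * (b * y * b⁻¹) = b * (u * y) * b⁻¹ := by group
        _ = _ := by rw [hu']; group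
    rw [← hy', hk₁, ey] at h1
    have h2 : u * k₁ * (y * v) = y * v * u * (k * α) * k₁ := by
      calc u * k₁ * (y * v) = u * (k₁ * (y * v)) := by group
        _ = u * ((y * v) * k₁) := by rw [(hk₁y.mul_right hk₁v).eq]
        _ = (u * y) * v * k₁ := by group
        _ = y * u * (α * v) * k₁ := by rw [hu']; group
        _ = y * u * (v * α) * k₁ := by rw [hαv.eq]
        _ = y * (u * v) * α * k₁ := by group
        _ = _ := by rw [hk]; group
    have h3 : Commute k₁ (y * v * u) := (hk₁y.mul_right hk₁v).mul_right hk₁u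
    have h4 : y * v * (u * k₁) * (b * α * b⁻¹) = k₁ * (y * v * u) * (b * α * b⁻¹) := by
      rw [h3.eq]; group
    have h5 : k₁ * (y * v * u) * (b * α * b⁻¹) = k₁ * (y * v * u) * (k * α) := by
      rw [← h4, ← h1, h2, h3.eq]
      have hkk : Commute k₁ (k * α) := by
        have hk1x' : Commute k₁ (u * v) := hk₁u.mul_right hk₁v
        have hk1k : Commute k₁ k := by
          have : k = (v * u)⁻¹ * (u * v) := by rw [hk]; group
          rw [this]
          exact (hk₁v.mul_right hk₁u).inv_right.mul_right hk1x'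
        have hk1a : Commute k₁ α := by
          have : α = (y * u)⁻¹ * (u * y) := by rw [hu']; group
          rw [this]
          exact (hk₁y.mul_right hk₁u).inv_right.mul_right (hk₁u.mul_right hk₁y)
        exact hk1k.mul_right hk1a
      rw [mul_assoc _ (k * α) k₁, ← hkk.eq]
      group
    exact mul_left_cancel h5
  have cb : b * β * b⁻¹ = k⁻¹ * β := by
    have h1 : (b * v * b⁻¹) * (b * x * b⁻¹) = (b * x * b⁻¹) * (b * v * b⁻¹) * (b * β * b⁻¹) := by
      calc (b * v * b⁻¹) * (b * x * b⁻¹) = b * (v * x) * b⁻¹ := by group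
        _ = _ := by rw [hv']; group
    rw [← hx', hk₂, ex] at h1
    have hk' : v * u = u * v * k⁻¹ := by rw [hk]; group
    have h2 : v * k₂ * (x * u) = x * u * v * (k⁻¹ * β) * k₂ := by
      calc v * k₂ * (x * u) = v * (k₂ * (x * u)) := by group
        _ = v * ((x * u) * k₂) := by rw [(hk₂x.mul_right hk₂u).eq]
        _ = (v * x) * u * k₂ := by group
        _ = x * v * (β * u) * k₂ := by rw [hv']; group
        _ = x * v * (u * β) * k₂ := by rw [hβu.eq]
        _ = x * (v * u) * β * k₂ := by group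
        _ = _ := by rw [hk']; group
    have h3 : Commute k₂ (x * u * v) := (hk₂x.mul_right hk₂u).mul_right hk₂v
    have h4 : x * u * (v * k₂) * (b * β * b⁻¹) = k₂ * (x * u * v) * (b * β * b⁻¹) := by
      rw [h3.eq]; group
    have h5 : k₂ * (x * u * v) * (b * β * b⁻¹) = k₂ * (x * u * v) * (k⁻¹ * β) := by
      rw [← h4, ← h1, h2, h3.eq]
      have hkk : Commute k₂ (k⁻¹ * β) := by
        have hk2k : Commute k₂ k := by
          have : k = (v * u)⁻¹ * (u * v) := by rw [hk]; group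
          rw [this]
          exact (hk₂v.mul_right hk₂u).inv_right.mul_right (hk₂u.mul_right hk₂v)
        have hk2b : Commute k₂ β := by
          have : β = (x * v)⁻¹ * (v * x) := by rw [hv']; group
          rw [this]
          exact (hk₂x.mul_right hk₂v).inv_right.mul_right (hk₂v.mul_right hk₂x)
        exact hk2k.inv_right.mul_right hk2b
      rw [mul_assoc _ (k⁻¹ * β) k₂, ← hkk.eq]
      group
    exact mul_left_cancel h5
  have h6 : b * β * b⁻¹ = k * β := by
    calc b * β * b⁻¹ = b * (k * α) * b⁻¹ := by rw [hkα]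
      _ = (b * k) * α * b⁻¹ := by group
      _ = (k * b) * α * b⁻¹ := by rw [hkb.eq]
      _ = k * (b * α * b⁻¹) := by group
      _ = k * β := by rw [ca, hkα]
  rw [cb, mul_left_inj] at h6
  rw [sq]
  exact inv_eq_iff_mul_eq_one.1 h6

variable [Finite G] {p : ℕ} [hp : Fact p.Prime]

/-- **Glauberman's replacement theorem.** -/
theorem exists_replacement (hp2 : p ≠ 2) {P B A : Subgroup G} (hP : IsPGroup p P) (hBP : B ≤ P)
    (hPB : P ≤ normalizer (B : Set G)) (hA : A ∈ abMax P)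
    (hcA : ∀ c ∈ ⁅B, B⁆, ∀ a ∈ A, c * a = a * c) (hcB : ∀ c ∈ ⁅B, B⁆, ∀ b ∈ B, c * b = b * c)
    (hBA : ¬ B ≤ normalizer (A : Set G)) :
    ∃ A' ∈ abMax P, A ⊓ B < A' ⊓ B ∧ A' ≤ normalizer (A : Set G) := by
  have hAB : A ≤ normalizer (B : Set G) := hA.1.trans hPB
  set R := B ⊓ normalizer (A : Set G) with hR
  have hAR : A ≤ normalizer (R : Set G) := by
    intro a ha
    refine mem_normalizer_iff_map_conj_eq.2 ?_
    rw [hR, map_inf _ _ _ (MulAut.conj a).injective,
      mem_normalizer_iff_map_conj_eq.1 (hAB ha),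
      mem_normalizer_iff_map_conj_eq.1 (le_normalizer (le_normalizer ha))]
  -- an element outside `R` normalising `R A`
  have hRA : ∀ d ∈ R ⊔ A, ∃ r ∈ R, ∃ a ∈ A, r * a = d := by
    intro d hd
    rw [← SetLike.mem_coe, coe_mul_of_right_le_normalizer_left _ _ hAR] at hd
    exact hd
  have hlt : R ⊔ A < B ⊔ A := by
    refine lt_of_le_of_ne (sup_le_sup_right inf_le_left A) fun he => hBA fun b hb => ?_
    obtain ⟨r, hr, a, ha, rfl⟩ := hRA b (he ▸ mem_sup_left hb)
    exact mul_mem hr.2 (le_normalizer ha)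
  have hBAp : IsPGroup p (B ⊔ A : Subgroup G) := hP.to_le (sup_le hBP hA.1)
  obtain ⟨b₀, hb₀, hb₀n, hb₀N⟩ := exists_normalizing hBAp hlt
  rw [← SetLike.mem_coe, coe_mul_of_right_le_normalizer_left _ _ hAB] at hb₀
  obtain ⟨b, hb, a₀, ha₀, rfl⟩ := hb₀
  have hbn : b ∉ normalizer (A : Set G) := fun h =>
    hb₀n (mul_mem_sup ⟨hb, h⟩ ha₀)
  have hbN : b ∈ normalizer ((R ⊔ A : Subgroup G) : Set G) := by
    have h := mul_mem hb₀N (inv_mem (le_normalizer (mem_sup_right (S := R) ha₀)))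
    rwa [mul_inv_cancel_right] at h
  set A₁ := A.map (MulAut.conj b).toMonoidHom with hA₁
  have hA₁c : Nat.card A₁ = Nat.card A := card_map_of_injective (MulAut.conj b).injective
  have hA₁P : A₁ ≤ P := by
    rintro _ ⟨a, ha, rfl⟩
    exact mul_mem (mul_mem (hBP hb) (hA.1 ha)) (inv_mem (hBP hb))
  have hA₁ab : Ab A₁ := ab_map hA.2.1 _
  have hDA : R ⊔ A ≤ normalizer (A : Set G) := sup_le inf_le_right le_normalizer
  have hA₁D : A₁ ≤ R ⊔ A := by
    rintro _ ⟨a, ha, rfl⟩
    exact ((mem_normalizer_iff.1 hbN a).1 (mem_sup_right ha))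
  have hDA₁ : R ⊔ A ≤ normalizer (A₁ : Set G) := by
    rw [hA₁, ← map_equiv_normalizer_eq, ← (mem_normalizer_iff_map_conj_eq.1 hbN)]
    exact map_mono hDA
  have hcomA : ∀ z ∈ A₁, ∀ a ∈ A, a⁻¹ * z⁻¹ * a * z ∈ A ⊓ A₁ := fun z hz a ha => by
    refine ⟨?_, ?_⟩
    · have h1 := (mem_normalizer_iff.1 (inv_mem (hDA (hA₁D hz))) a).1 ha
      rw [inv_inv] at h1
      have h2 := A.mul_mem (A.inv_mem ha) h1
      simpa [mul_assoc] using h2
    · have h1 := (mem_normalizer_iff.1 (inv_mem (hDA₁ (mem_sup_right ha))) z⁻¹).1 (A₁.inv_mem hz)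
      rw [inv_inv] at h1
      exact A₁.mul_mem h1 hz
  -- `A ∩ A₁` commutes with `A` and `A₁`
  have hC : ∀ c ∈ A ⊓ A₁, ∀ d : G, d ∈ A ∨ d ∈ A₁ → Commute c d := fun c hc d hd =>
    hd.elim (fun h => hA.2.1 c hc.1 d h) (fun h => hA₁ab c hc.2 d h)
  have hK : ∀ c ∈ ⁅B, B⁆, ∀ d : G, d ∈ A ∨ d ∈ B ∨ d ∈ A₁ → Commute c d := by
    rintro c hc d (hd | hd | ⟨a, ha, rfl⟩)
    · exact hcA c hc d hd
    · exact hcB c hc d hd
    · show Commute c (b * a * b⁻¹)
      exact ((show Commute c b from hcB c hc b hb).mul_right (hcA c hc a ha)).mul_right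
        (show Commute c b from hcB c hc b hb).inv_right
  have hconjA : ∀ z ∈ A₁, b⁻¹ * z * b ∈ A := by
    rintro _ ⟨a, ha, rfl⟩
    show b⁻¹ * (b * a * b⁻¹) * b ∈ A
    simpa [mul_assoc] using ha
  have huB : ∀ z ∈ A₁, replElt b z ∈ B := by
    intro z hz
    set x := b⁻¹ * z * b with hx
    have h1 : x⁻¹ * b * x ∈ B := by
      have := (mem_normalizer_iff.1 (inv_mem (hAB (hconjA z hz))) b).1 hb
      simpa [hx] using this
    have h2 : replElt b z = x⁻¹ * b * x * b⁻¹ := by rw [replElt, hx]; group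
    rw [h2]
    exact B.mul_mem h1 (B.inv_mem hb)
  -- `A ∩ B` lies in `A₁`
  have hAB₁ : A ⊓ B ≤ A₁ := by
    have hcomm : ∀ y ∈ A ⊓ B, ∀ z ∈ A₁, y * z = z * y := by
      intro y hy z hz
      set d := b * y * b⁻¹ * y⁻¹ with hd
      have hdB : d ∈ ⁅B, B⁆ := by
        rw [hd, ← commutatorElement_def]
        exact commutator_mem_commutator hb hy.2
      have h1 : Commute (b * y * b⁻¹) z :=
        hA₁ab _ ⟨y, hy.1, rfl⟩ z hz
      have h2 : y = d⁻¹ * (b * y * b⁻¹) := by rw [hd]; group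
      rw [h2]
      exact ((hK d hdB z (Or.inr (Or.inr hz))).inv_left.mul_left h1).eq
    have hab : Ab (A₁ ⊔ A ⊓ B) :=
      ab_sup hA₁ab (fun x hx y hy => hA.2.1 x hx.1 y hy.1) fun z hz y hy => (hcomm y hy z hz).symm
    have hle : A₁ ⊔ A ⊓ B ≤ P := sup_le hA₁P (inf_le_left.trans hA.1)
    have h1 := hA.2.2 _ hle hab
    rw [← hA₁c] at h1
    exact le_trans le_sup_right (eq_of_le_of_card_ge le_sup_left h1).ge
  -- the displacements commute
  have huv : ∀ z ∈ A₁, ∀ w ∈ A₁, Commute (replElt b z) (replElt b w) := by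
    intro z hz w hw
    set x := b⁻¹ * z * b with hx
    set y := b⁻¹ * w * b with hy
    set u := replElt b z
    set v := replElt b w
    set k := (v * u)⁻¹ * (u * v) with hk
    set α := z⁻¹ * y⁻¹ * z * y with hα
    set β := w⁻¹ * x⁻¹ * w * x with hβ
    have hαC : α ∈ A ⊓ A₁ := by
      have := (A ⊓ A₁).inv_mem (hcomA z hz y (hconjA w hw))
      simpa [hα, mul_assoc] using this
    have hβC : β ∈ A ⊓ A₁ := by
      have := (A ⊓ A₁).inv_mem (hcomA w hw x (hconjA z hz))
      simpa [hβ, mul_assoc] using this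
    have hkB : k ∈ ⁅B, B⁆ := by
      have h1 := commutator_mem_commutator (B.inv_mem (huB z hz)) (B.inv_mem (huB w hw))
      have h2 : ⁅u⁻¹, v⁻¹⁆ = k := by rw [hk, commutatorElement_def]; group
      exact h2 ▸ h1
    have hk₁ : u⁻¹ * (b * u * b⁻¹) ∈ ⁅B, B⁆ := by
      have h1 := commutator_mem_commutator (B.inv_mem (huB z hz)) hb
      have h2 : ⁅u⁻¹, b⁆ = u⁻¹ * (b * u * b⁻¹) := by rw [commutatorElement_def]; group
      exact h2 ▸ h1
    have hk₂ : v⁻¹ * (b * v * b⁻¹) ∈ ⁅B, B⁆ := by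
      have h1 := commutator_mem_commutator (B.inv_mem (huB w hw)) hb
      have h2 : ⁅v⁻¹, b⁆ = v⁻¹ * (b * v * b⁻¹) := by rw [commutatorElement_def]; group
      exact h2 ▸ h1
    have hxA := hconjA z hz
    have hyA := hconjA w hw
    have hsq : k ^ 2 = 1 := replElt_comm_sq (b := b) (x := x) (x' := z) (y := y) (y' := w)
      (u := u) (v := v) (α := α) (β := β) (k₁ := u⁻¹ * (b * u * b⁻¹)) (k₂ := v⁻¹ * (b * v * b⁻¹))
      (hA.2.1 x hxA y hyA) (hA₁ab z hz w hw) (by rw [hx]; group) (by rw [hy]; group)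
      rfl rfl (by rw [hα]; group) (by rw [hβ]; group)
      (hC α hαC y (Or.inl hyA)) (hC α hαC w (Or.inr hw))
      (hC β hβC x (Or.inl hxA)) (hC β hβC z (Or.inr hz))
      (by rw [hk]; group) (by group) (by group)
      (hK _ hk₁ u (Or.inr (Or.inl (huB z hz)))) (hK _ hk₁ v (Or.inr (Or.inl (huB w hw))))
      (hK _ hk₁ y (Or.inl hyA))
      (hK _ hk₂ u (Or.inr (Or.inl (huB z hz)))) (hK _ hk₂ v (Or.inr (Or.inl (huB w hw))))
      (hK _ hk₂ x (Or.inl hxA)) (hK k hkB b (Or.inr (Or.inl hb)))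
    have hkP : k ∈ P := (commutator_le_self B).trans hBP hkB
    have hk1 : k = 1 := by
      refine (Reg.eq_one_of_isPGroup (p := p) hP hkP fun hd => ?_)
      have h2 := hd.trans (orderOf_dvd_of_pow_eq_one hsq)
      exact hp2 ((Nat.prime_dvd_prime_iff_eq hp.out Nat.prime_two).1 h2)
    rw [hk, inv_mul_eq_one] at hk1
    exact hk1.symm
  -- the new subgroup
  set U := closure (replElt b '' (A₁ : Set G)) with hU
  have hUB : U ≤ B := (closure_le B).2 (by rintro _ ⟨z, hz, rfl⟩; exact huB z hz)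
  have hUM : U ≤ A ⊔ A₁ := (closure_le _).2 (by
    rintro _ ⟨z, hz, rfl⟩
    exact mul_mem (inv_mem (mem_sup_left (hconjA z hz))) (mem_sup_right hz))
  have hUab : Ab U := by
    have h1 : U ≤ centralizer (U : Set G) := by
      rw [hU, centralizer_closure, closure_le]
      rintro _ ⟨z, hz, rfl⟩
      refine mem_centralizer_iff.2 ?_
      rintro _ ⟨w, hw, rfl⟩
      exact (huv w hw z hz).eq
    exact fun x hx y hy => (mem_centralizer_iff.1 (h1 hy) x hx)
  have hCM : A ⊔ A₁ ≤ centralizer ((A ⊓ A₁ : Subgroup G) : Set G) :=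
    sup_le (fun d hd => mem_centralizer_iff.2 fun c hc => (hC c hc d (Or.inl hd)).eq)
      (fun d hd => mem_centralizer_iff.2 fun c hc => (hC c hc d (Or.inr hd)).eq)
  set A' := U ⊔ A ⊓ A₁ with hA'
  have hA'ab : Ab A' := ab_sup hUab (fun x hx y hy => hA.2.1 x hx.1 y hy.1) fun x hx y hy =>
    ((mem_centralizer_iff.1 (hCM (hUM hx))) y hy).symm
  have hA'P : A' ≤ P := sup_le (hUB.trans hBP) (inf_le_left.trans hA.1)
  have hA'M : A' ≤ A ⊔ A₁ := sup_le hUM (inf_le_left.trans le_sup_left)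
  -- its order
  have hcard : Nat.card A₁ ≤ Nat.card A' := by
    let C₁ := (A ⊓ A₁).subgroupOf A₁
    let C' := (A ⊓ A₁).subgroupOf A'
    let f : A₁ ⧸ C₁ → A' ⧸ C' := fun q =>
      QuotientGroup.mk ⟨replElt b (q.out : A₁), mem_sup_left (subset_closure ⟨_, q.out.2, rfl⟩)⟩
    have hf : Function.Injective f := by
      intro q₁ q₂ he
      rw [← q₁.out_eq, ← q₂.out_eq]
      refine QuotientGroup.eq.2 ?_
      have h1 := QuotientGroup.eq.1 he
      simp only [C', mem_subgroupOf, coe_mul, coe_inv] at h1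
      simp only [C₁, mem_subgroupOf, coe_mul, coe_inv]
      set z : G := ↑q₁.out with hz'
      set w : G := ↑q₂.out with hw'
      have hz : z ∈ A₁ := q₁.out.2
      have hw : w ∈ A₁ := q₂.out.2
      set a := (b⁻¹ * z * b) * (b⁻¹ * w * b)⁻¹ with ha'
      have haA : a ∈ A := A.mul_mem (hconjA z hz) (A.inv_mem (hconjA w hw))
      have h2 : z⁻¹ * a * w ∈ A ⊓ A₁ := by
        have : (replElt b z)⁻¹ * replElt b w = z⁻¹ * a * w := by
          rw [replElt, replElt, ha']; group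
        rwa [this] at h1
      have haA₁ : a ∈ A₁ := by
        have h3 := A₁.mul_mem (A₁.mul_mem hz h2.2) (A₁.inv_mem hw)
        simpa [mul_assoc] using h3
      have h4 : z⁻¹ * a * w = a * (z⁻¹ * w) := by
        rw [← ((hC a ⟨haA, haA₁⟩ z (Or.inr hz)).inv_right).eq, mul_assoc]
      rw [h4] at h2
      have h5 := (A ⊓ A₁).mul_mem ((A ⊓ A₁).inv_mem ⟨haA, haA₁⟩) h2
      rwa [inv_mul_cancel_left] at h5
    have h1 := Nat.card_le_card_of_injective f hf
    rw [C₁.card_eq_card_quotient_mul_card_subgroup, C'.card_eq_card_quotient_mul_card_subgroup,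
      Nat.card_congr (subgroupOfEquivOfLe (inf_le_right : A ⊓ A₁ ≤ A₁)).toEquiv,
      Nat.card_congr (subgroupOfEquivOfLe (le_sup_right : A ⊓ A₁ ≤ A')).toEquiv]
    exact Nat.mul_le_mul_right _ h1
  refine ⟨A', ⟨hA'P, hA'ab, fun C hC' hab => (hA.2.2 C hC' hab).trans (hA₁c ▸ hcard)⟩,
    lt_of_le_of_ne (le_inf ((le_inf inf_le_left hAB₁).trans le_sup_right) inf_le_right) fun he => ?_,
    hA'M.trans (sup_le le_normalizer (hA₁D.trans hDA))⟩
  -- otherwise `b` normalises `A`
  have h1 : A₁ ≤ A := by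
    intro z hz
    have h2 : replElt b z ∈ A ⊓ B := by
      rw [he]
      exact ⟨mem_sup_left (subset_closure ⟨z, hz, rfl⟩), huB z hz⟩
    have h3 := A.mul_mem (hconjA z hz) h2.1
    rwa [replElt, mul_inv_cancel_left] at h3
  exact hbn (mem_normalizer_iff_map_conj_eq.2 (eq_of_le_of_card_ge h1 hA₁c.ge))

end FA.Thompson
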