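import Mathlib.GroupTheory.PGroup
import Mathlib.GroupTheory.Index
import Mathlib.Tactic

/-!
# Quadratic elements

An abelian `p`-group `A` acting on a finite abelian `p`-group `W` with `|W| ≤ |A| |C_W(A)|`
contains a nontrivial element `a` with `(a - 1) ^ 2 = 0` (Thompson replacement, in Timmesfeld's
form).  For odd `p` such an element centralises every abelian `p'`-group of automorphisms of `W`
which it normalises.
-/

set_option autoImplicit false
set_option linter.style.haveILetI false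

namespace FA.Thompson

section Ring

variable {R : Type*} [Ring R] {p e : ℕ}

theorem eq_zero_of_coprime_mul (hpe : ((p ^ e : ℕ) : R) = 0) {n : ℕ} (hn : n.Coprime p) {x : R}
    (hx : (n : R) * x = 0) : x = 0 := by
  have hg : (1 : ℤ) = n * Nat.gcdA n (p ^ e) + (p ^ e : ℕ) * Nat.gcdB n (p ^ e) := by
    rw [← Nat.gcd_eq_gcd_ab, Nat.Coprime.gcd_eq_one (hn.pow_right e), Nat.cast_one]
  have h := congrArg (fun z : ℤ => (z : R) * x) hg
  simp only [Int.cast_one, one_mul, Int.cast_add, Int.cast_mul, Int.cast_natCast] at h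
  rw [h, hpe, zero_mul, add_zero, (Nat.cast_commute n _).eq, mul_assoc, hx, mul_zero]

/-- **Abelian `p`-stability.** -/
theorem commute_of_quadratic (hpe : ((p ^ e : ℕ) : R) = 0) (hp2 : Nat.Coprime 2 p) {N r : R}
    {n : ℕ} (hn : n.Coprime p) (hrn : r ^ n = 1)
    (h1 : Commute r ((1 + N) * r * (1 - N)))
    (h2 : Commute r ((1 + 2 * N) * r * (1 - 2 * N))) : Commute N r := by
  set D := N * r - r * N with hD
  set Y := N * r * N with hY
  have e1 : (1 + N) * r * (1 - N) = r + D - Y := by rw [hD, hY]; noncomm_ring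
  have e2 : (1 + 2 * N) * r * (1 - 2 * N) = r + 2 * D - 4 * Y := by rw [hD, hY]; noncomm_ring
  have c1 : (r * D - D * r) - (r * Y - Y * r) = 0 := by
    have := sub_eq_zero.2 h1.eq
    rw [e1] at this
    rw [← this]
    noncomm_ring
  have c2 : 2 * (r * D - D * r) - 4 * (r * Y - Y * r) = 0 := by
    have := sub_eq_zero.2 h2.eq
    rw [e2] at this
    rw [← this]
    noncomm_ring
  have cY : r * Y - Y * r = 0 := eq_zero_of_coprime_mul hpe hp2 (by
    have e3 : (2 : R) * (r * Y - Y * r) =
        2 * ((r * D - D * r) - (r * Y - Y * r)) -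
          (2 * (r * D - D * r) - 4 * (r * Y - Y * r)) := by noncomm_ring
    rw [c1, c2, mul_zero, sub_zero] at e3
    exact_mod_cast e3)
  have cD : r * D = D * r := by
    rw [cY, sub_zero] at c1
    exact sub_eq_zero.1 c1
  have key : ∀ j : ℕ, N * r ^ (j + 1) = r ^ (j + 1) * N + ((j + 1 : ℕ) : R) * (r ^ j * D) := by
    intro j
    induction j with
    | zero => simp [hD]
    | succ j ih =>
      rw [pow_succ r (j + 1), ← mul_assoc, ih]
      have e4 : r * D = D * r := cD
      have e5 : N * r = r * N + D := by rw [hD]; abel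
      simp only [add_mul, mul_assoc, e5, ← e4, mul_add]
      push_cast [pow_succ]
      noncomm_ring
  cases n with
  | zero =>
    have : p = 1 := by simpa using hn
    subst this
    rw [one_pow, Nat.cast_one] at hpe
    haveI : Subsingleton R := subsingleton_iff_zero_eq_one.1 hpe.symm
    exact Subsingleton.elim _ _
  | succ m =>
    have h := key m
    rw [hrn, mul_one, one_mul, left_eq_add] at h
    have h' : r ^ m * D = 0 := eq_zero_of_coprime_mul hpe hn h
    have hD0 : D = 0 := by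
      have : r * (r ^ m * D) = 0 := by rw [h', mul_zero]
      rwa [← mul_assoc, ← pow_succ', hrn, one_mul] at this
    exact sub_eq_zero.1 hD0

end Ring

section Replacement

variable {A W : Type*} [CommGroup A] [Finite A] [AddCommGroup W] [Finite W]
  (ρ : A →* AddMonoid.End W)

/-- The fixed points of a subgroup. -/
def fixedSub (S : Subgroup A) : AddSubgroup W where
  carrier := {w | ∀ a ∈ S, ρ a w = w}
  zero_mem' := fun a _ => map_zero _
  add_mem' := fun {x y} hx hy a ha => by rw [map_add, hx a ha, hy a ha]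
  neg_mem' := fun {x} hx a ha => by rw [map_neg, hx a ha]

omit [Finite A] [Finite W] in
theorem fixedSub_bot : fixedSub ρ ⊥ = ⊤ := by
  refine eq_top_iff.2 fun w _ a ha => ?_
  rw [Subgroup.mem_bot.1 ha, map_one]
  rfl

omit [Finite A] [Finite W] in
theorem rho_apply_mul (a b : A) (w : W) : ρ a (ρ b w) = ρ (a * b) w := by
  rw [map_mul]; rfl

omit [Finite A] [Finite W] in
theorem rho_apply_comm (a b : A) (w : W) : ρ a (ρ b w) = ρ b (ρ a w) := by
  rw [rho_apply_mul, rho_apply_mul, mul_comm]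

/-- **Replacement.** -/
theorem exists_quadratic {p e : ℕ} [hp : Fact p.Prime] (hW : ∀ w : W, p ^ e • w = 0)
    (hA : IsPGroup p A) (S : Subgroup A) (hS : S ≠ ⊥)
    (h : Nat.card W ≤ Nat.card S * Nat.card (fixedSub ρ S)) :
    ∃ a ∈ S, a ≠ 1 ∧ (ρ a - 1) * (ρ a - 1) = 0 := by
  suffices ∀ (n : ℕ) (S : Subgroup A), Nat.card S = n → S ≠ ⊥ →
      Nat.card W ≤ Nat.card S * Nat.card (fixedSub ρ S) →
      ∃ a ∈ S, a ≠ 1 ∧ (ρ a - 1) * (ρ a - 1) = 0 from this _ S rfl hS h
  clear h hS S
  intro n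
  induction n using Nat.strong_induction_on with
  | _ n ih =>
  intro S hn hS h
  by_cases hq : ∀ v : W, ∀ a ∈ S, ∀ b ∈ S, ρ b (ρ a v - v) = ρ a v - v
  · obtain ⟨a, ha, ha1⟩ := (Subgroup.bot_or_exists_ne_one S).resolve_left hS
    refine ⟨a, ha, ha1, AddMonoidHom.ext fun v => ?_⟩
    show ρ a (ρ a v - v) - (ρ a v - v) = 0
    rw [hq v a ha a ha, sub_self]
  push Not at hq
  obtain ⟨v, a₀, ha₀, b₀, hb₀, hne⟩ := hq
  -- the centraliser of the commutators with `v`
  let C : Subgroup A :=
    { carrier := {c | c ∈ S ∧ ∀ a ∈ S, ρ c (ρ a v - v) = ρ a v - v}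
      one_mem' := ⟨S.one_mem, fun a _ => by rw [map_one]; rfl⟩
      mul_mem' := fun {x y} hx hy => ⟨S.mul_mem hx.1 hy.1, fun a ha => by
        rw [← rho_apply_mul, hy.2 a ha, hx.2 a ha]⟩
      inv_mem' := fun {x} hx => ⟨S.inv_mem hx.1, fun a ha => by
        conv_lhs => rw [← hx.2 a ha, rho_apply_mul, inv_mul_cancel, map_one]
        rfl⟩ }
  have hCS : C ≤ S := fun c hc => hc.1
  have hClt : Nat.card C < n := hn ▸ Set.ncard_lt_ncard (Set.ssubset_iff_exists.2
    ⟨hCS, b₀, hb₀, fun hc => hne (hc.2 a₀ ha₀)⟩) (Set.toFinite _)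
  have hfix : fixedSub ρ S ≤ fixedSub ρ C := fun w hw c hc => hw c (hCS hc)
  -- the key injection
  have hkey : ∀ a ∈ S, ∀ b ∈ S, (ρ a v - v) - (ρ b v - v) ∈ fixedSub ρ S → b⁻¹ * a ∈ C := by
    intro a ha b hb hd
    refine ⟨S.mul_mem (S.inv_mem hb) ha, fun c hc => ?_⟩
    have h1 : ρ c (ρ a v - ρ b v) = ρ a v - ρ b v := by
      have := hd c hc
      rwa [sub_sub_sub_cancel_right] at this
    have h2 : ρ a (ρ c v - v) = ρ b (ρ c v - v) := by
      rw [map_sub, map_sub, rho_apply_comm ρ a c, rho_apply_comm ρ b c]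
      rw [map_sub] at h1
      linear_combination (norm := abel) h1
    rw [← rho_apply_mul, h2, rho_apply_mul, inv_mul_cancel, map_one]
    rfl
  let F : AddSubgroup (fixedSub ρ C) := (fixedSub ρ S).addSubgroupOf (fixedSub ρ C)
  have hmem : ∀ a : S, ρ a v - v ∈ fixedSub ρ C := fun a c hc => hc.2 a a.2
  let f : S ⧸ C.subgroupOf S → fixedSub ρ C ⧸ F := fun q =>
    QuotientAddGroup.mk ⟨ρ (q.out : S) v - v, hmem q.out⟩
  have hf : Function.Injective f := by
    intro q₁ q₂ he
    rw [← q₁.out_eq, ← q₂.out_eq]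
    refine QuotientGroup.eq.2 ?_
    have h1 := QuotientAddGroup.eq.1 he
    rw [AddSubgroup.mem_addSubgroupOf] at h1
    simp only [AddSubgroup.coe_add, AddSubgroup.coe_neg] at h1
    rw [Subgroup.mem_subgroupOf]
    refine hkey _ q₂.out.2 _ q₁.out.2 ?_
    convert h1 using 1
    abel
  have hidx : C.relIndex S ≤ (fixedSub ρ S).relIndex (fixedSub ρ C) :=
    Nat.card_le_card_of_injective f hf
  have hcS : Nat.card C * C.relIndex S = Nat.card S := by
    rw [← Subgroup.relIndex_bot_left, ← Subgroup.relIndex_bot_left,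
      Subgroup.relIndex_mul_relIndex ⊥ C S bot_le hCS]
  have hcF : Nat.card (fixedSub ρ S) * (fixedSub ρ S).relIndex (fixedSub ρ C) =
      Nat.card (fixedSub ρ C) := by
    rw [← AddSubgroup.relIndex_bot_left, ← AddSubgroup.relIndex_bot_left,
      AddSubgroup.relIndex_mul_relIndex ⊥ _ _ bot_le hfix]
  have hbound : Nat.card W ≤ Nat.card C * Nat.card (fixedSub ρ C) := by
    calc Nat.card W ≤ Nat.card C * C.relIndex S * Nat.card (fixedSub ρ S) := by rwa [hcS]
      _ ≤ Nat.card C * (fixedSub ρ S).relIndex (fixedSub ρ C) * Nat.card (fixedSub ρ S) :=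
        Nat.mul_le_mul_right _ (Nat.mul_le_mul_left _ hidx)
      _ = Nat.card C * Nat.card (fixedSub ρ C) := by
        rw [← hcF, mul_assoc, mul_comm (AddSubgroup.relIndex _ _)]
  rcases eq_or_ne C ⊥ with hC | hC
  swap
  · obtain ⟨a, ha, h'⟩ := ih _ hClt C rfl hC hbound
    exact ⟨a, hCS ha, h'⟩
  -- the injection is onto, so `v ≡ (a - 1) v` modulo the fixed points
  exfalso
  have hCtop : fixedSub ρ C = ⊤ := by rw [hC, fixedSub_bot]
  let g : S → W ⧸ fixedSub ρ S := fun a => QuotientAddGroup.mk (ρ (a : A) v - v)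
  have hg : Function.Injective g := by
    intro a b he
    have h1 := hkey a a.2 b b.2 (by
      have := QuotientAddGroup.eq.1 he.symm
      convert this using 1
      abel)
    rw [hC, Subgroup.mem_bot, inv_mul_eq_one] at h1
    exact Subtype.ext h1.symm
  have hsurj : Function.Surjective g := by
    refine ((Nat.bijective_iff_injective_and_card g).2 ⟨hg, le_antisymm
      (Nat.card_le_card_of_injective g hg) ?_⟩).2
    refine Nat.le_of_mul_le_mul_right ?_ (Nat.card_pos (α := fixedSub ρ S))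
    rw [← AddSubgroup.card_eq_card_quotient_mul_card_addSubgroup]
    exact h
  obtain ⟨⟨a, ha⟩, hav⟩ := hsurj (QuotientAddGroup.mk v)
  have hd := QuotientAddGroup.eq.1 hav
  have hb : ∀ b ∈ S, ρ b v = v := by
    intro b hb
    set u := ρ b v - v with hu
    have hau : ρ a u = 2 • u := by
      have := hd b hb
      rw [map_add, map_neg, map_sub, rho_apply_comm ρ b a] at this
      rw [hu, map_sub, two_nsmul]
      linear_combination (norm := abel) (-1 : ℤ) • this
    have hpow : ∀ k : ℕ, ρ (a ^ k) u = 2 ^ k • u := by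
      intro k
      induction k with
      | zero => rw [pow_zero, pow_zero, one_smul, map_one]; rfl
      | succ k ihk => rw [pow_succ, ← rho_apply_mul, hau, map_nsmul, ihk, pow_succ', mul_smul]
    obtain ⟨k, hk⟩ := hA a
    have h2 := hpow (p ^ k)
    rw [hk, map_one] at h2
    have h3 : u = 2 ^ (p ^ k) • u := h2
    have hge : 1 ≤ 2 ^ (p ^ k) := Nat.one_le_two_pow
    have h4 : (2 ^ (p ^ k) - 1) • u = 0 := by
      rw [← add_left_inj (1 • u), ← add_nsmul, Nat.sub_add_cancel hge, ← h3, one_smul, zero_add]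
    have hco : (2 ^ (p ^ k) - 1).Coprime (p ^ e) := by
      refine Nat.Coprime.pow_right _ (hp.out.coprime_iff_not_dvd.2 fun hdv => ?_).symm
      haveI := hp
      have h5 : ((2 ^ (p ^ k) : ℕ) : ZMod p) = ((1 : ℕ) : ZMod p) :=
        ((ZMod.natCast_eq_natCast_iff _ _ _).2 ((Nat.modEq_iff_dvd' hge).2 hdv)).symm
      rw [Nat.cast_pow, ZMod.pow_card_pow] at h5
      have h6 : (1 : ZMod p) = 0 := by push_cast at h5; linear_combination h5
      exact one_ne_zero h6
    have h7 : addOrderOf u ∣ Nat.gcd (2 ^ (p ^ k) - 1) (p ^ e) :=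
      Nat.dvd_gcd (addOrderOf_dvd_of_nsmul_eq_zero h4) (addOrderOf_dvd_of_nsmul_eq_zero (hW u))
    rw [hco.gcd_eq_one, Nat.dvd_one, AddMonoid.addOrderOf_eq_one_iff, hu, sub_eq_zero] at h7
    exact h7
  refine hne ?_
  rw [hb a₀ ha₀, sub_self, map_zero]

end Replacement

end FA.Thompson
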