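import Fermat.Agent.ThompsonTransfer.Subgroups
import Fermat.Agent.ThompsonTransfer.Quadratic

/-!
# Stability of quadratic elements

An element acting quadratically on an abelian normal `p`-subgroup, `p` odd, commutes modulo its
centraliser with every element of order prime to `p` which commutes there with its conjugates; an
element of order prime to `p` trivial on the factors of a normal series centralises.
-/

set_option autoImplicit false
set_option linter.style.haveILetI false

namespace FA.Thompson

open Subgroup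
open scoped commutatorElement

/-- Automorphisms as endomorphisms of the additive group. -/
def endOfAut (V : Type*) [CommGroup V] : MulAut V →* AddMonoid.End (Additive V) where
  toFun σ := MonoidHom.toAdditive σ.toMonoidHom
  map_one' := rfl
  map_mul' _ _ := rfl

theorem endOfAut_injective (V : Type*) [CommGroup V] : Function.Injective (endOfAut V) := by
  intro σ τ h
  ext v
  exact congrArg Additive.toMul (DFunLike.congr_fun h (Additive.ofMul v))

variable {p : ℕ} [hp : Fact p.Prime] {G : Type*} [Group G] [Finite G]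

omit [Finite G] in
theorem conjNormal_eq_one_iff {V : Subgroup G} [V.Normal] {g : G} :
    (MulAut.conjNormal g : MulAut V) = 1 ↔ g ∈ centralizer (V : Set G) := by
  rw [mem_centralizer_iff]
  constructor
  · intro h1 v hv
    have h2 := congrArg Subtype.val (DFunLike.congr_fun h1 ⟨v, hv⟩)
    rw [MulAut.conjNormal_apply] at h2
    exact (mul_inv_eq_iff_eq_mul.1 h2).symm
  · intro h1
    ext v
    rw [MulAut.conjNormal_apply, MulAut.one_apply, mul_inv_eq_iff_eq_mul]
    exact (h1 v v.2).symm

/-- **Stability on an abelian normal subgroup.** -/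
theorem commutator_mem_centralizer_of_quadratic (hp2 : p ≠ 2) (V : Subgroup G) [V.Normal]
    (hab : Ab V) (hV : IsPGroup p V) {a g : G}
    (hquad : ∀ v ∈ V, Commute a (a * v * a⁻¹ * v⁻¹)) (hg : Reg p g)
    (hc : ∀ b : G, ⁅g, b * g * b⁻¹⁆ ∈ centralizer (V : Set G)) :
    ⁅a, g⁆ ∈ centralizer (V : Set G) := by
  letI : CommGroup V := { (inferInstance : Group V) with
    mul_comm := fun x y => Subtype.ext (hab x x.2 y y.2) }
  obtain ⟨e, he⟩ := IsPGroup.iff_card.1 hV
  set φ : G →* MulAut V := MulAut.conjNormal with hφ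
  set ψ : G →* AddMonoid.End (Additive V) := (endOfAut V).comp φ with hψ
  have hpe : ((p ^ e : ℕ) : AddMonoid.End (Additive V)) = 0 := by
    refine AddMonoidHom.ext fun w => ?_
    refine (AddMonoid.End.natCast_apply _ _).trans ?_
    rw [← he, ← Nat.card_congr (Additive.toMul : Additive V ≃ V)]
    exact card_nsmul_eq_zero'
  set N := ψ a - 1 with hN
  have hN2 : N * N = 0 := by
    refine AddMonoidHom.ext fun w => ?_
    show ψ a (ψ a w - w) - (ψ a w - w) = 0
    rw [sub_eq_zero]
    obtain ⟨v, rfl⟩ := Additive.ofMul.surjective w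
    show Additive.ofMul (φ a (φ a v / v)) = Additive.ofMul (φ a v / v)
    refine congrArg Additive.ofMul (Subtype.ext ?_)
    rw [MulAut.conjNormal_apply, mul_inv_eq_iff_eq_mul]
    have h1 : ((φ a v / v : V) : G) = a * v * a⁻¹ * (v : G)⁻¹ := by
      rw [div_eq_mul_inv, coe_mul, coe_inv, MulAut.conjNormal_apply]
    rw [h1]
    exact (hquad v v.2).eq
  have ha1 : ψ a = 1 + N := by rw [hN, add_sub_cancel]
  have hai : ψ a⁻¹ = 1 - N := by
    calc ψ a⁻¹ = ψ a⁻¹ * ((1 + N) * (1 - N)) := by
          rw [show (1 + N) * (1 - N) = 1 - N * N by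
            rw [add_mul, one_mul, mul_sub, mul_one]; abel, hN2, sub_zero, mul_one]
      _ = 1 - N := by rw [← mul_assoc, ← ha1, ← map_mul, inv_mul_cancel, map_one, one_mul]
  have ha2 : ψ (a * a) = 1 + 2 * N := by
    rw [map_mul, ha1, show (1 + N) * (1 + N) = 1 + 2 * N + N * N by noncomm_ring, hN2, add_zero]
  have hai2 : ψ (a * a)⁻¹ = 1 - 2 * N := by
    rw [mul_inv_rev, map_mul, hai,
      show (1 - N) * (1 - N) = 1 - 2 * N + N * N by
        rw [sub_mul, one_mul, mul_sub, mul_one, two_mul]; abel, hN2, add_zero]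
  have hcm : ∀ b : G, Commute (ψ g) (ψ (b * g * b⁻¹)) := by
    intro b
    have h1 : φ ⁅g, b * g * b⁻¹⁆ = 1 := conjNormal_eq_one_iff.2 (hc b)
    rw [map_commutatorElement, commutatorElement_eq_one_iff_commute] at h1
    exact h1.map (endOfAut V)
  have h3 := commute_of_quadratic (N := N) (r := ψ g) (n := orderOf g) hpe
    ((Nat.coprime_primes Nat.prime_two hp.out).2 (Ne.symm hp2))
    ((hp.out.coprime_iff_not_dvd.2 hg).symm) (by rw [← map_pow, pow_orderOf_eq_one, map_one])
    (by rw [← ha1, ← hai, ← map_mul, ← map_mul]; exact hcm a)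
    (by rw [← ha2, ← hai2, ← map_mul, ← map_mul]; exact hcm (a * a))
  have h4 : φ (a * g) = φ (g * a) := endOfAut_injective V (by
    show ψ (a * g) = ψ (g * a)
    rw [map_mul, map_mul, ha1, add_mul, mul_add, one_mul, mul_one, h3.eq])
  refine conjNormal_eq_one_iff.1 ?_
  show φ ⁅a, g⁆ = 1
  rw [map_commutatorElement, commutatorElement_eq_one_iff_commute]
  rw [map_mul, map_mul] at h4
  exact h4

/-- A normal `p`-subgroup centralises a `p`-factor with no normal subgroup between. -/
theorem le_comap_centralizer_map {X M M' : Subgroup G} [X.Normal] [M.Normal] [M'.Normal]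
    (hX : IsPGroup p X) (hM : IsPGroup p M) (hlt : M' < M)
    (hmax : ∀ L : Subgroup G, L.Normal → M' < L → L ≤ M → L = M) :
    X ≤ (centralizer (M.map (QuotientGroup.mk' M') : Set (G ⧸ M'))).comap (QuotientGroup.mk' M') := by
  set q := QuotientGroup.mk' M' with hq
  have hqs : Function.Surjective q := QuotientGroup.mk'_surjective M'
  set V := M.map q with hV
  haveI : V.Normal := Normal.map inferInstance q hqs
  haveI : (X.map q).Normal := Normal.map inferInstance q hqs
  set L := M ⊓ (centralizer (X.map q : Set (G ⧸ M'))).comap q with hL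
  haveI : (centralizer (X.map q : Set (G ⧸ M'))).Normal := inferInstance
  have hLn : L.Normal := inferInstanceAs (M ⊓ (centralizer (X.map q : Set (G ⧸ M'))).comap q).Normal
  have hM'L : M' ≤ L := fun m hm => ⟨hlt.le hm, by
    show q m ∈ centralizer (X.map q : Set (G ⧸ M'))
    rw [show q m = 1 from (QuotientGroup.eq_one_iff m).2 hm]
    exact one_mem _⟩
  have hne : L ≠ M' := by
    intro he
    letI : MulAction (X.map q) V :=
      MulAction.compHom V ((MulAut.conjNormal (H := V)).comp (X.map q).subtype)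
    obtain ⟨k, hk⟩ := IsPGroup.iff_card.1 (hM.map q : IsPGroup p V)
    have hk0 : k ≠ 0 := by
      intro h0
      rw [h0, pow_zero, card_eq_one, Subgroup.map_eq_bot_iff, QuotientGroup.ker_mk'] at hk
      exact hlt.not_ge hk
    obtain ⟨v, hv, hv1⟩ := (hX.map q).exists_fixed_point_of_prime_dvd_card_of_fixed_point V
      (hk ▸ dvd_pow_self p hk0) (a := (1 : V)) (fun x => map_one (MulAut.conjNormal (x : G ⧸ M')))
    obtain ⟨m, hm, hmv⟩ := v.2
    refine hv1 (Subtype.ext ?_)
    rw [coe_one, ← hmv]
    refine ((QuotientGroup.eq_one_iff m).2 (he ▸ ?_)).symm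
    refine ⟨hm, mem_centralizer_iff.2 fun x hx => ?_⟩
    rw [show q m = (v : G ⧸ M') from hmv]
    have h1 : ((MulAut.conjNormal x v : V) : G ⧸ M') = v := congrArg Subtype.val (hv ⟨x, hx⟩)
    rwa [MulAut.conjNormal_apply, mul_inv_eq_iff_eq_mul] at h1
  have hLM : L = M := hmax L hLn (lt_of_le_of_ne hM'L hne.symm) inf_le_left
  intro x hx
  show q x ∈ centralizer (M.map q : Set (G ⧸ M'))
  rw [mem_centralizer_iff]
  rintro _ ⟨m, hm, rfl⟩
  have h1 : m ∈ L := hLM.symm ▸ hm
  exact (mem_centralizer_iff.1 h1.2 (q x) ⟨x, hx, rfl⟩).symm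

/-- An element of order prime to `p` trivial on the factors of a series centralises. -/
theorem mem_centralizer_of_factors {B : Subgroup G} [B.Normal] (hB : IsPGroup p B) {t : G}
    (ht : Reg p t)
    (hfac : ∀ M : Subgroup G, M.Normal → M ≤ B → M ≠ ⊥ → ∃ M' : Subgroup G, M'.Normal ∧ M' < M ∧
      ∀ m ∈ M, ⁅t, m⁆ ∈ M') : t ∈ centralizer (B : Set G) := by
  suffices ∀ (n : ℕ) (M : Subgroup G), Nat.card M = n → M.Normal → M ≤ B →
      (∀ v ∈ B, ⁅t, v⁆ ∈ M) → t ∈ centralizer (B : Set G) from
    this _ B rfl inferInstance le_rfl fun v hv => by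
      rw [commutatorElement_def]
      exact B.mul_mem (Normal.conj_mem inferInstance v hv t) (B.inv_mem hv)
  intro n
  induction n using Nat.strong_induction_on with
  | _ n ih =>
  intro M hn hMn hMB hv
  rcases eq_or_ne M ⊥ with rfl | hne
  · refine mem_centralizer_iff.2 fun v hv' => ?_
    have h1 := mem_bot.1 (hv v hv')
    exact (commutatorElement_eq_one_iff_commute.1 h1).symm
  obtain ⟨M', hM'n, hlt, hM'⟩ := hfac M hMn hMB hne
  haveI := hM'n
  refine ih _ (hn ▸ Set.ncard_lt_ncard (SetLike.coe_ssubset_coe.2 hlt) (Set.toFinite _)) M' rfl hM'n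
    (hlt.le.trans hMB) fun v hv' => ?_
  set q := QuotientGroup.mk' M' with hq
  set c := q ⁅t, v⁆ with hc
  have hct : Commute (q t) c := by
    rw [← commutatorElement_eq_one_iff_commute, hc, ← map_commutatorElement]
    exact (QuotientGroup.eq_one_iff _).2 (hM' _ (hv v hv'))
  have hstep : q t * q v * (q t)⁻¹ = c * q v := by
    rw [hc, map_commutatorElement, commutatorElement_def]; group
  have hpow : ∀ j : ℕ, q t ^ j * q v * (q t ^ j)⁻¹ = c ^ j * q v := by
    intro j
    induction j with
    | zero => simp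
    | succ j ihj =>
      calc q t ^ (j + 1) * q v * (q t ^ (j + 1))⁻¹ = q t * (q t ^ j * q v * (q t ^ j)⁻¹) * (q t)⁻¹ := by
            rw [pow_succ']; group
        _ = (q t * c ^ j) * q v * (q t)⁻¹ := by rw [ihj]; group
        _ = c ^ j * (q t * q v * (q t)⁻¹) := by rw [(hct.pow_right j).eq]; group
        _ = c ^ (j + 1) * q v := by rw [hstep, pow_succ]; group
  have hn0 : c ^ orderOf t = 1 := by
    have h1 := hpow (orderOf t)
    rw [← map_pow, pow_orderOf_eq_one, map_one, one_mul, inv_one, mul_one] at h1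
    exact mul_eq_right.1 h1.symm
  have hc1 : c = 1 := Reg.eq_one_of_isPGroup (hB.map q)
    ⟨_, hMB (hv v hv'), rfl⟩ fun hd => ht (hd.trans (orderOf_dvd_of_pow_eq_one hn0))
  exact (QuotientGroup.eq_one_iff _).1 hc1

end FA.Thompson
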