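import Fermat.Agent.ThompsonTransfer.Subgroups
import Fermat.Agent.ThompsonTransfer.Frobenius

/-!
# Transport of normal `p`-complements of local subgroups
-/

set_option autoImplicit false
set_option linter.style.haveILetI false

namespace FA.Thompson

open Subgroup

variable {p : ℕ} [hp : Fact p.Prime] {G : Type*} [Group G] [Finite G]

theorem PCompOn.map {H : Type*} [Group H] {N : Subgroup G} (h : PCompOn p N) (f : G →* H) :
    PCompOn p (N.map f) := by
  rintro _ ⟨x, hx, rfl⟩ _ ⟨y, hy, rfl⟩ hxr hyr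
  obtain ⟨x', hx', ex⟩ := exists_reg_lift (f.comp N.subtype) (x := ⟨x, hx⟩) hxr
  obtain ⟨y', hy', ey⟩ := exists_reg_lift (f.comp N.subtype) (x := ⟨y, hy⟩) hyr
  have h1 := (h _ x'.2 _ y'.2 (hx'.map N.subtype) (hy'.map N.subtype)).map f
  rwa [map_mul, show f (x' : G) = f x from ex, show f (y' : G) = f y from ey] at h1

omit hp [Finite G] in
theorem PCompOn.conj {S : Subgroup G} (h : PCompOn p S) (g : G) :
    PCompOn p (S.map (MulAut.conj g).toMonoidHom) := by
  rintro _ ⟨x, hx, rfl⟩ _ ⟨y, hy, rfl⟩ hxr hyr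
  rw [← map_mul]
  exact (h x hx y hy ((reg_map_iff (MulAut.conj g).injective).1 hxr)
    ((reg_map_iff (MulAut.conj g).injective).1 hyr)).map _

/-- The largest order of a `p`-subgroup. -/
noncomputable def pPart (p : ℕ) (S : Subgroup G) : ℕ := p ^ (Nat.card S).factorization p

theorem card_le_pPart {Q S : Subgroup G} (hQ : IsPGroup p Q) (hQS : Q ≤ S) :
    Nat.card Q ≤ pPart p S := by
  obtain ⟨k, hk⟩ := IsPGroup.iff_card.1 hQ
  rw [hk]
  refine Nat.pow_le_pow_right hp.out.pos ?_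
  rw [← hp.out.pow_dvd_iff_le_factorization Nat.card_pos.ne', ← hk]
  exact card_dvd_of_le hQS

theorem exists_pPart (S : Subgroup G) :
    ∃ Q : Subgroup G, Q ≤ S ∧ IsPGroup p Q ∧ Nat.card Q = pPart p S := by
  obtain ⟨T⟩ : Nonempty (Sylow p S) := inferInstance
  exact ⟨(T : Subgroup S).map S.subtype, map_subtype_le _, T.2.map _, by
    rw [Nat.card_congr ((T : Subgroup S).equivMapOfInjective _ S.subtype_injective).toEquiv.symm,
      T.card_eq_multiplicity]
    rfl⟩

/-- **Frattini**: normalisers of `p`-subgroups lift along `p'`-quotients. -/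
theorem normalizer_map_le {M : Subgroup G} [M.Normal] (hM : ¬ p ∣ Nat.card M) {R : Subgroup G}
    (hR : IsPGroup p R) :
    normalizer (R.map (QuotientGroup.mk' M) : Set (G ⧸ M)) ≤
      (normalizer (R : Set G)).map (QuotientGroup.mk' M) := by
  intro y hy
  obtain ⟨g, rfl⟩ := QuotientGroup.mk_surjective y
  set f := QuotientGroup.mk' M with hf
  set L := (R.map f).comap f with hL
  have hRL : R ≤ L := le_comap_map f R
  have hker : f.ker = M := QuotientGroup.ker_mk' M
  have hRM : R ⊓ M = ⊥ := (eq_bot_iff_forall _).2 fun x hx =>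
    (reg_of_mem_of_not_dvd_card (p := p) hM hx.2).eq_one_of_isPGroup hR hx.1
  have hRinj : Set.InjOn f (R : Set G) := fun x hx y hy he => by
    have h1 : x⁻¹ * y ∈ R ⊓ M :=
      ⟨R.mul_mem (R.inv_mem hx) hy, (QuotientGroup.eq (s := M)).1 he⟩
    rw [hRM, mem_bot, inv_mul_eq_one] at h1
    exact h1
  have hLcard : Nat.card M * Nat.card R = Nat.card L := by
    have h1 : Nat.card (L.map f) = Nat.card R := by
      rw [hL, map_comap_eq_self_of_surjective (QuotientGroup.mk'_surjective M),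
        card_map_of_injOn hRinj le_rfl]
    rw [← h1, ← relIndex_ker, hker, ← relIndex_bot_left, ← relIndex_bot_left,
      relIndex_mul_relIndex ⊥ M L bot_le (hker ▸ ker_le_comap f _)]
  have hidx : ¬ p ∣ (R.subgroupOf L).index := by
    have h1 : Nat.card R * R.relIndex L = Nat.card L := by
      rw [← relIndex_bot_left, ← relIndex_bot_left, relIndex_mul_relIndex ⊥ R L bot_le hRL]
    rw [← hLcard, mul_comm (Nat.card M)] at h1
    intro hd
    exact hM (Nat.eq_of_mul_eq_mul_left Nat.card_pos h1 ▸ hd)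
  let T : Sylow p L := (IsPGroup.comap_subtype hR (K := L)).toSylow hidx
  have hgL : R.map (MulAut.conj g).toMonoidHom ≤ L := by
    rintro _ ⟨r, hr, rfl⟩
    show f (g * r * g⁻¹) ∈ R.map f
    rw [map_mul, map_mul, map_inv]
    exact ((mem_normalizer_iff).1 hy (f r)).1 ⟨r, hr, rfl⟩
  have hg' : IsPGroup p (R.map (MulAut.conj g).toMonoidHom) := hR.map _
  obtain ⟨U, hU⟩ := (hg'.comap_subtype (K := L)).exists_le_sylow
  obtain ⟨m, hm⟩ := MulAction.exists_smul_eq L U T
  have hconj : ∀ r ∈ R, ((m : G) * g) * r * ((m : G) * g)⁻¹ ∈ R := by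
    intro r hr
    have h1 : (⟨g * r * g⁻¹, hgL ⟨r, hr, rfl⟩⟩ : L) ∈ U := hU ⟨r, hr, rfl⟩
    have h2 : m * ⟨g * r * g⁻¹, hgL ⟨r, hr, rfl⟩⟩ * m⁻¹ ∈ T := by
      rw [← hm, mem_conj_smul]
      simpa [mul_assoc] using h1
    have h3 : (m : G) * (g * r * g⁻¹) * (m : G)⁻¹ ∈ R := h2
    simpa [mul_assoc] using h3
  have hn : (m : G) * g ∈ normalizer (R : Set G) := by
    rw [mem_normalizer_iff_map_conj_eq]
    refine eq_of_le_of_card_ge ?_ (le_of_eq ?_)
    · rintro _ ⟨r, hr, rfl⟩
      exact hconj r hr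
    · exact Nat.card_congr (R.equivMapOfInjective _ (MulAut.conj _).injective).toEquiv
  -- correct by the element of `R` congruent to `m`
  obtain ⟨r, hr, hrm⟩ := (m.2 : f (m : G) ∈ R.map f)
  refine ⟨r⁻¹ * ((m : G) * g), mul_mem (le_normalizer (R.inv_mem hr)) hn, ?_⟩
  rw [map_mul, map_mul, map_inv, hrm, inv_mul_cancel_left]
  rfl

end FA.Thompson
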