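import Mathlib.GroupTheory.Sylow
import Mathlib.GroupTheory.SchurZassenhaus

/-!
# Normal `p`-complements through the elements of order prime to `p`

A finite group has a normal `p`-complement exactly when the product of two elements of order prime
to `p` again has order prime to `p`; this form passes to subgroups by restriction.
-/

set_option autoImplicit false
set_option linter.style.haveILetI false

namespace FA.Thompson

open Subgroup

variable {p : ℕ} {G H : Type*} [Group G] [Group H]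

/-- The order is prime to `p`. -/
def Reg (p : ℕ) {G : Type*} [Group G] (g : G) : Prop := ¬ p ∣ orderOf g

/-- A normal `p`-complement: the elements of order prime to `p` are closed under products. -/
def PComp (p : ℕ) (G : Type*) [Group G] : Prop :=
  ∀ x y : G, Reg p x → Reg p y → Reg p (x * y)

/-- A normal `p`-complement of a subgroup. -/
def PCompOn (p : ℕ) {G : Type*} [Group G] (S : Subgroup G) : Prop :=
  ∀ x ∈ S, ∀ y ∈ S, Reg p x → Reg p y → Reg p (x * y)

theorem Reg.one [hp : Fact p.Prime] : Reg p (1 : G) := by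
  rw [Reg, orderOf_one]
  exact hp.out.not_dvd_one

theorem Reg.inv {g : G} (h : Reg p g) : Reg p g⁻¹ := by rwa [Reg, orderOf_inv]

theorem Reg.map {g : G} (h : Reg p g) (f : G →* H) : Reg p (f g) :=
  fun hd => h (hd.trans (orderOf_map_dvd f g))

theorem reg_map_iff {f : G →* H} (hf : Function.Injective f) {g : G} : Reg p (f g) ↔ Reg p g := by
  rw [Reg, Reg, orderOf_injective f hf]

theorem reg_conj_iff {g x : G} : Reg p (x * g * x⁻¹) ↔ Reg p g :=
  reg_map_iff (f := (MulAut.conj x).toMonoidHom) (MulAut.conj x).injective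

theorem Reg.eq_one_of_pow {g : G} (h : Reg p g) [hp : Fact p.Prime] {k : ℕ}
    (hk : g ^ p ^ k = 1) : g = 1 := by
  rw [← orderOf_eq_one_iff]
  exact ((Nat.dvd_prime_pow hp.out).1 (orderOf_dvd_of_pow_eq_one hk)).elim fun i hi => by
    rcases Nat.eq_zero_or_pos i with h0 | h0
    · rw [hi.2, h0, pow_zero]
    · exact absurd (hi.2 ▸ dvd_pow_self p h0.ne') h

theorem Reg.eq_one_of_isPGroup [hp : Fact p.Prime] {P : Subgroup G} (hP : IsPGroup p P) {g : G}
    (hg : g ∈ P) (h : Reg p g) : g = 1 := by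
  obtain ⟨k, hk⟩ := isPGroup_iff_pow_pow_eq_one.1 hP ⟨g, hg⟩
  exact h.eq_one_of_pow (congrArg Subtype.val hk)

theorem reg_of_mem_of_not_dvd_card {M : Subgroup G} (hM : ¬ p ∣ Nat.card M) {g : G} (hg : g ∈ M) :
    Reg p g := fun h => hM (h.trans (M.orderOf_dvd_natCard hg))

/-- The decomposition of an element into a `p`-part and a part of order prime to `p`. -/
theorem exists_decomp [hp : Fact p.Prime] [Finite G] (g : G) :
    ∃ a b : G, a ∈ zpowers g ∧ b ∈ zpowers g ∧ g = a * b ∧ (∃ k, a ^ p ^ k = 1) ∧ Reg p b := by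
  obtain ⟨k, m, hm, hkm⟩ :=
    Nat.exists_eq_pow_mul_and_not_dvd (orderOf_pos g).ne' p hp.out.ne_one
  have hco : (p ^ k).Coprime m := Nat.Coprime.pow_left _ (hp.out.coprime_iff_not_dvd.2 hm)
  obtain ⟨e, he1, he0⟩ := Nat.chineseRemainder hco 1 0
  obtain ⟨f, hf1, hf0⟩ := Nat.chineseRemainder hco 0 1
  have h1 : g ^ (p ^ k * m) = 1 := by rw [← hkm, pow_orderOf_eq_one]
  refine ⟨g ^ e, g ^ f, npow_mem_zpowers g e, npow_mem_zpowers g f, ?_, ⟨k, ?_⟩, ?_⟩
  · rw [← pow_add]
    have h : e + f ≡ 1 [MOD orderOf g] := by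
      rw [hkm]
      exact (Nat.modEq_and_modEq_iff_modEq_mul hco).1
        ⟨by simpa using he1.add hf1, by simpa using he0.add hf0⟩
    rw [pow_eq_pow_iff_modEq.2 h, pow_one]
  · obtain ⟨c, rfl⟩ := Nat.modEq_zero_iff_dvd.1 he0
    rw [← pow_mul, show m * c * p ^ k = p ^ k * m * c by ring, pow_mul, h1, one_pow]
  · obtain ⟨c, rfl⟩ := Nat.modEq_zero_iff_dvd.1 hf1
    intro hd
    refine hm (hd.trans (orderOf_dvd_of_pow_eq_one ?_))
    rw [← pow_mul, show p ^ k * c * m = p ^ k * m * c by ring, pow_mul, h1, one_pow]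

/-- An element of order prime to `p` lifts to one. -/
theorem exists_reg_lift [hp : Fact p.Prime] [Finite G] (f : G →* H) {x : G} (hx : Reg p (f x)) :
    ∃ x', Reg p x' ∧ f x' = f x := by
  obtain ⟨a, b, ha, -, hab, ⟨k, hk⟩, hb⟩ := exists_decomp (p := p) x
  obtain ⟨i, rfl⟩ := ha
  have h1 : f (x ^ i) = 1 := by
    refine Reg.eq_one_of_pow (k := k) ?_ (by rw [← map_pow, hk, map_one])
    intro hd
    refine hx (hd.trans ?_)
    rw [map_zpow]
    exact orderOf_dvd_of_mem_zpowers (zpow_mem (mem_zpowers (f x)) i)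
  exact ⟨b, hb, by
    conv_rhs => rw [hab]
    rw [map_mul, h1, one_mul]⟩

theorem pcompOn_top : PCompOn p (⊤ : Subgroup G) ↔ PComp p G :=
  ⟨fun h x y hx hy => h x (mem_top x) y (mem_top y) hx hy, fun h x _ y _ hx hy => h x y hx hy⟩

theorem PCompOn.mono {S T : Subgroup G} (h : PCompOn p T) (hST : S ≤ T) : PCompOn p S :=
  fun x hx y hy => h x (hST hx) y (hST hy)

theorem pcomp_subgroup {S : Subgroup G} : PComp p S ↔ PCompOn p S := by
  refine ⟨fun h x hx y hy h1 h2 => ?_, fun h x y h1 h2 => ?_⟩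
  · exact (reg_map_iff (f := S.subtype) S.subtype_injective (g := ⟨x, hx⟩ * ⟨y, hy⟩)).2
      (h _ _ ((reg_map_iff (f := S.subtype) S.subtype_injective (g := ⟨x, hx⟩)).1 h1)
        ((reg_map_iff (f := S.subtype) S.subtype_injective (g := ⟨y, hy⟩)).1 h2))
  · exact (reg_map_iff (f := S.subtype) S.subtype_injective).1
      (h _ x.2 _ y.2 ((reg_map_iff S.subtype_injective).2 h1)
        ((reg_map_iff S.subtype_injective).2 h2))

theorem PCompOn.comap {f : G →* H} (hf : Function.Injective f) {S : Subgroup H}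
    (h : PCompOn p S) : PCompOn p (S.comap f) := fun x hx y hy h1 h2 => by
  rw [← reg_map_iff hf, map_mul]
  exact h _ hx _ hy (h1.map f) (h2.map f)

/-- The subgroup of the elements of order prime to `p`. -/
def PComp.regSubgroup [Fact p.Prime] (h : PComp p G) : Subgroup G where
  carrier := {g | Reg p g}
  one_mem' := Reg.one
  mul_mem' := fun {a b} ha hb => h a b ha hb
  inv_mem' := fun ha => Reg.inv ha

theorem PComp.mem_regSubgroup [Fact p.Prime] (h : PComp p G) {g : G} :
    g ∈ h.regSubgroup ↔ Reg p g := Iff.rfl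

theorem PComp.regSubgroup_normal [Fact p.Prime] (h : PComp p G) : h.regSubgroup.Normal :=
  ⟨fun _ hn _ => reg_conj_iff.2 hn⟩

theorem PComp.not_dvd_card [hp : Fact p.Prime] [Finite G] (h : PComp p G) :
    ¬ p ∣ Nat.card h.regSubgroup := fun hd => by
  obtain ⟨g, hg⟩ := exists_prime_orderOf_dvd_card' p hd
  have h1 : Reg p (g : G) := g.2
  rw [Reg, orderOf_coe, hg] at h1
  exact h1 dvd_rfl

/-- The elements of order prime to `p` of the quotient by them are trivial. -/
theorem PComp.isPGroup_quotient [hp : Fact p.Prime] [Finite G] (h : PComp p G) :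
    haveI := h.regSubgroup_normal
    IsPGroup p (G ⧸ h.regSubgroup) := by
  haveI := h.regSubgroup_normal
  intro q
  obtain ⟨g, rfl⟩ := QuotientGroup.mk_surjective q
  obtain ⟨a, b, -, -, hab, ⟨k, hk⟩, hb⟩ := exists_decomp (p := p) g
  refine ⟨k, ?_⟩
  rw [hab, QuotientGroup.mk_mul, (QuotientGroup.eq_one_iff b).2 hb, mul_one, ← QuotientGroup.mk_pow,
    hk, QuotientGroup.mk_one]

/-- A quotient by a normal subgroup of order prime to `p` reflects complements. -/
theorem pcomp_of_quotient [Fact p.Prime] (M : Subgroup G) [M.Normal] (hM : ¬ p ∣ Nat.card M)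
    (h : PComp p (G ⧸ M)) : PComp p G := by
  intro x y hx hy hd
  have hxy := h _ _ (hx.map (QuotientGroup.mk' M)) (hy.map (QuotientGroup.mk' M))
  rw [← map_mul] at hxy
  set z := x * y
  have h1 : z ^ orderOf (QuotientGroup.mk' M z) ∈ M := by
    rw [← QuotientGroup.eq_one_iff, QuotientGroup.mk_pow]
    exact pow_orderOf_eq_one _
  have h2 : z ^ (orderOf (QuotientGroup.mk' M z) * Nat.card M) = 1 := by
    rw [pow_mul, ← orderOf_dvd_iff_pow_eq_one]
    exact M.orderOf_dvd_natCard h1
  rcases (Fact.out : p.Prime).dvd_mul.1 (hd.trans (orderOf_dvd_of_pow_eq_one h2)) with h3 | h3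
  · exact hxy h3
  · exact hM h3

/-- A central normal Sylow subgroup splits off. -/
theorem pcomp_of_central [hp : Fact p.Prime] [Finite G] (Z : Subgroup G) (hZ : IsPGroup p Z)
    (hc : Z ≤ center G) (hi : ¬ p ∣ Z.index) : PComp p G := by
  haveI : Z.Normal := ⟨fun z hz g => by rwa [(mem_center_iff.1 (hc hz) g), mul_inv_cancel_right]⟩
  obtain ⟨k, hk⟩ := IsPGroup.iff_card.1 hZ
  have hco : (Nat.card Z).Coprime Z.index :=
    hk ▸ Nat.Coprime.pow_left _ (hp.out.coprime_iff_not_dvd.2 hi)
  obtain ⟨L, hL⟩ := exists_right_complement'_of_coprime hco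
  have hLcard : ¬ p ∣ Nat.card L := by rwa [← hL.symm.index_eq_card]
  have hmem : ∀ g : G, Reg p g → g ∈ L := by
    intro g hg
    obtain ⟨⟨z, l⟩, hzl⟩ := hL.2 g
    have hcomm : Commute (z : G) l := ((mem_center_iff.1 (hc z.2)) l).symm
    have hl : (l : G) ^ Nat.card L = 1 := orderOf_dvd_iff_pow_eq_one.1 (L.orderOf_dvd_natCard l.2)
    have hz1 : (z : G) ^ Nat.card L = g ^ Nat.card L := by
      rw [← hzl, hcomm.mul_pow, hl, mul_one]
    have hz : (z : G) = 1 := by
      have h0 : (z : G) ^ Nat.card L = 1 := by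
        refine Reg.eq_one_of_isPGroup hZ (pow_mem z.2 _) ?_
        rw [hz1]
        exact fun h => hg (h.trans (orderOf_pow_dvd _))
      have h1 : orderOf (z : G) ∣ p ^ k := hk ▸ Z.orderOf_dvd_natCard z.2
      exact orderOf_eq_one_iff.1 (Nat.eq_one_of_dvd_coprimes
        (Nat.Coprime.pow_left k (hp.out.coprime_iff_not_dvd.2 hLcard)) h1
        (orderOf_dvd_of_pow_eq_one h0))
    have : (l : G) = g := by rw [← hzl]; show (l : G) = z * l; rw [hz, one_mul]
    exact this ▸ l.2
  exact fun x y hx hy => reg_of_mem_of_not_dvd_card hLcard (mul_mem (hmem x hx) (hmem y hy))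

end FA.Thompson
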