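import Fermat.Agent.ThompsonTransfer.Local
import Fermat.Agent.ThompsonTransfer.Stability
import Mathlib.GroupTheory.Solvable

/-!
# Constrained counterexamples

A group without a normal `p`-complement and without a normal subgroup of order prime to `p`, all of
whose proper subgroups over a Sylow subgroup have complements, and whose quotient by its largest
normal `p`-subgroup `X` has one: the Sylow subgroup is maximal, the complement of the quotient is
abelian and minimal, and quadratic `p`-elements lie in `X`.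
-/

set_option autoImplicit false
set_option linter.style.haveILetI false

namespace FA.Thompson

open Subgroup
open scoped Pointwise commutatorElement

variable {p : ℕ} [hp : Fact p.Prime] {G : Type*} [Group G] [Finite G]

theorem isPGroup_of_forall_reg {H : Subgroup G} (h : ∀ g ∈ H, Reg p g → g = 1) :
    IsPGroup p H := fun g => by
  obtain ⟨a, b, -, hb, hab, ⟨k, hk⟩, hbr⟩ := exists_decomp (p := p) (g : G)
  refine ⟨k, Subtype.ext ?_⟩
  rw [h b (zpowers_le.2 g.2 hb) hbr, mul_one] at hab
  rw [coe_pow, hab, hk, coe_one]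

/-- An invariant Sylow subgroup of a normal subgroup of order prime to `p`. -/
theorem exists_invariant_sylow (K : Subgroup G) [K.Normal] (hK : ¬ p ∣ Nat.card K)
    (P : Sylow p G) (q : ℕ) [hq : Fact q.Prime] :
    ∃ U : Subgroup G, U ≤ K ∧ IsPGroup q U ∧ (P : Subgroup G) ≤ normalizer (U : Set G) ∧
      Nat.card U = q ^ (Nat.card K).factorization q := by
  obtain ⟨S⟩ : Nonempty (Sylow q K) := inferInstance
  set U := (S : Subgroup K).map K.subtype with hU
  set N := normalizer (U : Set G) with hN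
  have hsup : N ⊔ K = ⊤ := S.normalizer_sup_eq_top
  have hmap : N.map (QuotientGroup.mk' K) = ⊤ := by
    rw [← comap_injective (QuotientGroup.mk'_surjective K) |>.eq_iff, comap_map_eq,
      QuotientGroup.ker_mk', comap_top, hsup]
  have hdvd : Nat.card (P : Subgroup G) ∣ Nat.card N := by
    refine dvd_trans ?_ (card_map_dvd N (QuotientGroup.mk' K))
    rw [hmap, card_top]
    have h1 := (P : Subgroup G).card_subgroup_dvd_card
    rw [K.card_eq_card_quotient_mul_card_subgroup] at h1
    refine (Nat.Coprime.dvd_mul_right ?_).1 h1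
    rw [P.card_eq_multiplicity]
    exact Nat.Coprime.pow_left _ (hp.out.coprime_iff_not_dvd.2 hK)
  obtain ⟨T⟩ : Nonempty (Sylow p N) := inferInstance
  obtain ⟨P', hP'⟩ := (T.2.map N.subtype).exists_le_sylow
  have hle : (P' : Subgroup G) ≤ N := by
    refine le_of_eq_of_le (eq_of_le_of_card_ge hP' ?_).symm (map_subtype_le _)
    rw [Nat.card_congr ((T : Subgroup N).equivMapOfInjective _ N.subtype_injective).toEquiv.symm,
      P'.card_eq_multiplicity, ← P.card_eq_multiplicity]
    obtain ⟨k, hk⟩ := IsPGroup.iff_card.1 P.2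
    rw [hk] at hdvd
    rw [hk, T.card_eq_multiplicity]
    exact Nat.pow_le_pow_right hp.out.pos
      ((hp.out.pow_dvd_iff_le_factorization Nat.card_pos.ne').1 hdvd)
  obtain ⟨g, hg⟩ := MulAction.exists_smul_eq G P' P
  refine ⟨U.map (MulAut.conj g).toMonoidHom, ?_, (S.2.map _).map _, ?_, ?_⟩
  · rintro _ ⟨x, hx, rfl⟩
    exact Normal.conj_mem inferInstance x (map_subtype_le _ hx) g
  · rw [← hg]
    refine (map_mono (f := (MulAut.conj g).toMonoidHom) hle).trans_eq ?_
    rw [hN, map_equiv_normalizer_eq]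
  · rw [card_map_of_injective (MulAut.conj g).injective, hU,
      card_map_of_injective K.subtype_injective, S.card_eq_multiplicity]

/-- The Sylow subgroup is a maximal subgroup. -/
theorem eq_or_eq_top {P : Sylow p G}
    (hloc : ∀ H : Subgroup G, H ≠ ⊤ → (P : Subgroup G) ≤ H → PCompOn p H) {X : Subgroup G}
    (hXn : X.Normal) (hX : IsPGroup p X) (hXP : X ≤ (P : Subgroup G))
    (hcent : ∀ g : G, Reg p g → (∀ x ∈ X, x * g = g * x) → g = 1) {H : Subgroup G}
    (hPH : (P : Subgroup G) ≤ H) : H = P ∨ H = ⊤ := by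
  by_cases hH : H = ⊤
  · exact Or.inr hH
  have hpc := hloc H hH hPH
  refine Or.inl (P.3 (isPGroup_of_forall_reg fun g hg hgr => hcent g hgr fun x hx => ?_) hPH)
  have hxH : x ∈ H := hPH (hXP hx)
  have h1 : Reg p (g * (x * g⁻¹ * x⁻¹)) :=
    hpc g hg _ (mul_mem (mul_mem hxH (inv_mem hg)) (inv_mem hxH)) hgr (reg_conj_iff.2 hgr.inv)
  have h2 : g * (x * g⁻¹ * x⁻¹) ∈ X := by
    rw [← mul_assoc, ← mul_assoc]
    exact X.mul_mem (hXn.conj_mem x hx g) (X.inv_mem hx)
  have h3 := h1.eq_one_of_isPGroup hX h2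
  rw [← mul_assoc, mul_inv_eq_one, ← mul_assoc, mul_inv_eq_iff_eq_mul] at h3
  exact h3.symm

/-- The shape of a least counterexample. -/
structure Setting (p : ℕ) [Fact p.Prime] {G : Type*} [Group G] (P : Sylow p G) (X : Subgroup G)
    [X.Normal] : Prop where
  not_pcomp : ¬ PComp p G
  no_prime_to : ∀ M : Subgroup G, M.Normal → ¬ p ∣ Nat.card M → M = ⊥
  local_pcomp : ∀ H : Subgroup G, H ≠ ⊤ → (P : Subgroup G) ≤ H → PCompOn p H
  isPGroup : IsPGroup p X
  le_sylow : X ≤ (P : Subgroup G)
  ne_sylow : X ≠ (P : Subgroup G)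
  core : ∀ Y : Subgroup G, Y.Normal → IsPGroup p Y → Y ≤ X
  quot : PComp p (G ⧸ X)

variable {P : Sylow p G} {X : Subgroup G} [hXn : X.Normal]

/-- Elements of order prime to `p` centralising `X` are trivial. -/
theorem Setting.eq_one_of_centralizes (s : Setting p P X) :
    ∀ g : G, Reg p g → (∀ x ∈ X, x * g = g * x) → g = 1 := by
  obtain ⟨hG, hop, hloc, hX, hXP, hXne, hcore, hQ⟩ := s
  set f := QuotientGroup.mk' X with hf
  have hfs : Function.Surjective f := QuotientGroup.mk'_surjective X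
  have hker : f.ker = X := QuotientGroup.ker_mk' X
  have hfX : ∀ x : G, f x = 1 ↔ x ∈ X := fun x => QuotientGroup.eq_one_iff x
  set Qb := hQ.regSubgroup with hQbdef
  haveI hQbn : Qb.Normal := hQ.regSubgroup_normal
  have hQbp : ¬ p ∣ Nat.card Qb := hQ.not_dvd_card
  set CK := centralizer (X : Set G) ⊓ Qb.comap f with hCK
  haveI : CK.Normal := inferInstanceAs (centralizer (X : Set G) ⊓ Qb.comap f).Normal
  have hpc : PComp p CK := by
    refine pcomp_of_central (X.subgroupOf CK) hX.comap_subtype (fun z hz => ?_) fun hd => ?_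
    · rw [mem_center_iff]
      intro c
      exact Subtype.ext (mem_centralizer_iff.1 c.2.1 _ hz).symm
    · refine hQbp ?_
      have h1 : (X.subgroupOf CK).index = Nat.card (CK.map f) := by
        rw [← relIndex_ker, hker]; rfl
      rw [h1] at hd
      exact hd.trans (card_dvd_of_le (map_le_iff_le_comap.2 inf_le_right))
  rw [pcomp_subgroup] at hpc
  let M : Subgroup G :=
    { carrier := {g | g ∈ CK ∧ Reg p g}
      one_mem' := ⟨CK.one_mem, Reg.one⟩
      mul_mem' := fun {a b} ha hb => ⟨CK.mul_mem ha.1 hb.1, hpc a ha.1 b hb.1 ha.2 hb.2⟩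
      inv_mem' := fun {a} ha => ⟨CK.inv_mem ha.1, ha.2.inv⟩ }
  haveI : M.Normal :=
    ⟨fun n hn g => ⟨Normal.conj_mem inferInstance n hn.1 g, reg_conj_iff.2 hn.2⟩⟩
  have hM : M = ⊥ := hop M inferInstance fun hd => by
    obtain ⟨g, hg⟩ := exists_prime_orderOf_dvd_card' p hd
    have h1 := g.2.2
    rw [Reg, orderOf_coe, hg] at h1
    exact h1 dvd_rfl
  intro g hg hgX
  rw [← mem_bot (x := g), ← hM]
  exact ⟨⟨mem_centralizer_iff.2 hgX, hg.map f⟩, hg⟩

theorem Setting.maximal (s : Setting p P X) {H : Subgroup G} (hPH : (P : Subgroup G) ≤ H) :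
    H = P ∨ H = ⊤ :=
  eq_or_eq_top s.local_pcomp hXn s.isPGroup s.le_sylow s.eq_one_of_centralizes hPH

omit [Finite G] in
theorem Setting.regSubgroup_ne_bot (s : Setting p P X) : s.quot.regSubgroup ≠ ⊥ := by
  intro h0
  refine s.not_pcomp fun x y hx hy => ?_
  have h1 : ∀ z : G, Reg p z → z = 1 := fun z hz => hz.eq_one_of_isPGroup s.isPGroup (by
    rw [← QuotientGroup.eq_one_iff, ← mem_bot (x := (z : G ⧸ X)), ← h0]
    exact hz.map (QuotientGroup.mk' X))
  rw [h1 x hx, h1 y hy, one_mul]
  exact Reg.one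

/-- Minimality of the complement of the quotient. -/
theorem Setting.minimal (s : Setting p P X) : ∀ U : Subgroup (G ⧸ X), U ≤ s.quot.regSubgroup →
    (P : Subgroup G).map (QuotientGroup.mk' X) ≤ normalizer (U : Set (G ⧸ X)) →
    U = ⊥ ∨ U = s.quot.regSubgroup := by
  have hmaxP : ∀ H : Subgroup G, (P : Subgroup G) ≤ H → H = P ∨ H = ⊤ := fun H hH => s.maximal hH
  obtain ⟨hG, hop, hloc, hX, hXP, hXne, hcore, hQ⟩ := s
  set f := QuotientGroup.mk' X with hf
  have hfs : Function.Surjective f := QuotientGroup.mk'_surjective X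
  have hker : f.ker = X := QuotientGroup.ker_mk' X
  have hfX : ∀ x : G, f x = 1 ↔ x ∈ X := fun x => QuotientGroup.eq_one_iff x
  set Qb := hQ.regSubgroup with hQbdef
  haveI hQbn : Qb.Normal := hQ.regSubgroup_normal
  have hQbp : ¬ p ∣ Nat.card Qb := hQ.not_dvd_card
  set Pb := P.mapSurjective hfs with hPb
  have hPbc : (Pb : Subgroup (G ⧸ X)) = (P : Subgroup G).map f := Sylow.coe_mapSurjective hfs P
  have hPQ : ∀ y ∈ (Pb : Subgroup (G ⧸ X)), y ∈ Qb → y = 1 := fun y hy hy' =>
    Reg.eq_one_of_isPGroup Pb.2 hy hy'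
  intro U hU hPU
  rw [← hPbc] at hPU
  rcases hmaxP (((Pb : Subgroup (G ⧸ X)) ⊔ U).comap f)
    (le_trans (hPbc ▸ le_comap_map f _) (comap_mono le_sup_left)) with he | he
  · refine Or.inl ((eq_bot_iff_forall _).2 fun u hu => hPQ u ?_ (hU hu))
    have h1 : ((Pb : Subgroup (G ⧸ X)) ⊔ U) = Pb := by
      rw [← map_comap_eq_self_of_surjective hfs ((Pb : Subgroup (G ⧸ X)) ⊔ U), he, ← hPbc]
    exact h1 ▸ mem_sup_right hu
  · refine Or.inr (le_antisymm hU fun x hx => ?_)
    have h1 : x ∈ (Pb : Subgroup (G ⧸ X)) ⊔ U := by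
      rw [← map_comap_eq_self_of_surjective hfs ((Pb : Subgroup (G ⧸ X)) ⊔ U), he,
        map_top_of_surjective f hfs]
      exact mem_top x
    rw [← SetLike.mem_coe, coe_mul_of_left_le_normalizer_right _ _ hPU] at h1
    obtain ⟨y, hy, u, hu, rfl⟩ := h1
    have hy1 : y ∈ Qb := by simpa using Qb.mul_mem hx (Qb.inv_mem (hU hu))
    show y * u ∈ U
    rw [hPQ y hy hy1, one_mul]
    exact hu

/-- The complement of the quotient is abelian. -/
theorem Setting.ab_regSubgroup (s : Setting p P X) : Ab s.quot.regSubgroup := by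
  have hmin' := s.minimal
  have hQbne := s.regSubgroup_ne_bot
  obtain ⟨hG, hop, hloc, hX, hXP, hXne, hcore, hQ⟩ := s
  set f := QuotientGroup.mk' X with hf
  have hfs : Function.Surjective f := QuotientGroup.mk'_surjective X
  have hker : f.ker = X := QuotientGroup.ker_mk' X
  have hfX : ∀ x : G, f x = 1 ↔ x ∈ X := fun x => QuotientGroup.eq_one_iff x
  set Qb := hQ.regSubgroup with hQbdef
  haveI hQbn : Qb.Normal := hQ.regSubgroup_normal
  have hQbp : ¬ p ∣ Nat.card Qb := hQ.not_dvd_card
  set Pb := P.mapSurjective hfs with hPb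
  have hPbc : (Pb : Subgroup (G ⧸ X)) = (P : Subgroup G).map f := Sylow.coe_mapSurjective hfs P
  have hmin : ∀ U : Subgroup (G ⧸ X), U ≤ Qb →
      (Pb : Subgroup (G ⧸ X)) ≤ normalizer (U : Set (G ⧸ X)) → U = ⊥ ∨ U = Qb := by
    intro U hU hPU
    exact hmin' U hU (hPbc ▸ hPU)
  obtain ⟨q, hq, hqd⟩ := Nat.exists_prime_and_dvd
    (((one_lt_card_iff_ne_bot Qb).2 hQbne).ne')
  haveI : Fact q.Prime := ⟨hq⟩
  obtain ⟨U, hUQ, hUq, hPU, hUcard⟩ := exists_invariant_sylow Qb hQbp Pb q
  have hUeq : U = Qb := by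
    refine (hmin U hUQ hPU).resolve_left fun h0 => ?_
    rw [h0, card_bot] at hUcard
    rcases Nat.pow_eq_one.1 hUcard.symm with h1 | h1
    · exact hq.ne_one h1
    · exact (hq.factorization_pos_of_dvd Nat.card_pos.ne' hqd).ne' h1
  haveI : Group.IsNilpotent Qb := (hUeq ▸ hUq : IsPGroup q Qb).isNilpotent
  have hlt : ⁅Qb, Qb⁆ < Qb := by
    haveI : Nontrivial Qb := (nontrivial_iff_ne_bot _).2 hQbne
    conv_rhs => rw [← Qb.range_subtype, MonoidHom.range_eq_map]
    rw [show ⁅Qb, Qb⁆ = (commutator Qb).map Qb.subtype from (map_subtype_commutator Qb).symm,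
      map_subtype_lt_map_subtype]
    exact Group.IsSolvable.commutator_lt_top_of_nontrivial Qb
  haveI : (⁅Qb, Qb⁆).Normal := inferInstance
  have h0 := (hmin _ hlt.le (by rw [normalizer_eq_top]; exact le_top)).resolve_right hlt.ne
  intro x hx y hy
  have h1 := commutator_mem_commutator hx hy
  rw [h0, mem_bot, commutatorElement_def, mul_inv_eq_one, mul_inv_eq_iff_eq_mul] at h1
  exact h1

theorem Setting.centralizer_le (s : Setting p P X) : centralizer (X : Set G) ≤ X :=
  s.core _ inferInstance (isPGroup_of_forall_reg fun g hg hgr =>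
    s.eq_one_of_centralizes g hgr (mem_centralizer_iff.1 hg))

/-- An element of `P` commuting modulo `X` with those of order prime to `p` lies in `X`. -/
theorem Setting.mem_of_commute (s : Setting p P X) {a : G} (ha : a ∈ (P : Subgroup G))
    (hcom : ∀ g : G, Reg p g → ⁅a, g⁆ ∈ X) : a ∈ X := by
  have hmaxP : ∀ H : Subgroup G, (P : Subgroup G) ≤ H → H = P ∨ H = ⊤ := fun H hH => s.maximal hH
  have hQbne := s.regSubgroup_ne_bot
  obtain ⟨hG, hop, hloc, hX, hXP, hXne, hcore, hQ⟩ := s
  set f := QuotientGroup.mk' X with hf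
  have hfs : Function.Surjective f := QuotientGroup.mk'_surjective X
  have hker : f.ker = X := QuotientGroup.ker_mk' X
  have hfX : ∀ x : G, f x = 1 ↔ x ∈ X := fun x => QuotientGroup.eq_one_iff x
  set Qb := hQ.regSubgroup with hQbdef
  haveI hQbn : Qb.Normal := hQ.regSubgroup_normal
  have hQbp : ¬ p ∣ Nat.card Qb := hQ.not_dvd_card
  have hcomm : ∀ g : G, Reg p g → f (a * g) = f (g * a) := by
    intro g hg
    have h1 := (hfX _).2 (hcom g hg)
    rw [map_commutatorElement, commutatorElement_eq_one_iff_commute] at h1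
    rw [map_mul, map_mul]
    exact h1
  by_contra haX
  -- so it lies in a normal `p`-subgroup
  set W := (P : Subgroup G) ⊓ (centralizer (Qb : Set (G ⧸ X))).comap f with hWdef
  have hXW : X ≤ W := fun x hx => ⟨hXP hx, by
    show f x ∈ centralizer (Qb : Set (G ⧸ X))
    rw [(hfX x).2 hx]
    exact one_mem _⟩
  have haW : a ∈ W := by
    refine ⟨ha, mem_centralizer_iff.2 fun y hy => ?_⟩
    obtain ⟨y', rfl⟩ := hfs y
    obtain ⟨g, hg, hgy⟩ := exists_reg_lift f hy
    rw [← hgy, ← map_mul, ← map_mul, hcomm g hg]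
  have hPW : (P : Subgroup G) ≤ normalizer (W : Set G) := by
    intro x hx
    refine mem_normalizer_iff_map_conj_eq.2 (eq_of_le_of_card_ge ?_ ?_)
    · rintro _ ⟨w, hw, rfl⟩
      show x * w * x⁻¹ ∈ W
      refine ⟨(P : Subgroup G).mul_mem ((P : Subgroup G).mul_mem hx hw.1)
        ((P : Subgroup G).inv_mem hx), ?_⟩
      show f (x * w * x⁻¹) ∈ centralizer (Qb : Set (G ⧸ X))
      rw [map_mul, map_mul, map_inv]
      exact Normal.conj_mem inferInstance _ hw.2 _
    · exact (card_map_of_injective (MulAut.conj x).injective).ge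
  rcases hmaxP _ hPW with he | he
  · -- a regular element normalises `W`
    refine hQbne ((eq_bot_iff_forall _).2 fun y hy => ?_)
    obtain ⟨y', rfl⟩ := hfs y
    obtain ⟨g, hg, hgy⟩ := exists_reg_lift f hy
    have hgn : g ∈ normalizer (W : Set G) := by
      refine mem_normalizer_iff_map_conj_eq.2 (eq_of_le_of_card_ge ?_ ?_)
      · rintro _ ⟨w, hw, rfl⟩
        have h1 : w⁻¹ * (g * w * g⁻¹) ∈ X := by
          rw [← hfX, map_mul, map_inv, inv_mul_eq_one, map_mul, map_mul, map_inv,
            mem_centralizer_iff.1 hw.2 (f g) (hg.map f), mul_inv_cancel_right]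
        have h2 := W.mul_mem hw (hXW h1)
        rwa [mul_inv_cancel_left] at h2
      · exact (card_map_of_injective (MulAut.conj g).injective).ge
    rw [← hgy, hg.eq_one_of_isPGroup P.2 (he ▸ hgn), map_one]
  · exact haX (hcore W (normalizer_eq_top_iff.1 he) (P.2.to_le inf_le_left) haW)

/-- **Stability**: a quadratic element of `P` lies in `X`. -/
theorem Setting.mem_of_quadratic (s : Setting p P X) (hp2 : p ≠ 2) {B : Subgroup G} [B.Normal]
    (hB : IsPGroup p B) (hfaith : ∀ t : G, Reg p t → t ∈ centralizer (B : Set G) → t = 1) {a : G}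
    (ha : a ∈ (P : Subgroup G)) (hquad : ∀ v ∈ B, Commute a (a * v * a⁻¹ * v⁻¹)) : a ∈ X := by
  refine s.mem_of_commute ha fun g hg => ?_
  set f := QuotientGroup.mk' X with hf
  haveI : s.quot.regSubgroup.Normal := s.quot.regSubgroup_normal
  have hfy : f ⁅a, g⁆ ∈ s.quot.regSubgroup := by
    rw [commutatorElement_def, map_mul, map_mul, map_mul, map_inv, map_inv]
    exact mul_mem (Normal.conj_mem inferInstance _ (hg.map f) _) (inv_mem (hg.map f))
  obtain ⟨c, t, -, htz, hct, ⟨k, hk⟩, htr⟩ := exists_decomp (p := p) ⁅a, g⁆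
  have ht1 : t = 1 := by
    refine hfaith t htr (mem_centralizer_of_factors hB htr fun M hMn hMB hM0 => ?_)
    obtain ⟨M', ⟨hM'n, hlt⟩, hmax⟩ := Set.exists_max_image
      {L : Subgroup G | L.Normal ∧ L < M} (fun L => Nat.card L) (Set.toFinite _)
      ⟨⊥, inferInstance, bot_lt_iff_ne_bot.2 hM0⟩
    haveI := hMn
    haveI := hM'n
    refine ⟨M', hM'n, hlt, fun m hm => ?_⟩
    set q := QuotientGroup.mk' M' with hq
    have hqs : Function.Surjective q := QuotientGroup.mk'_surjective M'
    have hMp : IsPGroup p M := hB.to_le hMB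
    have hmax' : ∀ L : Subgroup G, L.Normal → M' < L → L ≤ M → L = M := fun L hL h1 h2 => by
      by_contra hne
      exact absurd (hmax L ⟨hL, lt_of_le_of_ne h2 hne⟩) (not_le.2
        (Set.ncard_lt_ncard (SetLike.coe_ssubset_coe.2 h1) (Set.toFinite _)))
    set V := M.map q with hV
    haveI : V.Normal := Normal.map inferInstance q hqs
    have hVab : Ab V := fun u hu v hv => by
      obtain ⟨u', hu', rfl⟩ := hu
      exact (mem_centralizer_iff.1
        (le_comap_centralizer_map (X := M) hMp hMp hlt hmax' hu') v hv).symm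
    have hXc := le_comap_centralizer_map (X := X) s.isPGroup hMp hlt hmax'
    have h1 : ⁅q a, q g⁆ ∈ centralizer (V : Set (G ⧸ M')) := by
      refine commutator_mem_centralizer_of_quadratic hp2 V hVab (hMp.map q) ?_ (hg.map q) ?_
      · rintro _ ⟨v, hv, rfl⟩
        have h2 := (hquad v (hMB hv)).map q
        rwa [map_mul, map_mul, map_mul, map_inv, map_inv] at h2
      · intro b
        obtain ⟨b', rfl⟩ := hqs b
        rw [← map_inv, ← map_mul, ← map_mul, ← map_commutatorElement]
        refine hXc ((QuotientGroup.eq_one_iff _).1 ?_)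
        show f ⁅g, b' * g * b'⁻¹⁆ = 1
        rw [map_commutatorElement, commutatorElement_eq_one_iff_commute]
        exact s.ab_regSubgroup _ (hg.map f) _ ((reg_conj_iff.2 hg).map f)
    rw [← map_commutatorElement] at h1
    have h2 : zpowers ⁅a, g⁆ ≤ (centralizer (V : Set (G ⧸ M'))).comap q := zpowers_le.2 h1
    refine (QuotientGroup.eq_one_iff (N := M') _).1 ?_
    show q ⁅t, m⁆ = 1
    rw [map_commutatorElement, commutatorElement_eq_one_iff_commute]
    exact (mem_centralizer_iff.1 (h2 htz) (q m) ⟨m, hm, rfl⟩).symm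
  rw [ht1, mul_one] at hct
  refine (QuotientGroup.eq_one_iff _).1 (Reg.eq_one_of_pow (k := k) hfy ?_)
  show f ⁅a, g⁆ ^ p ^ k = 1
  rw [← map_pow, hct, hk, map_one]

end FA.Thompson
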