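import Fermat.Agent.ThompsonTransfer.Thompson
import Mathlib.GroupTheory.FixedPointFree
import Mathlib.Algebra.BigOperators.Group.Finset.Basic

/-!
# Fixed-point-free automorphisms of prime order

A finite group with a fixed-point-free automorphism of prime order is nilpotent (Thompson).
-/

set_option autoImplicit false
set_option linter.style.haveILetI false

universe u

namespace FA.Thompson

open Subgroup
open scoped commutatorElement

variable {G : Type u} [Group G]

/-- The automorphism fixes only the identity. -/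
def Fpf (φ : MulAut G) : Prop := ∀ g : G, φ g = g → g = 1

/-- The subgroup is mapped to itself. -/
def Inv (φ : MulAut G) (H : Subgroup G) : Prop := H.map φ.toMonoidHom = H

/-- The restriction to an invariant subgroup. -/
noncomputable def restrictAut (φ : MulAut G) (H : Subgroup G) (h : Inv φ H) : MulAut H :=
  (φ.subgroupMap H).trans (MulEquiv.subgroupCongr h)

theorem restrictAut_apply (φ : MulAut G) (H : Subgroup G) (h : Inv φ H) (x : H) :
    (restrictAut φ H h x : G) = φ x := rfl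

theorem restrictAut_pow_apply (φ : MulAut G) (H : Subgroup G) (h : Inv φ H) (n : ℕ) (x : H) :
    ((restrictAut φ H h ^ n) x : G) = (φ ^ n) (x : G) := by
  induction n generalizing x with
  | zero => rfl
  | succ n ih => rw [pow_succ, pow_succ, MulAut.mul_apply, MulAut.mul_apply, ih, restrictAut_apply]

theorem restrictAut_pow (φ : MulAut G) (H : Subgroup G) (h : Inv φ H) {r : ℕ} (hr : φ ^ r = 1) :
    restrictAut φ H h ^ r = 1 := by
  ext x
  rw [restrictAut_pow_apply, hr]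
  rfl

theorem restrictAut_fpf (φ : MulAut G) (H : Subgroup G) (h : Inv φ H) (hf : Fpf φ) :
    Fpf (restrictAut φ H h) := fun _ hx => Subtype.ext (hf _ (congrArg Subtype.val hx))

theorem fpf_pow {φ : MulAut G} {r : ℕ} (hr : r.Prime) (hφ : φ ^ r = 1) (hf : Fpf φ) {i : ℕ}
    (hi : ¬ r ∣ i) : Fpf (φ ^ i) := by
  intro g hg
  have hco : i.Coprime (orderOf φ) :=
    Nat.Coprime.coprime_dvd_right (orderOf_dvd_of_pow_eq_one hφ)
      (hr.coprime_iff_not_dvd.2 hi).symm
  obtain ⟨m, hm⟩ := exists_pow_eq_self_of_coprime hco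
  refine hf g ?_
  have h1 : ∀ k : ℕ, ((φ ^ i) ^ k) g = g := by
    intro k
    induction k with
    | zero => rfl
    | succ k ih => rw [pow_succ, MulAut.mul_apply, hg, ih]
  have h2 := h1 m
  rwa [hm] at h2

variable [Finite G]

/-- Every element has the form `h⁻¹ φ(h)`. -/
theorem exists_inv_mul_map {φ : MulAut G} (hf : Fpf φ) (g : G) : ∃ h : G, h⁻¹ * φ h = g := by
  refine Finite.surjective_of_injective (f := fun h : G => h⁻¹ * φ h) (fun x y he => ?_) g
  refine mul_inv_eq_one.1 (hf _ ?_)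
  have h1 : φ x = x * (y⁻¹ * φ y) := by
    rw [← show x⁻¹ * φ x = y⁻¹ * φ y from he, mul_inv_cancel_left]
  rw [map_mul, map_inv, h1]
  group

theorem exists_invariant_sylow' {φ : MulAut G} (hf : Fpf φ) (p : ℕ) [Fact p.Prime] :
    ∃ P : Sylow p G, Inv φ (P : Subgroup G) := by
  obtain ⟨P⟩ : Nonempty (Sylow p G) := inferInstance
  obtain ⟨g, hg⟩ := MulAction.exists_smul_eq G P (P.mapSurjective (f := φ.toMonoidHom) φ.surjective)
  obtain ⟨h, hh⟩ := exists_inv_mul_map hf g⁻¹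
  have hφh : φ h = h * g⁻¹ := by rw [← hh, mul_inv_cancel_left]
  refine ⟨h • P, ?_⟩
  have hgP : (P : Subgroup G).map φ.toMonoidHom =
      (P : Subgroup G).map (MulAut.conj g).toMonoidHom := by
    rw [← Sylow.coe_mapSurjective (f := φ.toMonoidHom) φ.surjective, ← hg]
    rfl
  have hc : φ.toMonoidHom.comp (MulAut.conj h).toMonoidHom =
      (MulAut.conj (φ h)).toMonoidHom.comp φ.toMonoidHom := MonoidHom.ext fun x => by
    show φ (h * x * h⁻¹) = φ h * φ x * (φ h)⁻¹
    rw [map_mul, map_mul, map_inv]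
  show ((P : Subgroup G).map (MulAut.conj h).toMonoidHom).map φ.toMonoidHom =
    (P : Subgroup G).map (MulAut.conj h).toMonoidHom
  rw [map_map, hc, ← map_map, hgP, map_map]
  refine congrArg (fun m => Subgroup.map m (P : Subgroup G)) (MonoidHom.ext fun x => ?_)
  show φ h * (g * x * g⁻¹) * (φ h)⁻¹ = h * x * h⁻¹
  rw [hφh]
  group

theorem inv_of_le {φ : MulAut G} {H : Subgroup G} (h : ∀ x ∈ H, φ x ∈ H) : Inv φ H := by
  refine eq_of_le_of_card_ge ?_ (card_map_of_injective φ.injective).ge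
  rintro _ ⟨x, hx, rfl⟩
  exact h x hx

omit [Finite G] in
theorem Inv.mem {φ : MulAut G} {H : Subgroup G} (h : Inv φ H) {x : G} (hx : x ∈ H) : φ x ∈ H :=
  h ▸ ⟨x, hx, rfl⟩

omit [Finite G] in
theorem Inv.normalizer {φ : MulAut G} {H : Subgroup G} (h : Inv φ H) :
    Inv φ (normalizer (H : Set G)) := by
  show (Subgroup.normalizer (H : Set G)).map φ.toMonoidHom = Subgroup.normalizer (H : Set G)
  rw [map_equiv_normalizer_eq]
  exact congrArg (fun K : Subgroup G => Subgroup.normalizer (K : Set G)) h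

theorem fpf_quotient {φ : MulAut G} (hf : Fpf φ) (Y : Subgroup G) [Y.Normal] (hY : Inv φ Y) :
    Fpf (QuotientGroup.congr Y Y φ hY : MulAut (G ⧸ Y)) := by
  intro q hq
  obtain ⟨g, rfl⟩ := QuotientGroup.mk_surjective q
  have h1 : g⁻¹ * φ g ∈ Y := QuotientGroup.eq.1 hq.symm
  obtain ⟨⟨m, hm⟩, hmg⟩ := exists_inv_mul_map (restrictAut_fpf φ Y hY hf) ⟨_, h1⟩
  have h2 : m⁻¹ * φ m = g⁻¹ * φ g := congrArg Subtype.val hmg
  have h3 : g * m⁻¹ = 1 := hf _ (by
    rw [map_mul, map_inv, show φ g = g * (m⁻¹ * φ m) by rw [h2, mul_inv_cancel_left]]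
    group)
  rw [mul_inv_eq_one.1 h3]
  exact (QuotientGroup.eq_one_iff m).2 hm

omit [Finite G] in
theorem pow_quotient {φ : MulAut G} {r : ℕ} (hr : φ ^ r = 1) (Y : Subgroup G) [Y.Normal]
    (hY : Inv φ Y) : (QuotientGroup.congr Y Y φ hY : MulAut (G ⧸ Y)) ^ r = 1 := by
  have h : ∀ (n : ℕ) (g : G), ((QuotientGroup.congr Y Y φ hY : MulAut (G ⧸ Y)) ^ n) (g : G ⧸ Y) =
      ((φ ^ n) g : G ⧸ Y) := by
    intro n
    induction n with
    | zero => intro g; rfl
    | succ n ih => intro g; rw [pow_succ, pow_succ, MulAut.mul_apply, MulAut.mul_apply,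
        QuotientGroup.congr_mk, ih]
  ext q
  obtain ⟨g, rfl⟩ := QuotientGroup.mk_surjective q
  rw [h, hr]
  rfl

/-- Nilpotent groups have normal complements. -/
theorem pcomp_of_isNilpotent (p : ℕ) [hp : Fact p.Prime] [Group.IsNilpotent G] : PComp p G := by
  refine pcomp_of_localControl fun X hX g _ hgr => ?_
  obtain ⟨P, hP⟩ := hX.exists_le_sylow
  have hn : ∀ (q : ℕ) [Fact q.Prime] (S : Sylow q G), (S : Subgroup G).Normal := fun q hq S =>
    ((Group.isNilpotent_of_finite_tfae (G := G)).out 0 3 rfl rfl).mp ‹_› q hq S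
  set C := centralizer ((P : Subgroup G) : Set G) with hC
  refine centralizer_le hP ?_
  haveI := hn p P
  haveI hCn : C.Normal := inferInstanceAs (centralizer ((P : Subgroup G) : Set G)).Normal
  have hco : C.index.Coprime (orderOf g) := Nat.coprime_of_dvd fun q hq hqC hqg => by
    haveI : Fact q.Prime := ⟨hq⟩
    have hqp : p ≠ q := fun h => hgr (h ▸ hqg)
    obtain ⟨S⟩ : Nonempty (Sylow q G) := inferInstance
    have hSC : (S : Subgroup G) ≤ C := fun s hs => mem_centralizer_iff.2 fun x hx =>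
      commute_of_normal_of_disjoint _ _ (hn p P) (hn q S)
        (IsPGroup.disjoint_of_ne p q hqp _ _ P.2 S.2) x s hx hs
    exact S.not_dvd_index (hqC.trans (index_dvd_of_le hSC))
  obtain ⟨m, hm⟩ := exists_pow_eq_self_of_coprime hco
  rw [← hm]
  exact pow_mem (C.pow_index_mem g) m

/-- An invariant proper nontrivial normal subgroup. -/
theorem exists_invariant_normal {r : ℕ}
    (IH : ∀ H : Subgroup G, H ≠ ⊤ → ∀ ψ : MulAut H, Fpf ψ → ψ ^ r = 1 → Group.IsNilpotent H)
    {φ : MulAut G} (hf : Fpf φ) (hφ : φ ^ r = 1) (hG : ¬ Group.IsNilpotent G) :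
    ∃ N : Subgroup G, N.Normal ∧ Inv φ N ∧ N ≠ ⊥ ∧ N ≠ ⊤ := by
  have hnp : ∀ q : ℕ, q.Prime → ∃ l : ℕ, l.Prime ∧ l ≠ q ∧ l ∣ Nat.card G := by
    intro q hq
    by_contra hc
    push Not at hc
    haveI : Fact q.Prime := ⟨hq⟩
    refine hG (IsPGroup.isNilpotent (p := q) ?_)
    refine IsPGroup.of_card (n := (Nat.card G).primeFactorsList.length)
      (Nat.eq_prime_pow_of_unique_prime_dvd Nat.card_pos.ne' fun {d} hd hdn => ?_)
    by_contra hdq
    exact hc d hd hdq hdn
  obtain ⟨p, hp, hp2, hpd⟩ := hnp 2 Nat.prime_two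
  haveI : Fact p.Prime := ⟨hp⟩
  obtain ⟨P, hP⟩ := exists_invariant_sylow' hf p
  have hP0 : (P : Subgroup G) ≠ ⊥ := fun h0 => by
    have h1 := P.dvd_card_of_dvd_card hpd
    rw [h0, card_bot, Nat.dvd_one] at h1
    exact hp.ne_one h1
  have hPtop : (P : Subgroup G) ≠ ⊤ := fun h0 =>
    hG (IsPGroup.isNilpotent (p := p) ((h0 ▸ P.2 : IsPGroup p (⊤ : Subgroup G)).of_equiv topEquiv))
  by_cases hcJ : normalizer (J (P : Subgroup G) : Set G) = ⊤
  · refine ⟨J (P : Subgroup G), normalizer_eq_top_iff.1 hcJ, ?_, J_ne_bot hP0,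
      fun h => hPtop (top_le_iff.1 (h ▸ J_le _))⟩
    show (J (P : Subgroup G)).map φ.toMonoidHom = J (P : Subgroup G)
    rw [← J_map φ.injective.injOn, hP]
  by_cases hcZ : normalizer (Z (P : Subgroup G) : Set G) = ⊤
  · refine ⟨Z (P : Subgroup G), normalizer_eq_top_iff.1 hcZ, ?_, Z_ne_bot P.2 hP0,
      fun h => hPtop (top_le_iff.1 (h ▸ Z_le _))⟩
    show (Z (P : Subgroup G)).map φ.toMonoidHom = Z (P : Subgroup G)
    rw [← Z_map φ.injective.injOn, hP]
  have hloc : ∀ Y : Subgroup G, Inv φ Y → normalizer (Y : Set G) ≠ ⊤ →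
      PCompOn p (normalizer (Y : Set G)) := by
    intro Y hY hne
    haveI := IH _ hne (restrictAut φ _ hY.normalizer) (restrictAut_fpf φ _ _ hf)
      (restrictAut_pow φ _ _ hφ)
    exact pcomp_subgroup.1 (pcomp_of_isNilpotent p)
  have hJi : Inv φ (J (P : Subgroup G)) := by rw [Inv, ← J_map φ.injective.injOn, hP]
  have hZi : Inv φ (Z (P : Subgroup G)) := by rw [Inv, ← Z_map φ.injective.injOn, hP]
  have hK : PComp p G := pcomp_of_hyp hp2 P ⟨hloc _ hJi hcJ,
    (hloc _ hZi hcZ).mono (centralizer_le_normalizer _)⟩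
  refine ⟨hK.regSubgroup, hK.regSubgroup_normal, inv_of_le fun x hx => (reg_map_iff
    (f := φ.toMonoidHom) φ.injective).2 hx, fun h0 => ?_, fun h0 => ?_⟩
  · obtain ⟨l, hl, hlp, hld⟩ := hnp p hp
    haveI : Fact l.Prime := ⟨hl⟩
    obtain ⟨g, hg⟩ := exists_prime_orderOf_dvd_card' l hld
    have h1 : g ∈ hK.regSubgroup := by
      rw [PComp.mem_regSubgroup, Reg, hg]
      exact fun hd => hlp ((Nat.prime_dvd_prime_iff_eq hp hl).1 hd).symm
    rw [h0, mem_bot] at h1
    exact hl.ne_one (by rw [← hg, h1, orderOf_one])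
  · exact hK.not_dvd_card (by rw [h0, card_top]; exact hpd)

/-- **The averaging identity**: an invariant group of order prime to `p` acting on a normal
elementary abelian `p`-group centralises it. -/
theorem commute_of_fpf {p : ℕ} [hp : Fact p.Prime] {r : ℕ} (hr : r.Prime) {φ : MulAut G}
    (hφ : φ ^ r = 1) (hf : Fpf φ) {Y Q : Subgroup G} [Y.Normal] (hY : Inv φ Y) (hYab : Ab Y)
    (hYp : ∀ y ∈ Y, y ^ p = 1) (hQ : Inv φ Q) (hQp : ¬ p ∣ Nat.card Q) {v y : G} (hv : v ∈ Y)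
    (hy : y ∈ Q) : y * v = v * y := by
  classical
  haveI := Fintype.ofFinite Q
  letI : CommGroup Y := { (inferInstance : Group Y) with
    mul_comm := fun a b => Subtype.ext (hYab a a.2 b b.2) }
  set ψ : MulAut Y := restrictAut φ Y hY with hψ
  let c : G →* MulAut Y := MulAut.conjNormal
  have hS : ∀ w : Y, ∏ i ∈ Finset.range r, (ψ ^ i) w = 1 := by
    intro w
    refine Subtype.ext (hf _ ?_)
    rw [← restrictAut_apply φ Y hY]
    refine congrArg Subtype.val ?_
    rw [← hψ, map_prod]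
    have h1 : ∀ i, ψ ((ψ ^ i) w) = (ψ ^ (i + 1)) w := fun i => by
      rw [pow_succ', MulAut.mul_apply]
    simp only [h1]
    have h2 := Finset.prod_range_succ (fun i => (ψ ^ i) w) r
    rw [Finset.prod_range_succ' (fun i => (ψ ^ i) w) r,
      show (ψ ^ r) w = w by rw [hψ, restrictAut_pow φ Y hY hφ]; rfl,
      show (ψ ^ 0) w = w from rfl] at h2
    exact mul_right_cancel h2
  let t : Q → ℕ → Y := fun h i => c (h : G)⁻¹ ((ψ ^ i) (c (h : G) ⟨v, hv⟩))
  have ht : ∀ h, ∏ i ∈ Finset.range r, t h i = 1 := fun h => by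
    simp only [t]
    rw [← map_prod, hS, map_one]
  have hti : ∀ (h : Q) (i : ℕ),
      t h i = c ((h : G)⁻¹ * (φ ^ i) (h : G)) ((ψ ^ i) ⟨v, hv⟩) := by
    intro h i
    apply Subtype.ext
    simp only [t, c]
    rw [MulAut.conjNormal_apply, restrictAut_pow_apply, MulAut.conjNormal_apply,
      MulAut.conjNormal_apply, restrictAut_pow_apply, map_mul (φ ^ i), map_mul (φ ^ i),
      map_inv (φ ^ i)]
    group
  -- the sum over `h`
  have hfix : ∀ i, i ≠ 0 → i < r → c y (∏ h : Q, t h i) = ∏ h : Q, t h i := by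
    intro i hi hir
    have hd : ¬ r ∣ i := fun hd => hi (Nat.eq_zero_of_dvd_of_lt hd hir)
    have hfi : Fpf (restrictAut φ Q hQ ^ i) :=
      fpf_pow hr (restrictAut_pow φ Q hQ hφ) (restrictAut_fpf φ Q hQ hf) hd
    let e : Q ≃ Q := Equiv.ofBijective (fun h => h⁻¹ * (restrictAut φ Q hQ ^ i) h)
      ((Nat.bijective_iff_surjective_and_card _).2 ⟨exists_inv_mul_map hfi, rfl⟩)
    have h1 : ∏ h : Q, t h i = ∏ x : Q, c (x : G) ((ψ ^ i) ⟨v, hv⟩) := by
      refine Eq.trans (Finset.prod_congr rfl fun h _ => ?_)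
        (e.prod_comp fun x : Q => c (x : G) ((ψ ^ i) ⟨v, hv⟩))
      rw [hti]
      congr 2
      show _ = ((h⁻¹ * (restrictAut φ Q hQ ^ i) h : Q) : G)
      rw [coe_mul, coe_inv, restrictAut_pow_apply]
    rw [h1, map_prod]
    refine Eq.trans ?_ (Equiv.prod_comp (Equiv.mulLeft (⟨y, hy⟩ : Q)) fun x : Q =>
      c (x : G) ((ψ ^ i) ⟨v, hv⟩))
    refine Finset.prod_congr rfl fun x _ => ?_
    rw [Equiv.coe_mulLeft, coe_mul, map_mul, MulAut.mul_apply]
  have htot : ∏ i ∈ Finset.range r, ∏ h : Q, t h i = 1 := by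
    rw [Finset.prod_comm]
    exact Finset.prod_eq_one fun h _ => ht h
  obtain ⟨r', rfl⟩ := Nat.exists_eq_succ_of_ne_zero hr.ne_zero
  rw [Finset.prod_range_succ'] at htot
  have h0 : ∏ h : Q, t h 0 = (⟨v, hv⟩ : Y) ^ Nat.card Q := by
    rw [Finset.prod_congr rfl fun h _ => (show t h 0 = (⟨v, hv⟩ : Y) by
      rw [hti, pow_zero, pow_zero, MulAut.one_apply, MulAut.one_apply, inv_mul_cancel, map_one,
        MulAut.one_apply]), Finset.prod_const, Finset.card_univ, Nat.card_eq_fintype_card]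
  rw [h0, mul_eq_one_iff_inv_eq] at htot
  have h1 : c y ((⟨v, hv⟩ : Y) ^ Nat.card Q) = (⟨v, hv⟩ : Y) ^ Nat.card Q := by
    rw [← htot, map_inv, map_prod]
    refine congrArg (·⁻¹) (Finset.prod_congr rfl fun i hi => ?_)
    exact hfix _ (Nat.succ_ne_zero i) (Nat.succ_lt_succ (Finset.mem_range.1 hi))
  have h2 : (c y ⟨v, hv⟩ / ⟨v, hv⟩) ^ Nat.card Q = (1 : Y) := by
    rw [div_pow, ← map_pow, h1, div_self']
  have h3 : (c y ⟨v, hv⟩ / ⟨v, hv⟩) ^ p = (1 : Y) :=
    Subtype.ext (hYp _ (c y ⟨v, hv⟩ / ⟨v, hv⟩ : Y).2)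
  have h4 : c y ⟨v, hv⟩ / ⟨v, hv⟩ = (1 : Y) := by
    have h5 : orderOf (c y ⟨v, hv⟩ / ⟨v, hv⟩ : Y) ∣ Nat.gcd (Nat.card Q) p :=
      Nat.dvd_gcd (orderOf_dvd_of_pow_eq_one h2) (orderOf_dvd_of_pow_eq_one h3)
    rwa [Nat.Coprime.gcd_eq_one ((hp.out.coprime_iff_not_dvd.2 hQp).symm), Nat.dvd_one,
      orderOf_eq_one_iff] at h5
  have h5 := congrArg Subtype.val (div_eq_one.1 h4)
  rw [MulAut.conjNormal_apply, mul_inv_eq_iff_eq_mul] at h5
  exact h5

/-- **Thompson's fixed-point-free automorphism theorem.** -/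
theorem isNilpotent_of_fpf {r : ℕ} (hr : r.Prime) (φ : MulAut G) (hφ : φ ^ r = 1) (hf : Fpf φ) :
    Group.IsNilpotent G := by
  suffices ∀ (n : ℕ) (G : Type u) [Group G] [Finite G], Nat.card G = n → ∀ φ : MulAut G,
      φ ^ r = 1 → Fpf φ → Group.IsNilpotent G from this _ G rfl φ hφ hf
  clear hf hφ φ
  intro n
  induction n using Nat.strong_induction_on with
  | _ n ih =>
  intro G _ _ hn φ hφ hf
  by_contra hG
  obtain ⟨N₀, hN₀⟩ := exists_invariant_normal (r := r) (fun H hH ψ hψ hψr =>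
    ih _ (hn ▸ card_lt_of_ne_top hH) H rfl ψ hψr hψ) hf hφ hG
  obtain ⟨Y, ⟨hYn, hY, hY0, hYtop⟩, hmin⟩ := Set.exists_min_image
    {N : Subgroup G | N.Normal ∧ Inv φ N ∧ N ≠ ⊥ ∧ N ≠ ⊤} (fun N => Nat.card N) (Set.toFinite _)
    ⟨N₀, hN₀⟩
  haveI := hYn
  haveI hYnil : Group.IsNilpotent Y := ih _ (hn ▸ card_lt_of_ne_top hYtop) Y rfl
    (restrictAut φ Y hY) (restrictAut_pow φ Y hY hφ) (restrictAut_fpf φ Y hY hf)
  -- `Y` is elementary abelian
  obtain ⟨z, hzY, hzC, p, hp, hzp⟩ : ∃ z : G, z ∈ Y ∧ z ∈ centralizer (Y : Set G) ∧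
      ∃ p : ℕ, p.Prime ∧ orderOf z = p := by
    haveI : Nontrivial Y := (nontrivial_iff_ne_bot _).2 hY0
    haveI : Nontrivial (center Y) := (nontrivial_iff_ne_bot _).2 fun hc => by
      obtain ⟨m, hm⟩ := hYnil.nilpotent
      have h1 : ∀ k, Subgroup.upperCentralSeries Y k = ⊥ := by
        intro k
        induction k with
        | zero => exact Subgroup.upperCentralSeries_zero Y
        | succ k ih =>
          refine (eq_bot_iff_forall _).2 fun x hx => ?_
          rw [← mem_bot (x := x), ← hc, mem_center_iff]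
          intro y
          have h2 := (Subgroup.mem_upperCentralSeries_succ_iff).1 hx y
          rw [ih, mem_bot, commutatorElement_def, mul_inv_eq_one, mul_inv_eq_iff_eq_mul] at h2
          exact h2.symm
      exact top_ne_bot (hm.symm.trans (h1 m))
    obtain ⟨p, hp, hd⟩ := Nat.exists_prime_and_dvd (Finite.one_lt_card (α := center Y)).ne'
    haveI : Fact p.Prime := ⟨hp⟩
    obtain ⟨z, hz⟩ := exists_prime_orderOf_dvd_card' p hd
    exact ⟨((z : Y) : G), z.1.2, mem_centralizer_iff.2 fun x hx =>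
      congrArg Subtype.val (mem_center_iff.1 z.2 ⟨x, hx⟩), p, hp, by
        rw [orderOf_coe, orderOf_coe, hz]⟩
  haveI : Fact p.Prime := ⟨hp⟩
  let W : Subgroup G :=
    { carrier := {w | w ∈ Y ∧ w ∈ centralizer (Y : Set G) ∧ w ^ p = 1}
      one_mem' := ⟨one_mem _, one_mem _, one_pow _⟩
      mul_mem' := fun {a b} ha hb => ⟨mul_mem ha.1 hb.1, mul_mem ha.2.1 hb.2.1, by
        have h1 : Commute a b := (mem_centralizer_iff.1 hb.2.1 a ha.1)
        rw [h1.mul_pow, ha.2.2, hb.2.2, one_mul]⟩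
      inv_mem' := fun {a} ha => ⟨inv_mem ha.1, inv_mem ha.2.1, by
        rw [inv_pow, ha.2.2, inv_one]⟩ }
  have hzW : z ∈ W := ⟨hzY, hzC, hzp ▸ pow_orderOf_eq_one z⟩
  have hWY : Y = W := by
    have hWle : W ≤ Y := fun w hw => hw.1
    refine (eq_of_le_of_card_ge hWle (hmin W ⟨⟨fun w hw g => ?_⟩, inv_of_le fun w hw => ?_,
      fun h0 => ?_, fun h0 => hYtop (top_le_iff.1 (h0 ▸ hWle))⟩)).symm
    · exact ⟨hYn.conj_mem w hw.1 g, Normal.conj_mem inferInstance w hw.2.1 g, by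
        rw [conj_pow, hw.2.2, mul_one, mul_inv_cancel]⟩
    · refine ⟨hY.mem hw.1, mem_centralizer_iff.2 fun x hx => ?_, by rw [← map_pow, hw.2.2, map_one]⟩
      rw [← hY] at hx
      obtain ⟨x', hx', rfl⟩ := hx
      show φ x' * φ w = φ w * φ x'
      rw [← map_mul, ← map_mul, mem_centralizer_iff.1 hw.2.1 x' hx']
    · rw [h0, mem_bot] at hzW
      exact hp.ne_one (by rw [← hzp, hzW, orderOf_one])
  have hYab : Ab Y := fun a ha b hb => by
    rw [hWY] at hb
    exact mem_centralizer_iff.1 hb.2.1 a ha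
  have hYpow : ∀ a ∈ Y, a ^ p = 1 := fun a ha => by
    rw [hWY] at ha
    exact ha.2.2
  have hYp : IsPGroup p Y := fun a => ⟨1, Subtype.ext (by rw [pow_one]; exact hYpow a a.2)⟩
  haveI : Group.IsNilpotent (G ⧸ Y) := by
    refine ih _ (hn ▸ ?_) (G ⧸ Y) rfl (QuotientGroup.congr Y Y φ hY) (pow_quotient hφ Y hY)
      (fpf_quotient hf Y hY)
    rw [Y.card_eq_card_quotient_mul_card_subgroup]
    exact lt_mul_of_one_lt_right Nat.card_pos ((one_lt_card_iff_ne_bot Y).2 hY0)
  -- every Sylow subgroup is normal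
  refine hG (((Group.isNilpotent_of_finite_tfae (G := G)).out 0 3 rfl rfl).mpr fun q hq S => ?_)
  set f := QuotientGroup.mk' Y with hf'
  have hfs : Function.Surjective f := QuotientGroup.mk'_surjective Y
  obtain ⟨Q, hQ⟩ := exists_invariant_sylow' hf q
  suffices hQn : (Q : Subgroup G).Normal by
    haveI := Sylow.unique_of_normal Q hQn
    rwa [Subsingleton.elim S Q]
  have hQb : ((Q : Subgroup G).map f).Normal := by
    rw [← Sylow.coe_mapSurjective hfs]
    exact ((Group.isNilpotent_of_finite_tfae (G := G ⧸ Y)).out 0 3 rfl rfl).mp ‹_› q hq _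
  set L := ((Q : Subgroup G).map f).comap f with hL
  haveI : L.Normal := hQb.comap f
  have hQL : (Q : Subgroup G) ≤ L := le_comap_map f _
  have hLn : L ≤ normalizer ((Q : Subgroup G) : Set G) := by
    rw [hL, comap_map_eq, QuotientGroup.ker_mk', sup_le_iff]
    refine ⟨le_normalizer, ?_⟩
    rcases eq_or_ne q p with rfl | hqp
    · obtain ⟨S', hS'⟩ := hYp.exists_le_sylow
      obtain ⟨g, rfl⟩ := MulAction.exists_smul_eq G Q S'
      refine le_trans (fun v hv => ?_) le_normalizer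
      have h1 := hS' (hYn.conj_mem v hv g)
      rw [Sylow.coe_subgroup_smul, mem_pointwise_smul_iff_inv_smul_mem] at h1
      simpa [MulAut.smul_def, mul_assoc] using h1
    · have hQp : ¬ p ∣ Nat.card (Q : Subgroup G) := fun hd => by
        obtain ⟨k, hk⟩ := IsPGroup.iff_card.1 Q.2
        rw [hk] at hd
        exact hqp ((Nat.prime_dvd_prime_iff_eq hp hq.out).1 (hp.dvd_of_dvd_pow hd)).symm
      intro v hv
      refine centralizer_le_normalizer _ (mem_centralizer_iff.2 fun y hy => ?_)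
      exact commute_of_fpf hr hφ hf hY hYab hYpow hQ hQp hv hy
  have h1 : normalizer ((Q : Subgroup G) : Set G) ⊔ L = ⊤ := Sylow.normalizer_sup_eq_top' Q hQL
  rw [sup_eq_left.2 hLn] at h1
  exact normalizer_eq_top_iff.1 h1

end FA.Thompson
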