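import Fermat.Agent.ThompsonTransfer.Reduction
import Fermat.Agent.ThompsonTransfer.Constrained

/-!
# Thompson's normal `p`-complement theorem

For odd `p` the group has a normal `p`-complement if the normaliser of `J P` and the centraliser
of `Z P` have one.
-/

set_option autoImplicit false
set_option linter.style.haveILetI false

universe u

namespace FA.Thompson

open Subgroup
open scoped Pointwise commutatorElement

variable {p : ℕ} [hp : Fact p.Prime] {G : Type u} [Group G] [Finite G]

/-- **Thompson's normal `p`-complement theorem.** -/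
theorem pcomp_of_hyp (hp2 : p ≠ 2) (P : Sylow p G) (h : Hyp p (P : Subgroup G)) : PComp p G := by
  suffices ∀ (n : ℕ) (G : Type u) [Group G] [Finite G], Nat.card G = n → ∀ P : Sylow p G,
      Hyp p (P : Subgroup G) → PComp p G from this _ G rfl P h
  clear h P
  intro n
  induction n using Nat.strong_induction_on with
  | _ n ih =>
  intro G _ _ hn P h
  have IH : Below p G := fun H _ _ hlt Q hQ => ih _ (hn ▸ hlt) H rfl Q hQ
  by_contra hG
  obtain ⟨X, hXn, hX, hX0, hXP, hXne, hcore, hall⟩ := exists_core IH hG h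
  haveI := hXn
  set f := QuotientGroup.mk' X with hf
  have hfs : Function.Surjective f := QuotientGroup.mk'_surjective X
  have hker : f.ker = X := QuotientGroup.ker_mk' X
  have hfX : ∀ x : G, f x = 1 ↔ x ∈ X := fun x => QuotientGroup.eq_one_iff x
  set Pb := P.mapSurjective hfs with hPb
  have hPbc : (Pb : Subgroup (G ⧸ X)) = (P : Subgroup G).map f := Sylow.coe_mapSurjective hfs P
  have hPbne : (Pb : Subgroup (G ⧸ X)) ≠ ⊥ := by
    rw [hPbc, Ne, Subgroup.map_eq_bot_iff, hker]
    exact fun hle => hXne (le_antisymm hXP hle)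
  -- the quotient has a normal complement
  have hQ : PComp p (G ⧸ X) := by
    set Y := (J (Pb : Subgroup (G ⧸ X))).comap f with hY
    have hYn : normalizer (Y : Set G) = (normalizer (J (Pb : Subgroup (G ⧸ X)) : Set (G ⧸ X))).comap f :=
      (comap_normalizer_eq_of_surjective _ hfs).symm
    have h1 : PCompOn p (normalizer (Y : Set G)) := by
      refine hall Y ?_ ?_ ?_
      · rw [hYn, ← map_le_iff_le_comap, ← hPbc]
        exact le_normalizer.trans (normalizer_le_normalizer_J _)
      · exact (Pb.2.to_le (J_le _)).comap_of_ker_isPGroup f (by rw [hker]; exact hX)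
      · refine lt_of_le_of_ne (hker ▸ ker_le_comap f _) fun he => J_ne_bot hPbne ?_
        rw [← map_comap_eq_self_of_surjective hfs (J _), ← hY, ← he, Subgroup.map_eq_bot_iff, hker]
    have h2 : PCompOn p (normalizer (J (Pb : Subgroup (G ⧸ X)) : Set (G ⧸ X))) := by
      have h2 := h1.map f
      rwa [hYn, map_comap_eq_self_of_surjective hfs] at h2
    have h3 : PCompOn p (centralizer (Z (Pb : Subgroup (G ⧸ X)) : Set (G ⧸ X))) := by
      set Y' := (Z (Pb : Subgroup (G ⧸ X))).comap f with hY'
      have hYn' : normalizer (Y' : Set G) =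
          (normalizer (Z (Pb : Subgroup (G ⧸ X)) : Set (G ⧸ X))).comap f :=
        (comap_normalizer_eq_of_surjective _ hfs).symm
      have h1' : PCompOn p (normalizer (Y' : Set G)) := by
        refine hall Y' ?_ ?_ ?_
        · rw [hYn', ← map_le_iff_le_comap, ← hPbc]
          exact le_normalizer.trans (normalizer_le_normalizer_Z _)
        · exact (Pb.2.to_le (Z_le _)).comap_of_ker_isPGroup f (by rw [hker]; exact hX)
        · refine lt_of_le_of_ne (hker ▸ ker_le_comap f _) fun he => Z_ne_bot Pb.2 hPbne ?_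
          rw [← map_comap_eq_self_of_surjective hfs (Z _), ← hY', ← he, Subgroup.map_eq_bot_iff,
            hker]
      have h3 := h1'.map f
      rw [hYn', map_comap_eq_self_of_surjective hfs] at h3
      exact h3.mono (centralizer_le_normalizer _)
    refine IH (G ⧸ X) ?_ Pb ⟨h2, h3⟩
    rw [X.card_eq_card_quotient_mul_card_subgroup]
    exact lt_mul_of_one_lt_right Nat.card_pos ((one_lt_card_iff_ne_bot X).2 hX0)
  have s : Setting p P X := ⟨hG, fun M hMn hM => @eq_bot_of_below p hp G _ _ IH hG P h M hMn hM,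
    fun H hH hPH => pcompOn_of_below IH h hH hPH, hX, hXP, hXne, hcore, hQ⟩
  -- the centre of `P` and its normal closure
  have hCX : centralizer (X : Set G) ≤ X := s.centralizer_le
  have hZX : Z (P : Subgroup G) ≤ X := fun z hz =>
    hCX (centralizer_le (fun x hx => hXP hx) hz.2)
  have hZcX : Z (P : Subgroup G) ≤ X ⊓ centralizer (X : Set G) := fun z hz =>
    ⟨hZX hz, centralizer_le (fun x hx => hXP hx) hz.2⟩
  set V := normalClosure (Z (P : Subgroup G) : Set G) with hV
  have hVX : V ≤ X ⊓ centralizer (X : Set G) := normalClosure_le_normal hZcX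
  have hVab : Ab V := fun x hx y hy => (mem_centralizer_iff.1 (hVX hx).2 y (hVX hy).1).symm
  have hCV : centralizer (V : Set G) ≤ X := by
    refine hcore _ inferInstance (isPGroup_of_forall_reg fun g hg hgr => ?_)
    have hPZ : (P : Subgroup G) ≤ centralizer (Z (P : Subgroup G) : Set G) := fun x hx =>
      mem_centralizer_iff.2 fun z hz => (mem_centralizer_iff.1 hz.2 x hx).symm
    rcases s.maximal hPZ with he | he
    · refine hgr.eq_one_of_isPGroup P.2 ?_
      rw [← he]
      exact centralizer_le (subset_normalClosure) hg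
    · exact absurd (pcompOn_top.1 (he ▸ h.2)) hG
  -- an abelian subgroup of largest order outside `X`
  obtain ⟨A, hA, hAX⟩ : ∃ A ∈ abMax (P : Subgroup G), ¬ A ≤ X := by
    by_contra hc
    push Not at hc
    have hJeq : J X = J (P : Subgroup G) := by
      obtain ⟨A₀, hA₀⟩ := exists_mem_abMax (P : Subgroup G)
      refine le_antisymm (sSup_le fun A hA => le_sSup ⟨hA.1.trans hXP, hA.2.1, fun B hB hB' =>
        (hA₀.2.2 B hB hB').trans (hA.2.2 _ (hc A₀ hA₀) hA₀.2.1)⟩) (sSup_le fun A hA => ?_)
      exact le_sSup ⟨hc A hA, hA.2.1, fun B hB hB' => hA.2.2 B (hB.trans hXP) hB'⟩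
    refine hG (pcompOn_top.1 (h.1.mono ?_))
    rw [← hJeq]
    exact (normalizer_eq_top (H := X)).ge.trans (normalizer_le_normalizer_J X)
  -- the inequality
  have hVn : V.Normal := normalClosure_normal
  have hineq : Nat.card V * Nat.card (A ⊓ X : Subgroup G) ≤
      Nat.card A * Nat.card (V ⊓ centralizer (A : Set G) : Subgroup G) := by
    have hT : Ab ((A ⊓ X) ⊔ V) := ab_sup (fun x hx y hy => hA.2.1 x hx.1 y hy.1) hVab
      fun x hx y hy => mem_centralizer_iff.1 (hVX hy).2 x hx.2
    have hTA := hA.2.2 _ (sup_le (inf_le_left.trans hA.1) ((hVX.trans inf_le_left).trans hXP)) hT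
    have h1 : Nat.card V * V.relIndex (A ⊓ X) = Nat.card ((A ⊓ X) ⊔ V : Subgroup G) := by
      rw [← relIndex_sup_right (K := V) (H := A ⊓ X), ← relIndex_bot_left, ← relIndex_bot_left,
        relIndex_mul_relIndex ⊥ V _ bot_le le_sup_right]
    have h2 : Nat.card (V ⊓ (A ⊓ X) : Subgroup G) * V.relIndex (A ⊓ X) =
        Nat.card (A ⊓ X : Subgroup G) := by
      rw [← inf_relIndex_right V (A ⊓ X), ← relIndex_bot_left, ← relIndex_bot_left,
        relIndex_mul_relIndex ⊥ _ _ bot_le inf_le_right]
    have h3 : Nat.card (V ⊓ (A ⊓ X) : Subgroup G) ≤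
        Nat.card (V ⊓ centralizer (A : Set G) : Subgroup G) :=
      card_le_of_le fun x hx => ⟨hx.1,
        mem_centralizer_iff.2 fun a ha => hA.2.1 a ha x hx.2.1⟩
    calc Nat.card V * Nat.card (A ⊓ X : Subgroup G)
        = Nat.card (V ⊓ (A ⊓ X) : Subgroup G) * (Nat.card V * V.relIndex (A ⊓ X)) := by
          rw [← h2]; ring
      _ ≤ Nat.card (V ⊓ centralizer (A : Set G) : Subgroup G) * Nat.card A := by
          rw [h1]; exact Nat.mul_le_mul h3 hTA
      _ = _ := mul_comm _ _
  -- a quadratic element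
  letI : CommGroup V := { (inferInstance : Group V) with
    mul_comm := fun a b => Subtype.ext (hVab a a.2 b b.2) }
  set φ : G →* MulAut V := MulAut.conjNormal with hφ
  have hφ1 : ∀ g : G, φ g = 1 ↔ g ∈ centralizer (V : Set G) := fun g => conjNormal_eq_one_iff
  have hφker : φ.ker = X := le_antisymm (fun g hg => hCV ((hφ1 g).1 hg)) fun g hg => (hφ1 g).2
    (mem_centralizer_iff.2 fun v hv => (mem_centralizer_iff.1 (hVX hv).2 g hg).symm)
  set A' := A.map φ with hA'
  letI : CommGroup A' := { (inferInstance : Group A') with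
    mul_comm := fun a b => Subtype.ext (ab_map hA.2.1 φ a a.2 b b.2) }
  let ρ : A' →* AddMonoid.End (Additive V) := (endOfAut V).comp A'.subtype
  obtain ⟨e, he⟩ := IsPGroup.iff_card.1 (hX.to_le (hVX.trans inf_le_left))
  have hW : ∀ w : Additive V, p ^ e • w = 0 := fun w => by
    rw [← he, ← Nat.card_congr (Additive.toMul : Additive V ≃ V)]
    exact card_nsmul_eq_zero'
  have hA'p : IsPGroup p A' := (P.2.to_le hA.1).map φ
  have hA'ne : (⊤ : Subgroup A') ≠ ⊥ := by
    intro h0
    refine hAX fun a ha => ?_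
    have h1 : (⟨φ a, ⟨a, ha, rfl⟩⟩ : A') ∈ (⊥ : Subgroup A') := h0 ▸ mem_top _
    rw [← hφker, MonoidHom.mem_ker]
    exact congrArg Subtype.val (mem_bot.1 h1)
  have hbound : Nat.card (Additive V) ≤
      Nat.card (⊤ : Subgroup A') * Nat.card (fixedSub ρ ⊤) := by
    have h1 : Nat.card (A ⊓ X : Subgroup G) * Nat.card A' = Nat.card A := by
      rw [hA', ← relIndex_ker, hφker, inf_comm, ← inf_relIndex_right X A, ← relIndex_bot_left,
        ← relIndex_bot_left, relIndex_mul_relIndex ⊥ _ A bot_le inf_le_right]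
    have h2 : Nat.card (V ⊓ centralizer (A : Set G) : Subgroup G) ≤ Nat.card (fixedSub ρ ⊤) := by
      refine Nat.card_le_card_of_injective
        (fun v => ⟨Additive.ofMul ⟨v.1, v.2.1⟩, fun a _ => ?_⟩) fun v w hvw => ?_
      · obtain ⟨b, hb, hba⟩ := a.2
        refine congrArg Additive.ofMul ?_
        show (a : MulAut V) ⟨v.1, v.2.1⟩ = ⟨v.1, v.2.1⟩
        rw [← hba]
        apply Subtype.ext
        rw [MulAut.conjNormal_apply, mul_inv_eq_iff_eq_mul]
        exact mem_centralizer_iff.1 v.2.2 b hb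
      · exact Subtype.ext (congrArg
          (fun z : fixedSub ρ ⊤ => ((Additive.toMul (z : Additive V) : V) : G)) hvw)
    rw [card_top, Nat.card_congr (Additive.toMul : Additive V ≃ V)]
    refine Nat.le_of_mul_le_mul_left (?_ : Nat.card (A ⊓ X : Subgroup G) * _ ≤
      Nat.card (A ⊓ X : Subgroup G) * _) Nat.card_pos
    rw [← mul_assoc, h1, mul_comm]
    exact hineq.trans (Nat.mul_le_mul_left _ h2)
  obtain ⟨σ, -, hσ1, hσ2⟩ := exists_quadratic ρ hW hA'p ⊤ hA'ne hbound
  obtain ⟨a, ha, haσ⟩ := σ.2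
  have haX : a ∉ X := fun h1 => hσ1 (Subtype.ext (by
    rw [← haσ]; exact MonoidHom.mem_ker.1 (hφker ▸ h1)))
  -- it commutes with the elements of order prime to `p` modulo `X`
  refine haX (s.mem_of_commute (hA.1 ha) fun g hg => ?_)
  have hquad : ∀ v ∈ V, Commute a (a * v * a⁻¹ * v⁻¹) := by
    intro v hv
    have h1 : ρ σ (ρ σ (Additive.ofMul ⟨v, hv⟩) - Additive.ofMul ⟨v, hv⟩) -
        (ρ σ (Additive.ofMul ⟨v, hv⟩) - Additive.ofMul ⟨v, hv⟩) = 0 :=
      DFunLike.congr_fun hσ2 (Additive.ofMul (⟨v, hv⟩ : V))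
    rw [sub_eq_zero] at h1
    have h2 : ∀ u : V, ρ σ (Additive.ofMul u) = Additive.ofMul (φ a u) := fun u => by
      rw [haσ]; rfl
    rw [h2, ← ofMul_div, h2] at h1
    have h3 := congrArg (fun w => ((Additive.toMul w : V) : G)) h1
    have h4 : ((φ a ⟨v, hv⟩ / ⟨v, hv⟩ : V) : G) = a * v * a⁻¹ * v⁻¹ := by
      rw [div_eq_mul_inv, coe_mul, coe_inv, MulAut.conjNormal_apply]
    simp only [toMul_ofMul, MulAut.conjNormal_apply, h4, φ] at h3
    exact mul_inv_eq_iff_eq_mul.1 h3
  rw [← hφker, MonoidHom.mem_ker, hφ1]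
  refine commutator_mem_centralizer_of_quadratic hp2 V hVab
    (hX.to_le (hVX.trans inf_le_left)) hquad hg fun b => ?_
  rw [← hφ1, ← MonoidHom.mem_ker, hφker, ← hfX, map_commutatorElement,
    commutatorElement_eq_one_iff_commute]
  exact s.ab_regSubgroup _ (hg.map f) _ ((reg_conj_iff.2 hg).map f)

end FA.Thompson
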