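import Fermat.Agent.ThompsonTransfer.Replacement
import Fermat.Agent.ThompsonTransfer.Thompson

/-!
# The Glauberman–Thompson normal `p`-complement theorem

For odd `p` a group has a normal `p`-complement if the normaliser of `Z (J P)` has one.  In a least
counterexample `Z (J P)` is normal, by replacement and stability.
-/

set_option autoImplicit false
set_option linter.style.haveILetI false

universe u

namespace FA.Thompson

open Subgroup
open scoped commutatorElement

/-- The centre of the Thompson subgroup. -/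
def ZJ {G : Type*} [Group G] (S : Subgroup G) : Subgroup G := Z (J S)

section

variable {G : Type*} [Group G]

theorem ab_ZJ (S : Subgroup G) : Ab (ZJ S) := fun _ hx _ hy =>
  mem_centralizer_iff.1 hy.2 _ hx.1

theorem ZJ_le (S : Subgroup G) : ZJ S ≤ S := (Z_le _).trans (J_le _)

theorem normalizer_le_normalizer_ZJ (S : Subgroup G) :
    normalizer (S : Set G) ≤ normalizer (ZJ S : Set G) :=
  (normalizer_le_normalizer_J S).trans (normalizer_le_normalizer_Z _)

/-- `Z (J S)` lies in every abelian subgroup of largest order. -/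
theorem ZJ_le_of_mem_abMax [Finite G] {S A : Subgroup G} (hA : A ∈ abMax S) : ZJ S ≤ A := by
  have hab : Ab (A ⊔ ZJ S) := ab_sup hA.2.1 (ab_ZJ S) fun x hx y hy =>
    mem_centralizer_iff.1 hy.2 x (le_sSup hA hx)
  have h1 := hA.2.2 _ (sup_le hA.1 (ZJ_le S)) hab
  exact le_trans le_sup_right (eq_of_le_of_card_ge le_sup_left h1).ge

theorem ZJ_map {H : Type*} [Group H] {f : G →* H} {S : Subgroup G}
    (hf : Set.InjOn f (S : Set G)) : ZJ (S.map f) = (ZJ S).map f := by
  rw [ZJ, ZJ, J_map hf, Z_map (hf.mono (J_le S))]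

theorem map_subtype_ZJ {K S : Subgroup G} (hS : S ≤ K) :
    (ZJ (S.subgroupOf K)).map K.subtype = ZJ S := by
  rw [← ZJ_map K.subtype_injective.injOn, map_subgroupOf_eq_of_le hS]

end

variable {p : ℕ} [hp : Fact p.Prime] {G : Type u} [Group G] [Finite G]

/-- In a constrained counterexample `Z (J P)` is normal. -/
theorem Setting.normal_ZJ {P : Sylow p G} {X : Subgroup G} [X.Normal] (s : Setting p P X)
    (hp2 : p ≠ 2) : (ZJ (P : Subgroup G)).Normal := by
  set T := ZJ (P : Subgroup G) with hT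
  have hPT : (P : Subgroup G) ≤ normalizer (T : Set G) :=
    le_normalizer.trans (normalizer_le_normalizer_ZJ _)
  have key : ∀ B : Subgroup G, B.Normal → IsPGroup p B → (B ⊓ T).Normal := by
    intro B₀ hB₀n hB₀
    by_contra hcon
    obtain ⟨B, ⟨hBn, hBp, hbad⟩, hmin⟩ := Set.exists_min_image
      {B : Subgroup G | B.Normal ∧ IsPGroup p B ∧ ¬ (B ⊓ T).Normal} (fun B => Nat.card B)
      (Set.toFinite _) ⟨B₀, hB₀n, hB₀, hcon⟩
    haveI := hBn
    have hsmall : ∀ D : Subgroup G, D.Normal → D < B → (D ⊓ T).Normal := fun D hD hlt => by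
      by_contra h
      exact absurd (hmin D ⟨hD, hBp.to_le hlt.le, h⟩) (not_le.2
        (Set.ncard_lt_ncard (SetLike.coe_ssubset_coe.2 hlt) (Set.toFinite _)))
    have hBX : B ≤ X := s.core B hBn hBp
    have hBP : B ≤ (P : Subgroup G) := hBX.trans s.le_sylow
    -- elements of order prime to `p` centralising `B` are trivial
    have hfaith : ∀ t : G, Reg p t → t ∈ centralizer (B : Set G) → t = 1 := by
      intro t ht htc
      have hPn : (P : Subgroup G) ≤ normalizer ((B ⊓ T : Subgroup G) : Set G) := fun x hx => by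
        rw [mem_normalizer_iff_map_conj_eq, map_inf _ _ _ (MulAut.conj x).injective,
          mem_normalizer_iff_map_conj_eq.1 (show x ∈ normalizer (B : Set G) by
            rw [normalizer_eq_top]; exact mem_top x),
          mem_normalizer_iff_map_conj_eq.1 (hPT hx)]
      rcases s.maximal hPn with he | he
      · refine ht.eq_one_of_isPGroup P.2 ?_
        rw [← he]
        exact centralizer_le_normalizer _ (Subgroup.centralizer_le (fun z hz => hz.1) htc)
      · exact absurd (normalizer_eq_top_iff.1 he) hbad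
    -- `B` is generated by the conjugates of `B ∩ T`
    set B₁ := normalClosure ((B ⊓ T : Subgroup G) : Set G) with hB₁
    have hB₁eq : B₁ = B := by
      refine eq_of_le_of_not_lt (normalClosure_le_normal fun z hz => hz.1) fun hlt => hbad ?_
      have h1 := hsmall B₁ normalClosure_normal hlt
      rwa [show B₁ ⊓ T = B ⊓ T from le_antisymm (inf_le_inf_right T hlt.le)
        (le_inf le_normalClosure inf_le_right)] at h1
    have hBne : B ≠ ⊥ := fun h0 => hbad (by rw [h0, bot_inf_eq]; infer_instance)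
    have hder : ⁅B, B⁆ < B := by
      haveI : Nontrivial B := (nontrivial_iff_ne_bot _).2 hBne
      haveI : Group.IsNilpotent B := hBp.isNilpotent
      conv_rhs => rw [← B.range_subtype, MonoidHom.range_eq_map]
      rw [show ⁅B, B⁆ = (commutator B).map B.subtype from (map_subtype_commutator B).symm,
        map_subtype_lt_map_subtype]
      exact Group.IsSolvable.commutator_lt_top_of_nontrivial B
    haveI hDn : (⁅B, B⁆ ⊓ T).Normal := hsmall _ inferInstance hder
    set q := QuotientGroup.mk' (⁅B, B⁆ ⊓ T) with hq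
    haveI : (B.map q).Normal := Normal.map inferInstance q (QuotientGroup.mk'_surjective _)
    have hBD : ∀ x ∈ B, ∀ v ∈ B, ⁅x, v⁆ ∈ ⁅B, B⁆ ⊓ T := by
      have h1 : B ≤ (centralizer (B.map q : Set _)).comap q := by
        conv_lhs => rw [← hB₁eq]
        refine normalClosure_le_normal fun z hz => ?_
        show q z ∈ centralizer (B.map q : Set _)
        rw [mem_centralizer_iff]
        rintro _ ⟨v, hv, rfl⟩
        refine (commutatorElement_eq_one_iff_commute.1 ?_).symm
        rw [← map_commutatorElement]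
        refine (QuotientGroup.eq_one_iff _).2 ⟨commutator_mem_commutator hz.1 hv, ?_⟩
        rw [commutatorElement_def, mul_assoc, mul_assoc, ← mul_assoc v]
        exact T.mul_mem hz.2 ((mem_normalizer_iff.1 (hPT (hBP hv)) z⁻¹).1 (T.inv_mem hz.2))
      intro x hx v hv
      refine (QuotientGroup.eq_one_iff _).1 ?_
      show q ⁅x, v⁆ = 1
      rw [map_commutatorElement, commutatorElement_eq_one_iff_commute]
      exact (mem_centralizer_iff.1 (h1 hx) (q v) ⟨v, hv, rfl⟩).symm
    have hderT : ⁅B, B⁆ ≤ T := commutator_le.2 fun x hx v hv => (hBD x hx v hv).2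
    have hcB : ∀ c ∈ ⁅B, B⁆, ∀ b ∈ B, c * b = b * c := by
      have h1 : B ≤ centralizer ((⁅B, B⁆ : Subgroup G) : Set G) := by
        conv_lhs => rw [← hB₁eq]
        exact normalClosure_le_normal fun z hz =>
          mem_centralizer_iff.2 fun c hc => ab_ZJ _ c (hderT hc) z hz.2
      exact fun c hc b hb => mem_centralizer_iff.1 (h1 hb) c hc
    have hcA : ∀ A ∈ abMax (P : Subgroup G), ∀ c ∈ ⁅B, B⁆, ∀ a ∈ A, c * a = a * c :=
      fun A hA c hc a ha => (mem_centralizer_iff.1 (hderT hc).2 a (le_sSup hA ha)).symm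
    -- an abelian subgroup of largest order outside `X`, meeting `B` most
    obtain ⟨A₀, hA₀, hA₀X⟩ : ∃ A ∈ abMax (P : Subgroup G), ¬ A ≤ X := by
      by_contra hc
      push Not at hc
      have hJeq : J X = J (P : Subgroup G) := by
        obtain ⟨A₁, hA₁⟩ := exists_mem_abMax (P : Subgroup G)
        refine le_antisymm (sSup_le fun A hA => le_sSup ⟨hA.1.trans s.le_sylow, hA.2.1,
          fun C hC hC' => (hA₁.2.2 C hC hC').trans (hA.2.2 _ (hc A₁ hA₁) hA₁.2.1)⟩)
          (sSup_le fun A hA => le_sSup ⟨hc A hA, hA.2.1,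
            fun C hC hC' => hA.2.2 C (hC.trans s.le_sylow) hC'⟩)
      have hTn : T.Normal := by
        rw [hT, ZJ, ← hJeq, ← normalizer_eq_top_iff]
        exact top_le_iff.1 ((normalizer_eq_top (H := X)).ge.trans (normalizer_le_normalizer_ZJ X))
      exact hbad (normal_inf_normal B T)
    obtain ⟨A, ⟨hA, hAX⟩, hAmax⟩ := Set.exists_max_image
      {A : Subgroup G | A ∈ abMax (P : Subgroup G) ∧ ¬ A ≤ X}
      (fun A => Nat.card (A ⊓ B : Subgroup G)) (Set.toFinite _) ⟨A₀, hA₀, hA₀X⟩
    have hnorm : ¬ B ≤ normalizer (A : Set G) := fun hle => hAX fun a ha =>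
      s.mem_of_quadratic hp2 hBp hfaith (hA.1 ha) fun v hv => by
        have h1 : a * v * a⁻¹ * v⁻¹ ∈ A := by
          rw [mul_assoc, mul_assoc, ← mul_assoc v]
          exact A.mul_mem ha ((mem_normalizer_iff.1 (hle hv) a⁻¹).1 (A.inv_mem ha))
        exact hA.2.1 a ha _ h1
    obtain ⟨A', hA', hlt, hA'n⟩ := exists_replacement hp2 P.2 hBP
      (by rw [normalizer_eq_top]; exact le_top) hA (hcA A hA) hcB hnorm
    have hA'X : A' ≤ X := by
      by_contra hne
      exact absurd (hAmax A' ⟨hA', hne⟩) (not_le.2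
        (Set.ncard_lt_ncard (SetLike.coe_ssubset_coe.2 hlt) (Set.toFinite _)))
    have hA'max : A' ∈ abMax X :=
      ⟨hA'X, hA'.2.1, fun C hC hC' => hA'.2.2 C (hC.trans s.le_sylow) hC'⟩
    have hJle : J X ≤ J (P : Subgroup G) := sSup_le fun C hC => le_sSup
      ⟨hC.1.trans s.le_sylow, hC.2.1, fun D hD hD' =>
        (hA'.2.2 D hD hD').trans (hC.2.2 A' hA'X hA'.2.1)⟩
    haveI : (ZJ X).Normal := normalizer_eq_top_iff.1
      (top_le_iff.1 ((normalizer_eq_top (H := X)).ge.trans (normalizer_le_normalizer_ZJ X)))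
    have hBZ : B ≤ ZJ X := by
      conv_lhs => rw [← hB₁eq]
      exact normalClosure_le_normal fun z hz => ⟨le_sSup hA'max (ZJ_le_of_mem_abMax hA' hz.2),
        Subgroup.centralizer_le (fun x hx => hJle hx) hz.2.2⟩
    exact hnorm ((hBZ.trans (ZJ_le_of_mem_abMax hA'max)).trans hA'n)
  -- `Z (J P)` lies in `X`
  have hTX : T ≤ X := fun a ha => by
    refine s.mem_of_quadratic hp2 s.isPGroup (fun t ht htc => s.eq_one_of_centralizes t ht
      (mem_centralizer_iff.1 htc)) (ZJ_le _ ha) fun v hv => ?_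
    have h1 : a * v * a⁻¹ * v⁻¹ ∈ T := by
      rw [mul_assoc, mul_assoc, ← mul_assoc v]
      exact T.mul_mem ha ((mem_normalizer_iff.1 (hPT (s.le_sylow hv)) a⁻¹).1 (T.inv_mem ha))
    exact ab_ZJ _ a ha _ h1
  have h := key X inferInstance s.isPGroup
  rwa [inf_eq_right.2 hTX] at h

/-- **The Glauberman–Thompson normal `p`-complement theorem.** -/
theorem pcomp_of_ZJ (hp2 : p ≠ 2) (P : Sylow p G)
    (h : PCompOn p (normalizer (ZJ (P : Subgroup G) : Set G))) : PComp p G := by
  suffices ∀ (n : ℕ) (G : Type u) [Group G] [Finite G], Nat.card G = n → ∀ P : Sylow p G,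
      PCompOn p (normalizer (ZJ (P : Subgroup G) : Set G)) → PComp p G from this _ G rfl P h
  clear h P
  intro n
  induction n using Nat.strong_induction_on with
  | _ n ih =>
  intro G _ _ hn P h
  by_contra hG
  have hloc : ∀ K : Subgroup G, K ≠ ⊤ → (P : Subgroup G) ≤ K → PCompOn p K := by
    intro K hK hPK
    refine pcomp_subgroup.1 (ih _ (hn ▸ card_lt_of_ne_top hK) K rfl (P.subtype hPK)
      (h.of_map_le ?_))
    rw [Sylow.coe_subtype, ← map_subtype_ZJ hPK]
    exact le_normalizer_map _
  -- no normal subgroup of order prime to `p`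
  have hop : ∀ M : Subgroup G, M.Normal → ¬ p ∣ Nat.card M → M = ⊥ := by
    intro M hMn hM
    by_contra hne
    haveI := hMn
    set f := QuotientGroup.mk' M with hf
    have hinj : Set.InjOn f ((P : Subgroup G) : Set G) := fun x hx y hy he => by
      have h1 : x⁻¹ * y ∈ M := (QuotientGroup.eq (s := M)).1 he
      exact inv_mul_eq_one.1 ((reg_of_mem_of_not_dvd_card hM h1).eq_one_of_isPGroup P.2
        (mul_mem (inv_mem hx) hy))
    refine hG (pcomp_of_quotient M hM (ih _ ?_ (G ⧸ M) rfl
      (P.mapSurjective (QuotientGroup.mk'_surjective M)) ?_))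
    · rw [← hn, M.card_eq_card_quotient_mul_card_subgroup]
      exact lt_mul_of_one_lt_right Nat.card_pos ((one_lt_card_iff_ne_bot M).2 hne)
    · rw [Sylow.coe_mapSurjective, ZJ_map hinj]
      exact (h.map f).mono (normalizer_map_le hM (P.2.to_le (ZJ_le _)))
  -- the centre of `P` is central
  have hJ : PCompOn p (normalizer (J (P : Subgroup G) : Set G)) :=
    h.mono (normalizer_le_normalizer_Z _)
  have hZc : centralizer (Z (P : Subgroup G) : Set G) = ⊤ := by
    by_contra hne
    exact hG (pcomp_of_hyp hp2 P ⟨hJ, hloc _ hne fun x hx => mem_centralizer_iff.2 fun z hz =>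
      (mem_centralizer_iff.1 hz.2 x hx).symm⟩)
  have hZJn : ¬ (ZJ (P : Subgroup G)).Normal := fun hn' => hG (by
    rw [normalizer_eq_top_iff.2 hn'] at h
    exact pcompOn_top.1 h)
  have hP0 : (P : Subgroup G) ≠ ⊥ := fun h0 => hZJn (by
    rw [le_bot_iff.1 ((ZJ_le (P : Subgroup G)).trans_eq h0)]; infer_instance)
  -- the largest normal `p`-subgroup
  obtain ⟨X, ⟨hXn, hX⟩, hXmax⟩ := Set.exists_max_image
    {Y : Subgroup G | Y.Normal ∧ IsPGroup p Y} (fun Y => Nat.card Y) (Set.toFinite _)
    ⟨⊥, inferInstance, IsPGroup.of_bot⟩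
  haveI := hXn
  have hcore : ∀ Y : Subgroup G, Y.Normal → IsPGroup p Y → Y ≤ X := fun Y hY hYp => by
    haveI := hY
    have h1 := hXmax (Y ⊔ X) ⟨sup_normal Y X, hYp.to_sup_of_normal_right hX⟩
    exact le_trans le_sup_left (eq_of_le_of_card_ge le_sup_right h1).ge
  have hX0 : X ≠ ⊥ := by
    intro h0
    refine Z_ne_bot P.2 hP0 (le_bot_iff.1 (h0 ▸ hcore (Z (P : Subgroup G)) ?_ (P.2.to_le (Z_le _))))
    refine ⟨fun z hz g => ?_⟩
    have h1 : g ∈ centralizer (Z (P : Subgroup G) : Set G) := hZc ▸ mem_top g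
    rwa [← mem_centralizer_iff.1 h1 z hz, mul_inv_cancel_right]
  have hXP : X ≤ (P : Subgroup G) := by
    obtain ⟨S, hS⟩ := hX.exists_le_sylow
    obtain ⟨g, rfl⟩ := MulAction.exists_smul_eq G P S
    intro y hy
    have h1 := hS (hXn.conj_mem y hy g)
    rw [Sylow.coe_subgroup_smul, mem_pointwise_smul_iff_inv_smul_mem] at h1
    simpa [MulAut.smul_def, mul_assoc] using h1
  have hXne : X ≠ (P : Subgroup G) := fun he => hZJn (by
    rw [← normalizer_eq_top_iff]
    refine top_le_iff.1 ?_
    rw [← he]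
    exact (normalizer_eq_top (H := X)).ge.trans (normalizer_le_normalizer_ZJ _))
  -- the quotient has a normal complement
  set f := QuotientGroup.mk' X with hf
  have hfs : Function.Surjective f := QuotientGroup.mk'_surjective X
  have hker : f.ker = X := QuotientGroup.ker_mk' X
  set Pb := P.mapSurjective hfs with hPb
  have hPbc : (Pb : Subgroup (G ⧸ X)) = (P : Subgroup G).map f := Sylow.coe_mapSurjective hfs P
  have hPbne : (Pb : Subgroup (G ⧸ X)) ≠ ⊥ := by
    rw [hPbc, Ne, Subgroup.map_eq_bot_iff, hker]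
    exact fun hle => hXne (le_antisymm hXP hle)
  have hup : ∀ R : Subgroup (G ⧸ X), R ≤ (Pb : Subgroup (G ⧸ X)) → R ≠ ⊥ →
      (Pb : Subgroup (G ⧸ X)) ≤ normalizer (R : Set (G ⧸ X)) →
      PCompOn p (normalizer (R : Set (G ⧸ X))) := by
    intro R hR hR0 hPR
    set Y := R.comap f with hY
    have hYn : normalizer (Y : Set G) = (normalizer (R : Set (G ⧸ X))).comap f :=
      (comap_normalizer_eq_of_surjective _ hfs).symm
    have hne : normalizer (Y : Set G) ≠ ⊤ := fun he => hR0 <| by
      have hle : Y ≤ X := hcore Y (normalizer_eq_top_iff.1 he)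
        ((Pb.2.to_le hR).comap_of_ker_isPGroup f (by rw [hker]; exact hX))
      rw [← map_comap_eq_self_of_surjective hfs R, ← hY, Subgroup.map_eq_bot_iff, hker]
      exact hle
    have h1 := (hloc _ hne (by rw [hYn, ← map_le_iff_le_comap, ← hPbc]; exact hPR)).map f
    rwa [hYn, map_comap_eq_self_of_surjective hfs] at h1
  have hQ : PComp p (G ⧸ X) := pcomp_of_hyp hp2 Pb
    ⟨hup _ (J_le _) (J_ne_bot hPbne) (le_normalizer.trans (normalizer_le_normalizer_J _)),
      (hup _ (Z_le _) (Z_ne_bot Pb.2 hPbne)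
        (le_normalizer.trans (normalizer_le_normalizer_Z _))).mono (centralizer_le_normalizer _)⟩
  have s : Setting p P X := ⟨hG, hop, hloc, hX, hXP, hXne, hcore, hQ⟩
  exact hZJn (s.normal_ZJ hp2)

end FA.Thompson
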