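import Fermat.Agent.ThompsonTransfer.Local

/-!
# A minimal counterexample to Thompson's criterion

A counterexample of least order has no normal subgroup of order prime to `p` and a normal
`p`-subgroup `X` containing all others, whose quotient has a normal `p`-complement.
-/

set_option autoImplicit false
set_option linter.style.haveILetI false

universe u

namespace FA.Thompson

open Subgroup

/-- The hypotheses of Thompson's criterion at a Sylow subgroup. -/
def Hyp (p : ℕ) {G : Type u} [Group G] (P : Subgroup G) : Prop :=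
  PCompOn p (normalizer (J P : Set G)) ∧ PCompOn p (centralizer (Z P : Set G))

/-- The criterion holds for all smaller groups. -/
def Below (p : ℕ) (G : Type u) [Group G] : Prop :=
  ∀ (H : Type u) [Group H] [Finite H], Nat.card H < Nat.card G → ∀ P : Sylow p H,
    Hyp p (P : Subgroup H) → PComp p H

variable {p : ℕ} [hp : Fact p.Prime] {G : Type u} [Group G] [Finite G]

omit hp [Finite G] in
theorem centralizer_map_equiv {H : Type*} [Group H] (f : G ≃* H) (S : Subgroup G) :
    centralizer (S.map f.toMonoidHom : Set H) = (centralizer (S : Set G)).map f.toMonoidHom := by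
  ext y
  obtain ⟨x, rfl⟩ := f.surjective y
  rw [mem_map_equiv, f.symm_apply_apply, mem_centralizer_iff, mem_centralizer_iff]
  constructor
  · intro h z hz
    exact f.injective (by rw [map_mul, map_mul]; exact h _ ⟨z, hz, rfl⟩)
  · rintro h _ ⟨z, hz, rfl⟩
    show f z * f x = f x * f z
    rw [← map_mul, ← map_mul, h z hz]

omit hp [Finite G] in
theorem Hyp.conj {P : Subgroup G} (h : Hyp p P) (g : G) :
    Hyp p (P.map (MulAut.conj g).toMonoidHom) := by
  constructor
  · rw [J_map (MulAut.conj g).injective.injOn]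
    have := h.1.conj g
    rwa [map_equiv_normalizer_eq] at this
  · rw [Z_map (MulAut.conj g).injective.injOn, centralizer_map_equiv]
    exact h.2.conj g

theorem Hyp.all {P : Sylow p G} (h : Hyp p (P : Subgroup G)) (P' : Sylow p G) :
    Hyp p (P' : Subgroup G) := by
  obtain ⟨g, rfl⟩ := MulAction.exists_smul_eq G P P'
  exact h.conj g

omit hp [Finite G] in
theorem PCompOn.of_map_le {K : Subgroup G} {T : Subgroup K} {S : Subgroup G} (h : PCompOn p S)
    (hT : T.map K.subtype ≤ S) : PCompOn p T :=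
  (h.comap K.subtype_injective).mono (map_le_iff_le_comap.1 hT)

omit hp [Finite G] in
theorem centralizer_map_le {K : Subgroup G} (T : Subgroup K) :
    (centralizer (T : Set K)).map K.subtype ≤ centralizer (T.map K.subtype : Set G) := by
  rintro _ ⟨x, hx, rfl⟩
  rw [mem_centralizer_iff]
  rintro _ ⟨t, ht, rfl⟩
  rw [← map_mul, ← map_mul, mem_centralizer_iff.1 hx t ht]

omit hp in
theorem card_lt_of_ne_top {K : Subgroup G} (h : K ≠ ⊤) : Nat.card K < Nat.card G :=
  lt_of_le_of_ne K.card_le_card_group fun he => h (eq_top_of_card_eq _ he)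

omit hp in
theorem pcompOn_of_below (IH : Below p G) {P : Sylow p G} (h : Hyp p (P : Subgroup G))
    {K : Subgroup G} (hK : K ≠ ⊤) (hPK : (P : Subgroup G) ≤ K) : PCompOn p K := by
  refine pcomp_subgroup.1 (IH K (card_lt_of_ne_top hK) (P.subtype hPK) ⟨?_, ?_⟩)
  · refine h.1.of_map_le ?_
    rw [Sylow.coe_subtype, ← map_subtype_J hPK]
    exact le_normalizer_map _
  · refine h.2.of_map_le ?_
    rw [Sylow.coe_subtype, ← map_subtype_Z hPK]
    exact centralizer_map_le _

theorem eq_bot_of_below (IH : Below p G) (hG : ¬ PComp p G) {P : Sylow p G}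
    (h : Hyp p (P : Subgroup G)) (M : Subgroup G) [M.Normal] (hM : ¬ p ∣ Nat.card M) : M = ⊥ := by
  by_contra hne
  set f := QuotientGroup.mk' M with hf
  have hinj : Set.InjOn f ((P : Subgroup G) : Set G) := fun x hx y hy he => by
    have h1 : x⁻¹ * y ∈ M := (QuotientGroup.eq (s := M)).1 he
    exact inv_mul_eq_one.1 ((reg_of_mem_of_not_dvd_card hM h1).eq_one_of_isPGroup P.2
      (mul_mem (inv_mem hx) hy))
  refine hG (pcomp_of_quotient M hM (IH (G ⧸ M) ?_
    (P.mapSurjective (QuotientGroup.mk'_surjective M)) ⟨?_, ?_⟩))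
  · have h1 := (one_lt_card_iff_ne_bot M).2 hne
    rw [M.card_eq_card_quotient_mul_card_subgroup]
    exact lt_mul_of_one_lt_right Nat.card_pos h1
  · rw [Sylow.coe_mapSurjective, J_map hinj]
    exact (h.1.map f).mono (normalizer_map_le hM (P.2.to_le (J_le _)))
  · rw [Sylow.coe_mapSurjective, Z_map hinj]
    refine (h.2.map f).mono fun y hy => ?_
    obtain ⟨g, hg, rfl⟩ :=
      normalizer_map_le hM (P.2.to_le (Z_le _)) (centralizer_le_normalizer _ hy)
    refine ⟨g, mem_centralizer_iff.2 fun z hz => ?_, rfl⟩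
    have h1 : f (g * z * g⁻¹) = f z := by
      rw [map_mul, map_mul, map_inv, ← mem_centralizer_iff.1 hy (f z) ⟨z, hz, rfl⟩,
        mul_inv_cancel_right]
    have h2 := hinj (Z_le _ ((mem_normalizer_iff.1 hg z).1 hz)) (Z_le _ hz) h1
    exact (mul_inv_eq_iff_eq_mul.1 h2).symm

/-- A subgroup witnessing the failure of the local criterion. -/
def Bad (p : ℕ) (X : Subgroup G) : Prop :=
  IsPGroup p X ∧ X ≠ ⊥ ∧ ¬ PCompOn p (normalizer (X : Set G))

/-- The maximal normal `p`-subgroup of a minimal counterexample. -/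
theorem exists_core (IH : Below p G) (hG : ¬ PComp p G) {P : Sylow p G}
    (h : Hyp p (P : Subgroup G)) :
    ∃ X : Subgroup G, X.Normal ∧ IsPGroup p X ∧ X ≠ ⊥ ∧ X ≤ (P : Subgroup G) ∧
      X ≠ (P : Subgroup G) ∧ (∀ Y : Subgroup G, Y.Normal → IsPGroup p Y → Y ≤ X) ∧
      ∀ Y : Subgroup G, (P : Subgroup G) ≤ normalizer (Y : Set G) → IsPGroup p Y → X < Y →
        PCompOn p (normalizer (Y : Set G)) := by
  obtain ⟨X₀, hX₀⟩ : ∃ X : Subgroup G, Bad p X := by
    by_contra hc
    refine hG (pcomp_of_local fun X hX hne => ?_)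
    by_contra hb
    exact hc ⟨X, hX, hne, hb⟩
  obtain ⟨X, hX, hmax⟩ := Set.exists_max_image {X : Subgroup G | Bad p X}
    (fun X => pPart p (normalizer (X : Set G)) * (Nat.card G + 1) + Nat.card X)
    (Set.toFinite _) ⟨X₀, hX₀⟩
  have hbig : ∀ Y : Subgroup G, IsPGroup p Y → Y ≠ ⊥ →
      pPart p (normalizer (X : Set G)) < pPart p (normalizer (Y : Set G)) →
      PCompOn p (normalizer (Y : Set G)) := by
    intro Y hY hne hlt
    by_contra hb
    have h1 := hmax Y ⟨hY, hne, hb⟩
    have h2 := Nat.mul_le_mul_right (Nat.card G + 1) (Nat.succ_le_of_lt hlt)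
    rw [Nat.succ_mul] at h2
    have h3 := X.card_le_card_group
    omega
  set N := normalizer (X : Set G) with hN
  -- `X` is normal
  have hNtop : N = ⊤ := by
    by_contra hne
    obtain ⟨Q, hQN, hQ, hQcard⟩ := exists_pPart (p := p) N
    obtain ⟨P', hP'⟩ := hQ.exists_le_sylow
    by_cases hle : (P' : Subgroup G) ≤ N
    · exact hX.2.2 (pcompOn_of_below IH (h.all P') hne hle)
    have hR : Q = (P' : Subgroup G) ⊓ N := eq_of_le_of_card_ge (le_inf hP' hQN)
      (hQcard ▸ card_le_pPart (P'.2.to_le inf_le_left) inf_le_right)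
    have hQlt : Q < P' := lt_of_le_of_ne hP' fun he => hle (he ▸ hQN)
    obtain ⟨x, hxP, hxQ, hxn⟩ := exists_normalizing P'.2 hQlt
    have hQ0 : Q ≠ ⊥ := by
      intro hQ0
      have h1 := card_le_pPart hX.1 (le_normalizer : X ≤ N)
      rw [← hQcard, hQ0, card_bot] at h1
      exact hX.2.1 (card_eq_one.1 (le_antisymm h1 Nat.card_pos))
    have hW : ∀ Y : Subgroup G, normalizer (Q : Set G) ≤ normalizer (Y : Set G) →
        pPart p N < pPart p (normalizer (Y : Set G)) := by
      intro Y hY
      rw [← hQcard]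
      refine lt_of_lt_of_le ?_ (card_le_pPart (Q := Q ⊔ zpowers x)
        (P'.2.to_le (sup_le hP' (zpowers_le.2 hxP)))
        (sup_le (le_normalizer.trans hY) (zpowers_le.2 (hY hxn))))
      exact Set.ncard_lt_ncard (Set.ssubset_iff_exists.2
        ⟨(le_sup_left : Q ≤ Q ⊔ zpowers x), x, le_sup_right (a := Q) (mem_zpowers x), hxQ⟩)
        (Set.toFinite _)
    let R : Sylow p N := Sylow.ofCard (Q.subgroupOf N) (by
      rw [Nat.card_congr (subgroupOfEquivOfLe hQN).toEquiv, hQcard, pPart])
    refine hX.2.2 (pcomp_subgroup.1 (IH N (card_lt_of_ne_top hne) R ⟨?_, ?_⟩))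
    · refine (hbig (J Q) (hQ.to_le (J_le _)) (J_ne_bot hQ0)
        (hW _ (normalizer_le_normalizer_J Q))).of_map_le ?_
      show _ ≤ normalizer (J Q : Set G)
      rw [← map_subtype_J hQN]
      exact le_normalizer_map _
    · refine ((hbig (Z Q) (hQ.to_le (Z_le _)) (Z_ne_bot hQ hQ0)
        (hW _ (normalizer_le_normalizer_Z Q))).mono (centralizer_le_normalizer _)).of_map_le ?_
      show _ ≤ centralizer (Z Q : Set G)
      rw [← map_subtype_Z hQN]
      exact centralizer_map_le _
  have hXn : X.Normal := normalizer_eq_top_iff.1 hNtop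
  have hXP : ∀ Y : Subgroup G, Y.Normal → IsPGroup p Y → Y ≤ P := by
    intro Y hYn hY
    obtain ⟨S, hS⟩ := hY.exists_le_sylow
    obtain ⟨g, rfl⟩ := MulAction.exists_smul_eq G P S
    intro y hy
    have h1 := hS (hYn.conj_mem y hy g)
    rw [Sylow.coe_subgroup_smul, mem_pointwise_smul_iff_inv_smul_mem] at h1
    simpa [MulAut.smul_def, mul_assoc] using h1
  have hall : ∀ Y : Subgroup G, (P : Subgroup G) ≤ normalizer (Y : Set G) → IsPGroup p Y → X < Y →
      PCompOn p (normalizer (Y : Set G)) := by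
    intro Y hPY hY hlt
    by_contra hb
    have h1 := hmax Y ⟨hY, (bot_le.trans_lt hlt).ne', hb⟩
    have h2 : Nat.card X < Nat.card Y :=
      Set.ncard_lt_ncard (SetLike.coe_ssubset_coe.2 hlt) (Set.toFinite _)
    have h3 : pPart p N ≤ pPart p (normalizer (Y : Set G)) := by
      obtain ⟨Q, -, hQ, hQc⟩ := exists_pPart (p := p) N
      obtain ⟨S, hS⟩ := hQ.exists_le_sylow
      calc pPart p N = Nat.card Q := hQc.symm
        _ ≤ Nat.card (S : Subgroup G) := card_le_of_le hS
        _ = Nat.card (P : Subgroup G) := by rw [S.card_eq_multiplicity, P.card_eq_multiplicity]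
        _ ≤ _ := card_le_pPart P.2 hPY
    have := Nat.mul_le_mul_right (Nat.card G + 1) h3
    omega
  refine ⟨X, hXn, hX.1, hX.2.1, hXP X hXn hX.1, fun he => ?_, fun Y hYn hY => ?_, hall⟩
  · refine hG (pcompOn_top.1 (h.1.mono ?_))
    rw [← hNtop, hN, he]
    exact normalizer_le_normalizer_J _
  · by_contra hle
    haveI := hXn
    have h1 : IsPGroup p (Y ⊔ X : Subgroup G) := hY.to_sup_of_normal_right hX.1
    have hn : (Y ⊔ X : Subgroup G).Normal := sup_normal Y X
    have h2 := hall _ (by rw [normalizer_eq_top]; exact le_top) h1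
      (lt_of_le_of_ne le_sup_right fun he => hle (he ▸ le_sup_left))
    rw [normalizer_eq_top] at h2
    exact hG (pcompOn_top.1 h2)

end FA.Thompson
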