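import Fermat.Agent.ThompsonTransfer.PComp
import Mathlib.GroupTheory.PGroup
import Mathlib.Data.Set.Finite.Lemmas

/-!
# The Thompson subgroup and the centre of a subgroup

`J S` is generated by the abelian subgroups of `S` of largest order; `Z S` is the centre of `S`.
-/

set_option autoImplicit false
set_option linter.style.haveILetI false

namespace FA.Thompson

open Subgroup

variable {G H : Type*} [Group G] [Group H]

/-- The elements of the subgroup commute. -/
def Ab (A : Subgroup G) : Prop := ∀ x ∈ A, ∀ y ∈ A, x * y = y * x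

/-- The abelian subgroups of largest order. -/
def abMax (S : Subgroup G) : Set (Subgroup G) :=
  {A | A ≤ S ∧ Ab A ∧ ∀ B ≤ S, Ab B → Nat.card B ≤ Nat.card A}

/-- The Thompson subgroup. -/
def J (S : Subgroup G) : Subgroup G := sSup (abMax S)

/-- The centre of a subgroup. -/
def Z (S : Subgroup G) : Subgroup G := S ⊓ centralizer (S : Set G)

theorem J_le (S : Subgroup G) : J S ≤ S := sSup_le fun _ hA => hA.1

theorem Z_le (S : Subgroup G) : Z S ≤ S := inf_le_left

theorem ab_map {A : Subgroup G} (hA : Ab A) (f : G →* H) : Ab (A.map f) := by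
  rintro _ ⟨x, hx, rfl⟩ _ ⟨y, hy, rfl⟩
  rw [← map_mul, ← map_mul, hA x hx y hy]

theorem ab_zpowers (x : G) : Ab (zpowers x) := by
  rintro _ ⟨i, rfl⟩ _ ⟨j, rfl⟩
  exact zpow_mul_comm x i j

theorem ab_sup {A B : Subgroup G} (hA : Ab A) (hB : Ab B)
    (hAB : ∀ x ∈ A, ∀ y ∈ B, x * y = y * x) : Ab (A ⊔ B) := by
  have hAc : A ≤ centralizer (A : Set G) := fun x hx =>
    mem_centralizer_iff.2 fun y hy => hA y hy x hx
  have hBc : B ≤ centralizer (B : Set G) := fun x hx =>
    mem_centralizer_iff.2 fun y hy => hB y hy x hx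
  have h1 : A ⊔ B ≤ centralizer (A : Set G) := sup_le hAc fun y hy =>
    mem_centralizer_iff.2 fun x hx => hAB x hx y hy
  have h2 : A ⊔ B ≤ centralizer (B : Set G) := sup_le (fun x hx =>
    mem_centralizer_iff.2 fun y hy => (hAB x hx y hy).symm) hBc
  intro x hx y hy
  have h3 : A ⊔ B ≤ centralizer ({x} : Set G) := sup_le
    (fun a ha => mem_centralizer_iff.2 fun z hz => by
      rw [Set.mem_singleton_iff] at hz
      rw [hz]
      exact (mem_centralizer_iff.1 (h1 hx) a ha).symm)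
    (fun b hb => mem_centralizer_iff.2 fun z hz => by
      rw [Set.mem_singleton_iff] at hz
      rw [hz]
      exact (mem_centralizer_iff.1 (h2 hx) b hb).symm)
  exact mem_centralizer_iff.1 (h3 hy) x rfl

theorem exists_mem_abMax [Finite G] (S : Subgroup G) : ∃ A, A ∈ abMax S := by
  obtain ⟨A, ⟨hAS, hA⟩, hmax⟩ := Set.exists_max_image {A : Subgroup G | A ≤ S ∧ Ab A}
    (fun A => Nat.card A) (Set.toFinite _)
    ⟨⊥, bot_le, fun x hx y hy => by rw [mem_bot.1 hx, mem_bot.1 hy]⟩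
  exact ⟨A, hAS, hA, fun B hB hB' => hmax B ⟨hB, hB'⟩⟩

theorem J_ne_bot [Finite G] {S : Subgroup G} (hS : S ≠ ⊥) : J S ≠ ⊥ := by
  obtain ⟨A, hA⟩ := exists_mem_abMax S
  obtain ⟨x, hx, hx1⟩ := (bot_or_exists_ne_one S).resolve_left hS
  intro h
  have hA0 : A = ⊥ := le_bot_iff.1 (h ▸ le_sSup hA)
  have h1 := hA.2.2 _ (zpowers_le.2 hx) (ab_zpowers x)
  rw [hA0, card_bot, Nat.card_zpowers] at h1
  exact hx1 (orderOf_eq_one_iff.1 (le_antisymm h1 (orderOf_pos x)))

theorem Z_ne_bot {p : ℕ} [Fact p.Prime] [Finite G] {S : Subgroup G} (hS : IsPGroup p S)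
    (hne : S ≠ ⊥) : Z S ≠ ⊥ := by
  haveI : Nontrivial S := (nontrivial_iff_ne_bot S).2 hne
  haveI := hS.center_nontrivial
  obtain ⟨z, hz⟩ := exists_ne (1 : center S)
  intro h
  refine hz (Subtype.ext (Subtype.ext ?_))
  rw [coe_one, coe_one, ← mem_bot (x := ((z : S) : G)), ← h]
  exact ⟨z.1.2, mem_centralizer_iff.2 fun x hx =>
    congrArg Subtype.val (mem_center_iff.1 z.2 ⟨x, hx⟩)⟩

section Map

variable {f : G →* H} {S : Subgroup G}

theorem card_map_of_injOn (hf : Set.InjOn f (S : Set G)) {T : Subgroup G} (hT : T ≤ S) :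
    Nat.card (T.map f) = Nat.card T := by
  show Nat.card (f '' (T : Set G) : Set H) = _
  exact Nat.card_image_of_injOn (hf.mono hT)

theorem eq_map_of_le_map {R : Subgroup H} (hR : R ≤ S.map f) : R = (R.comap f ⊓ S).map f := by
  refine le_antisymm (fun y hy => ?_) ?_
  · obtain ⟨x, hx, rfl⟩ := hR hy
    exact ⟨x, ⟨hy, hx⟩, rfl⟩
  · rintro _ ⟨x, hx, rfl⟩
    exact hx.1

theorem ab_of_map (hf : Set.InjOn f (S : Set G)) {T : Subgroup G} (hT : T ≤ S)
    (h : Ab (T.map f)) : Ab T := fun x hx y hy =>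
  hf (S.mul_mem (hT hx) (hT hy)) (S.mul_mem (hT hy) (hT hx))
    (by rw [map_mul, map_mul, h _ ⟨x, hx, rfl⟩ _ ⟨y, hy, rfl⟩])

theorem J_map (hf : Set.InjOn f (S : Set G)) : J (S.map f) = (J S).map f := by
  refine le_antisymm (sSup_le fun R hR => ?_) (map_le_iff_le_comap.2 (sSup_le fun A hA => ?_))
  · rw [eq_map_of_le_map hR.1]
    have hle : R.comap f ⊓ S ≤ S := inf_le_right
    refine map_mono (le_sSup ⟨hle, ab_of_map hf hle ?_, fun B hB hB' => ?_⟩)
    · rw [← eq_map_of_le_map hR.1]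
      exact hR.2.1
    · rw [← card_map_of_injOn hf hle, ← eq_map_of_le_map hR.1, ← card_map_of_injOn hf hB]
      exact hR.2.2 _ (map_mono hB) (ab_map hB' f)
  · refine map_le_iff_le_comap.1 (le_sSup ⟨map_mono hA.1, ab_map hA.2.1 f, fun B hB hB' => ?_⟩)
    rw [eq_map_of_le_map hB, card_map_of_injOn hf inf_le_right, card_map_of_injOn hf hA.1]
    exact hA.2.2 _ inf_le_right (ab_of_map hf inf_le_right (by rwa [← eq_map_of_le_map hB]))

theorem Z_map (hf : Set.InjOn f (S : Set G)) : Z (S.map f) = (Z S).map f := by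
  refine le_antisymm ?_ ?_
  · rintro _ ⟨⟨x, hx, rfl⟩, hc⟩
    refine ⟨x, ⟨hx, mem_centralizer_iff.2 fun y hy => hf (S.mul_mem hy hx) (S.mul_mem hx hy) ?_⟩,
      rfl⟩
    rw [map_mul, map_mul]
    exact mem_centralizer_iff.1 hc _ ⟨y, hy, rfl⟩
  · rintro _ ⟨x, ⟨hx, hc⟩, rfl⟩
    refine ⟨⟨x, hx, rfl⟩, mem_centralizer_iff.2 ?_⟩
    rintro _ ⟨y, hy, rfl⟩
    rw [← map_mul, ← map_mul, mem_centralizer_iff.1 hc y hy]

end Map

/-- The normaliser of `S` normalises `J S`. -/
theorem normalizer_le_normalizer_J (S : Subgroup G) :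
    normalizer (S : Set G) ≤ normalizer (J S : Set G) := fun g hg => by
  rw [mem_normalizer_iff_map_conj_eq] at hg ⊢
  rw [← J_map (MulAut.conj g).injective.injOn]
  exact congrArg J hg

/-- The normaliser of `S` normalises `Z S`. -/
theorem normalizer_le_normalizer_Z (S : Subgroup G) :
    normalizer (S : Set G) ≤ normalizer (Z S : Set G) := fun g hg => by
  rw [mem_normalizer_iff_map_conj_eq] at hg ⊢
  rw [← Z_map (MulAut.conj g).injective.injOn]
  exact congrArg Z hg

/-- A subgroup containing `S` sees the same subgroups. -/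
theorem map_subtype_J {K S : Subgroup G} (hS : S ≤ K) :
    (J (S.subgroupOf K)).map K.subtype = J S := by
  rw [← J_map K.subtype_injective.injOn, map_subgroupOf_eq_of_le hS]

theorem map_subtype_Z {K S : Subgroup G} (hS : S ≤ K) :
    (Z (S.subgroupOf K)).map K.subtype = Z S := by
  rw [← Z_map K.subtype_injective.injOn, map_subgroupOf_eq_of_le hS]

end FA.Thompson
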